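import Mathlib
import Fermat.Agent.Lib.FF.BasePoint

/-!
# S27 / (INST): the genus-zero case, directly from Riemann's inequality

If `genusFF K F = 0` (and `IsFF1 K F x`), every divisor of degree zero is principal, so
`Pic0 K F` is trivial and the S27 count `#Pic0[ℓ^k] = ℓ^(2·g·k) = 1` holds with no reduction,
no generic tuple and no zeta function.  This lets the main argument assume `0 < genusFF K F`.
-/

set_option autoImplicit false
set_option linter.style.haveILetI false

namespace Fermat.Agent.S27P.Inst.GenusZero45

open AlgebraicCurve Fermat.Agent.Lib.FF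

variable {K F : Type*} [Field K] [Field F] [Algebra K F] {x : F}

/-- In genus zero every divisor of degree zero is principal. -/
theorem principal_of_degree_zero (h : IsFF1 K F x) (hg : genusFF K F = 0) (D : Divisor K F)
    (hD : Divisor.degree D = 0) : D ∈ Divisor.principal (K := K) (F := F) := by
  have hR := BasePoint.cD_le h (-D)
  unfold RR.cD at hR
  rw [map_neg, hD, hg] at hR
  have hpos : 0 < Module.finrank K (riemannRochSpace (-D)) := by
    push_cast at hR
    omega
  haveI : Nontrivial (riemannRochSpace (-D)) := Module.nontrivial_of_finrank_pos hpos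
  obtain ⟨f, hf⟩ : ∃ f : riemannRochSpace (-D), f ≠ 0 := exists_ne 0
  have hf0 : (f : F) ≠ 0 := fun h0 => hf (Subtype.ext h0)
  have hmem := mem_riemannRochSpace_iff.mp f.2
  have hle : ∀ v : Place K F, D v ≤ v.ord (f : F) := fun v => by
    rcases hmem v with h0 | h1
    · exact absurd h0 hf0
    · simpa using h1
  haveI := h.hasPrincipalDivisors
  obtain ⟨E, hE, hEdeg⟩ := HasPrincipalDivisors.exists_divisor (K := K) (f : F) hf0
  have hED : E = D := by
    have hdeg : Divisor.degree (E - D) = 0 := by rw [map_sub, hEdeg, hD, sub_zero]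
    rw [h.degree_eq_sum] at hdeg
    have hnn : ∀ v ∈ (E - D).support, 0 ≤ (E - D) v := fun v _ => by
      rw [Finsupp.sub_apply, hE v]
      exact sub_nonneg.mpr (hle v)
    have hz := (Finset.sum_eq_zero_iff_of_nonneg hnn).mp hdeg
    ext v
    by_cases hv : v ∈ (E - D).support
    · have h1 := hz v hv
      rw [Finsupp.sub_apply] at h1
      omega
    · rw [Finsupp.notMem_support_iff, Finsupp.sub_apply] at hv
      omega
  exact ⟨f, hf0, fun v => (congrArg (fun G : Divisor K F => G v) hED).symm.trans (hE v)⟩

/-- In genus zero the degree-zero class group is trivial. -/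
theorem subsingleton_pic0 (h : IsFF1 K F x) (hg : genusFF K F = 0) :
    Subsingleton (Pic0 K F) := by
  suffices hzero : ∀ c : Pic0 K F, c = 0 from ⟨fun a b => by rw [hzero a, hzero b]⟩
  intro c
  obtain ⟨D, rfl⟩ := Pic0.mk_surjective c
  exact (QuotientAddGroup.eq_zero_iff D).mpr
    (AddSubgroup.mem_addSubgroupOf.mpr (principal_of_degree_zero h hg D.1 D.2))

/-- **S27 in genus zero**, any torsion level. -/
theorem natCard_torsion (h : IsFF1 K F x) (hg : genusFF K F = 0) (n : ℕ) :
    Nat.card (Pic0.torsion K F n) = 1 := by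
  haveI := subsingleton_pic0 h hg
  exact Nat.card_of_subsingleton 0

/-- **S27 in genus zero**, in the shape of the frozen statement. -/
theorem natCard_torsion_pow (h : IsFF1 K F x) (hg : genusFF K F = 0) (ℓ k : ℕ) :
    Nat.card (Pic0.torsion K F (ℓ ^ k)) = ℓ ^ (2 * genusFF K F * k) := by
  rw [natCard_torsion h hg, hg, Nat.mul_zero, Nat.zero_mul, pow_zero]

end Fermat.Agent.S27P.Inst.GenusZero45
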