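/-
S27 / (INST) — the bridge (GR-M) → (INJ) (helper27).

The reduction theorem `GR.exists_isRed` produces, for a model `M` with two realisations and a
valuation ring, a reduction datum `(O, red, r, xO)` with a list of properties.  This file packages
that list as `RedOut` and derives from it the literal targets of the (INJ) layer:

* `RedOut.goodRed`    : `Inj.RedPic.GoodRed O red r xO` (with the unramifiedness input of the
  special fibre, `GR.Real.exists_bad_set`);
* `RedOut.isChart_fin`, `RedOut.isChart_inf` : the two charts `Inj.Centre.IsChart` (finite chart: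
  the functions of `B`, the places where `x` has a value in `A`, the non-poles of `x̄`; chart at
  infinity: the same with `B'`, `x' = 1/x`).  The separation clause (SEP) is proved here from the
  chart description of the special fibre (`GR.Real.chart`, `GR.Real.chart'`) and Riemann–Roch;
* `RedOut.mem_finT_or_mem_infT`, `mem_finTt_or_mem_infTt` : the two charts cover everything.

With these, `Inj.Centre.IsChart.comm / smul_eq / eq_of_vals / sub_mem_ker` apply at every place.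
-/
import Mathlib
import Fermat.Agent.S27P.GR.Defs
import Fermat.Agent.S27P.Inj.RedPic
import Fermat.Agent.S27P.Inj.Centre
import Fermat.Agent.S27P.Gen.Values
import Fermat.Agent.Lib.FF.BasePoint
import Fermat.Agent.Lib.FF.ModLBase

set_option autoImplicit false

open Polynomial AlgebraicCurve IntermediateField WithZero

noncomputable section

namespace Fermat.Agent.S27P.Inst.OfIsRed

open Fermat.Agent.Lib.FF Fermat.Agent.Lib.Red.OneStep Fermat.Agent.Lib.Red.PlaceRed
open Fermat.Agent.S27P.GR Fermat.Agent.S27P.Inj.RedPic Fermat.Agent.S27P.Inj.Centre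

/-! ### Values of functions at places: complements -/

section Val

variable {L F : Type*} [Field L] [Field F] [Algebra L F]

theorem valAt_zero (P : Place L F) : ValAt P (0 : F) 0 := by
  have := valAt_algebraMap P (0 : L)
  rwa [map_zero] at this

theorem valAt_one (P : Place L F) : ValAt P (1 : F) 1 := by
  have := valAt_algebraMap P (1 : L)
  rwa [map_one] at this

theorem valAt_pow {P : Place L F} {f : F} {c : L} (h : ValAt P f c) (m : ℕ) :
    ValAt P (f ^ m) (c ^ m) := by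
  induction m with
  | zero => rw [pow_zero, pow_zero]; exact valAt_one P
  | succ m ih => rw [pow_succ, pow_succ]; exact ih.mul h

theorem valAt_sum {ι : Type*} (s : Finset ι) {P : Place L F} {f : ι → F} {c : ι → L}
    (h : ∀ i ∈ s, ValAt P (f i) (c i)) : ValAt P (∑ i ∈ s, f i) (∑ i ∈ s, c i) := by
  classical
  induction s using Finset.induction_on with
  | empty => rw [Finset.sum_empty, Finset.sum_empty]; exact valAt_zero P
  | insert a s ha ih =>
    rw [Finset.sum_insert ha, Finset.sum_insert ha]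
    exact (h a (Finset.mem_insert_self a s)).add
      (ih fun i hi => h i (Finset.mem_insert_of_mem hi))

/-- The value of a polynomial in `f` is the polynomial in the value of `f`. -/
theorem valAt_aeval {P : Place L F} {f : F} {c : L} (h : ValAt P f c) (p : L[X]) :
    ValAt P (aeval f p) (p.eval c) := by
  induction p using Polynomial.induction_on' with
  | add p q hp hq => rw [map_add, eval_add]; exact hp.add hq
  | monomial m a =>
    rw [aeval_monomial, eval_monomial]
    exact (valAt_algebraMap P a).mul (valAt_pow h m)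

/-- A function with a value at `P` has nonnegative order at `P`. -/
theorem ord_nonneg_of_valAt {P : Place L F} {f : F} {c : L} (h : ValAt P f c) : 0 ≤ P.ord f := by
  rcases P.adicValuation_le_one_iff.mp h.le_one with h0 | h0
  · rw [h0, Place.ord_zero]
  · exact h0

theorem valAt_zero_of_ord_pos {P : Place L F} {f : F} (h : 0 < P.ord f) : ValAt P f 0 := by
  refine valAt_of_ord_pos P ?_
  rwa [map_zero, sub_zero]

/-- The value of the inverse. -/
theorem valAt_inv {P : Place L F} {f : F} {c : L} (h : ValAt P f c) (hc : c ≠ 0) :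
    ValAt P f⁻¹ c⁻¹ := by
  have hf0 : f ≠ 0 := by
    rintro rfl
    exact hc (h.unique (valAt_zero P))
  have hc1 : P.adicValuation (algebraMap L F c) = 1 := adicValuation_algebraMap_eq_one P hc
  have hf1 : P.adicValuation f = 1 := by
    have e : f = (f - algebraMap L F c) + algebraMap L F c := by ring
    rw [e]
    have hlt : P.adicValuation (f - algebraMap L F c) < P.adicValuation (algebraMap L F c) := by
      rw [hc1]; exact h
    rw [P.adicValuation.map_add_eq_of_lt_right hlt, hc1]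
  have hcF : algebraMap L F c ≠ 0 := (map_ne_zero (algebraMap L F)).2 hc
  unfold ValAt at *
  have e : f⁻¹ - algebraMap L F c⁻¹ = -((f - algebraMap L F c) * (f⁻¹ * (algebraMap L F c)⁻¹)) := by
    rw [map_inv₀]
    field_simp
    ring
  rw [e, Valuation.map_neg, map_mul, map_mul, map_inv₀, map_inv₀, hf1, hc1, inv_one, mul_one,
    mul_one]
  exact h

end Val

/-! ### Separation of the places of a chart -/

section Sep

variable {k Ft : Type*} [Field k] [Field Ft] [Algebra k Ft]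

/-- On the chart `{z regular}` of a function field, two distinct places are separated by a chart
function: regular on the whole chart, vanishing at `Q`, not vanishing at `Q'`. -/
theorem exists_chart_separating {X₀ : Ft} (hFF : IsFF1 k Ft X₀) (z : Ft)
    (hpole : ∃ v : Place k Ft, v.ord z < 0)
    {Q Q' : Place k Ft} (hne : Q ≠ Q') (hQ : 0 ≤ Q.ord z) (hQ' : 0 ≤ Q'.ord z) :
    ∃ w : Ft, (∀ v : Place k Ft, 0 ≤ v.ord z → 0 ≤ v.ord w) ∧ ValAt Q w 0 ∧ ¬ ValAt Q' w 0 := by
  classical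
  have := hFF.hasPrincipalDivisors
  obtain ⟨v₀, hv₀⟩ := hpole
  have hz0 : z ≠ 0 := by
    rintro rfl
    rw [Place.ord_zero] at hv₀
    exact lt_irrefl _ hv₀
  obtain ⟨D₀, hD₀, -⟩ := HasPrincipalDivisors.exists_divisor (K := k) z hz0
  set Z : Divisor k Ft := D₀.mapRange (fun n => max (-n) 0) (by simp) with hZdef
  have hZ : ∀ v, Z v = max (-(v.ord z)) 0 := fun v => by
    rw [hZdef, Finsupp.mapRange_apply, hD₀ v]
  have hZ0 : ∀ v : Place k Ft, 0 ≤ v.ord z → Z v = 0 := fun v hv => by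
    rw [hZ v]; exact max_eq_right (by omega)
  have hZdeg : 1 ≤ Divisor.degree Z := by
    have hnn : ∀ v, 0 ≤ (Z - Finsupp.single v₀ (1 : ℤ)) v := by
      intro v
      rw [Finsupp.sub_apply, hZ v]
      by_cases hv : v = v₀
      · subst hv
        rw [Finsupp.single_eq_same]
        have := le_max_left (-(v.ord z)) 0
        omega
      · rw [Finsupp.single_eq_of_ne hv]
        have := le_max_right (-(v.ord z)) 0
        omega
    have := GenPos.degree_nonneg hFF hnn
    rw [BasePoint.degree_sub_single hFF] at this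
    omega
  obtain ⟨c₀, hc₀⟩ := BasePoint.exists_NS hFF
  set m : ℕ := (c₀ + 2).toNat with hm
  set D : Divisor k Ft := m • Z with hDdef
  have hDdeg : c₀ + 2 ≤ Divisor.degree D := by
    rw [hDdef, map_nsmul, nsmul_eq_mul]
    have h1 := Int.self_le_toNat (c₀ + 2)
    have h2 : (0 : ℤ) ≤ (m : ℤ) := Int.natCast_nonneg _
    nlinarith
  set D' : Divisor k Ft := D - Finsupp.single Q (1 : ℤ) with hD'def
  have hD'deg : c₀ + 1 ≤ Divisor.degree D' := by
    rw [hD'def, BasePoint.degree_sub_single hFF]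
    linarith
  obtain ⟨w, hw, hwQ'⟩ := BasePoint.bpf_of_degree hFF hc₀ hD'deg Q'
  have hDv : ∀ v : Place k Ft, 0 ≤ v.ord z → D v = 0 := fun v hv => by
    rw [hDdef, Finsupp.smul_apply, hZ0 v hv, smul_zero]
  have hD'Q' : D' Q' = 0 := by
    rw [hD'def, Finsupp.sub_apply, hDv Q' hQ', Finsupp.single_eq_of_ne (Ne.symm hne), sub_zero]
  have hD'Q : D' Q = -1 := by
    rw [hD'def, Finsupp.sub_apply, hDv Q hQ, Finsupp.single_eq_same, zero_sub]
  refine ⟨w, fun v hv => ?_, ?_, ?_⟩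
  · have h1 : v.adicValuation w ≤ 1 := by
      refine (hw v).trans ?_
      rw [← exp_zero, exp_le_exp, hD'def, Finsupp.sub_apply, hDv v hv]
      by_cases hvQ : v = Q
      · subst hvQ; rw [Finsupp.single_eq_same]; omega
      · rw [Finsupp.single_eq_of_ne hvQ]; omega
    rcases v.adicValuation_le_one_iff.mp h1 with h0 | h0
    · rw [h0, Place.ord_zero]
    · exact h0
  · unfold ValAt
    rw [map_zero, sub_zero]
    refine lt_of_le_of_lt (hw Q) ?_
    rw [hD'Q, ← exp_zero, exp_lt_exp]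
    norm_num
  · unfold ValAt
    rw [map_zero, sub_zero, hwQ', hD'Q', exp_zero]
    exact lt_irrefl _

/-- **(SEP).**  If the chart ring `{f regular where z is}` is generated over `k[z]` by the `c j`,
two places of the chart at which `z` and the `c j` take the same values are equal. -/
theorem eq_of_chart_vals {X₀ : Ft} (hFF : IsFF1 k Ft X₀) {n : ℕ} (z : Ft) (c : Fin n → Ft)
    (hpole : ∃ v : Place k Ft, v.ord z < 0)
    (hchart : ∀ f : Ft, (∀ v : Place k Ft, 0 ≤ v.ord z → 0 ≤ v.ord f) →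
      ∃ p : Fin n → k[X], f = ∑ j, aeval z (p j) * c j)
    (hreg : ∀ j, ∀ v : Place k Ft, 0 ≤ v.ord z → 0 ≤ v.ord (c j))
    {Q Q' : Place k Ft} (hQ : 0 ≤ Q.ord z) (hQ' : 0 ≤ Q'.ord z)
    (hz : ∀ γ : k, ValAt Q z γ → ValAt Q' z γ)
    (hc : ∀ j, ∀ γ : k, ValAt Q (c j) γ → ValAt Q' (c j) γ) : Q = Q' := by
  by_contra hne
  obtain ⟨w, hwreg, hwQ, hwQ'⟩ := exists_chart_separating hFF z hpole hne hQ hQ'
  obtain ⟨p, hp⟩ := hchart w hwreg
  obtain ⟨γz, hγz⟩ := Fermat.Agent.S27P.Gen.Values.exists_val_of_ord_nonneg hFF Q hQ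
  have hγz : ValAt Q z γz := hγz
  have hγz' : ValAt Q' z γz := hz γz hγz
  have hex : ∀ j, ∃ γ : k, ValAt Q (c j) γ := fun j =>
    Fermat.Agent.S27P.Gen.Values.exists_val_of_ord_nonneg hFF Q (hreg j Q hQ)
  choose γ hγ using hex
  have hγ' : ∀ j, ValAt Q' (c j) (γ j) := fun j => hc j (γ j) (hγ j)
  have h1 : ValAt Q w (∑ j, (p j).eval γz * γ j) := by
    rw [hp]
    exact valAt_sum _ fun j _ => (valAt_aeval hγz (p j)).mul (hγ j)
  have h2 : ValAt Q' w (∑ j, (p j).eval γz * γ j) := by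
    rw [hp]
    exact valAt_sum _ fun j _ => (valAt_aeval hγz' (p j)).mul (hγ' j)
  have h0 : (∑ j, (p j).eval γz * γ j) = 0 := h1.unique hwQ
  rw [h0] at h2
  exact hwQ' h2

end Sep

/-! ### The output of the reduction theorem -/

section Out

variable {Λ U : Type*} [CommRing Λ] [CommRing U] [Algebra Λ U] {n : ℕ}
  {K' F' k Ft : Type*} [Field K'] [Field F'] [Algebra K' F'] [Field k] [Field Ft] [Algebra k Ft]

/-- **The output clauses of `GR.exists_isRed`**, as a structure (same order). -/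
structure RedOut (M : Model Λ U n) (ψ₁ : U →+* F') (ψ₂ : U →+* Ft) (A : ValuationSubring K')
    (π : A →+* k) (O : ValuationSubring F') (red : O →+* Ft) (r : Place K' F' → Place k Ft)
    (xO : Oˣ) : Prop where
  hx₁ : ((xO : O) : F') = ψ₁ M.x
  hx₂ : red (xO : O) = ψ₂ M.x
  isRed : IsRed O red r
  surj : Function.Surjective r
  ff₁ : IsFF1 K' F' (ψ₁ M.x)
  ff₂ : IsFF1 k Ft (ψ₂ M.x)
  genus : genusFF K' F' = genusFF k Ft
  finrank : Module.finrank K'⟮ψ₁ M.x⟯ F' = Module.finrank k⟮ψ₂ M.x⟯ Ft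
  lift : ∀ γ : k, ∃ c : O, IsConst K' c ∧ red c = algebraMap k Ft γ
  compat : ∀ u : U, ∃ h : ψ₁ u ∈ O, red ⟨ψ₁ u, h⟩ = ψ₂ u
  ev : ∀ (P : Place K' F') (γ₀ : k), EvK A π P (ψ₁ M.x) γ₀ → ∀ u : M.B, ∃ γ : k,
    EvK A π P (ψ₁ (u : U)) γ ∧ (r P).adicValuation (ψ₂ (u : U) - algebraMap k Ft γ) < 1
  ev' : ∀ (P : Place K' F') (γ₀ : k), EvK A π P (ψ₁ M.x') γ₀ → ∀ u : M.B', ∃ γ : k,
    EvK A π P (ψ₁ (u : U)) γ ∧ (r P).adicValuation (ψ₂ (u : U) - algebraMap k Ft γ) < 1

variable {M : Model Λ U n} {ψ₁ : U →+* F'} {ψ₂ : U →+* Ft} {A : ValuationSubring K'}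
  {π : A →+* k} {O : ValuationSubring F'} {red : O →+* Ft} {r : Place K' F' → Place k Ft}
  {xO : Oˣ}

theorem finrank_adjoin_congr {K E : Type*} [Field K] [Field E] [Algebra K E] {a b : E}
    (h : a = b) : Module.finrank K⟮a⟯ E = Module.finrank K⟮b⟯ E := by
  subst h; rfl

/-- **`GoodRed` from the output of the reduction theorem.** -/
theorem RedOut.goodRed [IsAlgClosed K'] [IsAlgClosed k] (h : RedOut M ψ₁ ψ₂ A π O red r xO)
    (hbad : ∃ S₀ : Finset (Place k Ft), ∀ Q ∉ S₀, 0 ≤ Q.ord (ψ₂ M.x) ∧ ∀ γ : k,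
      0 < Q.ord (ψ₂ M.x - algebraMap k Ft γ) → Q.ord (ψ₂ M.x - algebraMap k Ft γ) = 1) :
    GoodRed O red r xO := by
  have hx₁ := h.hx₁
  have hx₂ := h.hx₂
  have ffL : IsFF1 K' F' ((xO : O) : F') := by rw [hx₁]; exact h.ff₁
  have ffk : IsFF1 k Ft (red (xO : O)) := by rw [hx₂]; exact h.ff₂
  refine { isRed := h.isRed, ffL := ffL, ffk := ffk, surj := h.surj, genus := h.genus.le,
           deg := ?_, lift := h.lift, unram := ?_ }
  · rw [ffL.degree_poleDiv_eq, ffk.degree_poleDiv_eq, finrank_adjoin_congr hx₁,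
      finrank_adjoin_congr hx₂, h.finrank]
  · rw [hx₂]
    exact hbad

/-! ### The two charts -/

/-- A chart of the reduction datum: the chart ring `C ⊆ U` with coordinate `z` and generators
`β`; the values of the functions of `C` commute with the reduction of places (`hev`), and the
chart ring of the special fibre is generated over `k[z̄]` by the `ψ₂ (β j)` (`hchart`). -/
theorem isChart_of {X₀ : Ft} (hFF : IsFF1 k Ft X₀)
    (hcompat : ∀ u : U, ∃ h : ψ₁ u ∈ O, red ⟨ψ₁ u, h⟩ = ψ₂ u)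
    (C : Subalgebra Λ U) (z : U) (hzC : z ∈ C) (β : Fin n → C)
    (hev : ∀ (P : Place K' F') (γ₀ : k), EvK A π P (ψ₁ z) γ₀ → ∀ u : C, ∃ γ : k,
      EvK A π P (ψ₁ (u : U)) γ ∧ (r P).adicValuation (ψ₂ (u : U) - algebraMap k Ft γ) < 1)
    (hpole : ∃ v : Place k Ft, v.ord (ψ₂ z) < 0)
    (hchart : ∀ f : Ft, (∀ v : Place k Ft, 0 ≤ v.ord (ψ₂ z) → 0 ≤ v.ord f) ↔
      ∃ p : Fin n → k[X], f = ∑ j, aeval (ψ₂ z) (p j) * ψ₂ (β j : U)) :
    IsChart A π O red r {f : O | ∃ u : C, (f : F') = ψ₁ (u : U)}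
      {P : Place K' F' | ∃ γ₀ : k, EvK A π P (ψ₁ z) γ₀} {Q : Place k Ft | 0 ≤ Q.ord (ψ₂ z)} := by
  classical
  -- the reduction of a function of the chart
  have hred : ∀ (f : O) (u : C), (f : F') = ψ₁ (u : U) → red f = ψ₂ (u : U) := by
    intro f u hfu
    obtain ⟨h', hr⟩ := hcompat (u : U)
    have : f = ⟨ψ₁ (u : U), h'⟩ := Subtype.ext hfu
    rw [this, hr]
  refine ⟨?_, ?_, ?_⟩
  · rintro P ⟨γ₀, hγ₀⟩
    obtain ⟨γ, -, hγ⟩ := hev P γ₀ hγ₀ ⟨z, hzC⟩
    exact ord_nonneg_of_valAt (c := γ) hγ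
  · rintro P ⟨γ₀, hγ₀⟩ f ⟨u, hfu⟩
    obtain ⟨γ, ⟨a, haγ, haP⟩, hγ⟩ := hev P γ₀ hγ₀ u
    refine ⟨a, ?_, ?_⟩
    · show P.adicValuation ((f : F') - algebraMap K' F' (a : K')) < 1
      rw [hfu]
      exact haP
    · show (r P).adicValuation (red f - algebraMap k Ft (π a)) < 1
      rw [hred f u hfu, haγ]
      exact hγ
  · intro Q hQ Q' hQ' H
    -- the functions of the chart ring as elements of `O`
    have hS : ∀ u : C, ∀ γ : k, ValAt Q (ψ₂ (u : U)) γ → ValAt Q' (ψ₂ (u : U)) γ := by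
      intro u γ hγ
      obtain ⟨h', hr⟩ := hcompat (u : U)
      have := H ⟨ψ₁ (u : U), h'⟩ ⟨u, rfl⟩ γ (by rw [hr]; exact hγ)
      rwa [hr] at this
    refine eq_of_chart_vals hFF (ψ₂ z) (fun j => ψ₂ (β j : U)) hpole
      (fun f hf => (hchart f).1 hf) (fun j => ?_) hQ hQ' (hS ⟨z, hzC⟩) (fun j => hS (β j))
    refine (hchart (ψ₂ (β j : U))).2 ⟨Pi.single j 1, ?_⟩
    rw [Finset.sum_eq_single j]
    · rw [Pi.single_eq_same, map_one, one_mul]
    · intro i _ hij
      rw [Pi.single_eq_of_ne hij, map_zero, zero_mul]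
    · intro hj
      exact absurd (Finset.mem_univ j) hj

/-- The functions of the finite chart. -/
def finS (M : Model Λ U n) (ψ₁ : U →+* F') (O : ValuationSubring F') : Set O :=
  {f | ∃ u : M.B, (f : F') = ψ₁ (u : U)}

/-- The places of the generic fibre on the finite chart: `x` has a value in `A`. -/
def finT (M : Model Λ U n) (ψ₁ : U →+* F') (A : ValuationSubring K') (π : A →+* k) :
    Set (Place K' F') :=
  {P | ∃ γ₀ : k, EvK A π P (ψ₁ M.x) γ₀}

/-- The places of the special fibre on the finite chart: the non-poles of `x̄`. -/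
def finTt (M : Model Λ U n) (ψ₂ : U →+* Ft) : Set (Place k Ft) :=
  {Q | 0 ≤ Q.ord (ψ₂ M.x)}

/-- The functions of the chart at infinity. -/
def infS (M : Model Λ U n) (ψ₁ : U →+* F') (O : ValuationSubring F') : Set O :=
  {f | ∃ u : M.B', (f : F') = ψ₁ (u : U)}

/-- The places of the generic fibre on the chart at infinity: `x' = 1/x` has a value in `A`. -/
def infT (M : Model Λ U n) (ψ₁ : U →+* F') (A : ValuationSubring K') (π : A →+* k) :
    Set (Place K' F') :=
  {P | ∃ γ₀ : k, EvK A π P (ψ₁ M.x') γ₀}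

/-- The places of the special fibre on the chart at infinity: the non-poles of `x̄' = 1/x̄`. -/
def infTt (M : Model Λ U n) (ψ₂ : U →+* Ft) : Set (Place k Ft) :=
  {Q | 0 ≤ Q.ord (ψ₂ M.x')}

theorem map_x'_eq_inv {E : Type*} [Field E] (ψ : U →+* E) (M : Model Λ U n) :
    ψ M.x' = (ψ M.x)⁻¹ := by
  have h : ψ M.x * ψ M.x' = 1 := by rw [← map_mul, M.hxx', map_one]
  exact eq_inv_of_mul_eq_one_right h

theorem mem_infTt_iff {M : Model Λ U n} {ψ₂ : U →+* Ft} {Q : Place k Ft} :
    Q ∈ infTt M ψ₂ ↔ Q.ord (ψ₂ M.x) ≤ 0 := by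
  show 0 ≤ Q.ord (ψ₂ M.x') ↔ _
  rw [map_x'_eq_inv, Place.ord_inv]
  omega

/-- **The finite chart.** -/
theorem RedOut.isChart_fin (h : RedOut M ψ₁ ψ₂ A π O red r xO)
    (hchart : ∀ f : Ft, (∀ v : Place k Ft, 0 ≤ v.ord (ψ₂ M.x) → 0 ≤ v.ord f) ↔
      ∃ p : Fin n → k[X], f = ∑ j, aeval (ψ₂ M.x) (p j) * ψ₂ (M.b j : U)) :
    IsChart A π O red r (finS M ψ₁ O) (finT M ψ₁ A π) (finTt M ψ₂) :=
  isChart_of h.ff₂ h.compat M.B M.x M.hx M.b h.ev h.ff₂.exists_pole hchart

/-- **The chart at infinity.** -/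
theorem RedOut.isChart_inf (h : RedOut M ψ₁ ψ₂ A π O red r xO)
    (hchart' : ∀ f : Ft, (∀ v : Place k Ft, v.ord (ψ₂ M.x) ≤ 0 → 0 ≤ v.ord f) ↔
      ∃ p : Fin n → k[X], f = ∑ j, aeval (ψ₂ M.x)⁻¹ (p j) * ψ₂ (M.b' j : U)) :
    IsChart A π O red r (infS M ψ₁ O) (infT M ψ₁ A π) (infTt M ψ₂) := by
  have hinv := map_x'_eq_inv ψ₂ M
  refine isChart_of h.ff₂ h.compat M.B' M.x' M.hx' M.b' h.ev' ?_ ?_
  · obtain ⟨v, hv⟩ := h.ff₂.exists_zero_sub 0
    rw [map_zero, sub_zero] at hv
    exact ⟨v, by rw [hinv, Place.ord_inv]; omega⟩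
  · intro f
    rw [hinv]
    refine Iff.trans ⟨fun H v hv => H v ?_, fun H v hv => H v ?_⟩ (hchart' f)
    · rw [Place.ord_inv]; omega
    · rw [Place.ord_inv] at hv; omega

/-! ### The charts cover everything -/

/-- Every place of the generic fibre lies on one of the two charts. -/
theorem RedOut.mem_finT_or_mem_infT (h : RedOut M ψ₁ ψ₂ A π O red r xO) (P : Place K' F') :
    P ∈ finT M ψ₁ A π ∨ P ∈ infT M ψ₁ A π := by
  have hinv := map_x'_eq_inv ψ₁ M
  by_cases hP : 0 ≤ P.ord (ψ₁ M.x)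
  · obtain ⟨c, hc⟩ := Fermat.Agent.S27P.Gen.Values.exists_val_of_ord_nonneg h.ff₁ P hP
    have hc : ValAt P (ψ₁ M.x) c := hc
    by_cases hcA : c ∈ A
    · exact Or.inl ⟨π ⟨c, hcA⟩, ⟨c, hcA⟩, rfl, hc⟩
    · have hcinv : c⁻¹ ∈ A := (A.mem_or_inv_mem c).resolve_left hcA
      have hc0 : c ≠ 0 := by
        rintro rfl
        exact hcA A.zero_mem
      refine Or.inr ⟨π ⟨c⁻¹, hcinv⟩, ⟨c⁻¹, hcinv⟩, rfl, ?_⟩
      show ValAt P (ψ₁ M.x') c⁻¹
      rw [hinv]
      exact valAt_inv hc hc0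
  · refine Or.inr ⟨0, EvK.of_lt_one ?_⟩
    have hpos : 0 < P.ord (ψ₁ M.x') := by rw [hinv, Place.ord_inv]; omega
    have := valAt_zero_of_ord_pos hpos
    unfold ValAt at this
    rwa [map_zero, sub_zero] at this

/-- Every place of the special fibre lies on one of the two charts. -/
theorem mem_finTt_or_mem_infTt (M : Model Λ U n) (ψ₂ : U →+* Ft) (Q : Place k Ft) :
    Q ∈ finTt M ψ₂ ∨ Q ∈ infTt M ψ₂ := by
  rw [mem_infTt_iff]
  show 0 ≤ Q.ord (ψ₂ M.x) ∨ _
  omega

/-- A place at which `x` takes a value of `A` lies on the finite chart. -/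
theorem mem_finT_of_valAt {P : Place K' F'} (a : A) (ha : ValAt P (ψ₁ M.x) (a : K')) :
    P ∈ finT M ψ₁ A π :=
  ⟨π a, a, rfl, ha⟩

/-- A place at which `x' = 1/x` takes a value of `A` lies on the chart at infinity. -/
theorem mem_infT_of_valAt {P : Place K' F'} (a : A) (ha : ValAt P (ψ₁ M.x') (a : K')) :
    P ∈ infT M ψ₁ A π :=
  ⟨π a, a, rfl, ha⟩

end Out

end Fermat.Agent.S27P.Inst.OfIsRed
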