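/-
S27 / (INST) — the universal domain (helper27).

`Omega K g := AlgebraicClosure (FractionRing (MvPolynomial (Fin g) K))`: an algebraically closed
extension of `K` of transcendence degree `g`, in the universe of `K`, with the coordinates
`tcoord K g i` (the images of the variables), which form a transcendence basis.

* `algebraicIndependent_tcoord`, `isTranscendenceBasis_tcoord`, `trdeg_eq`, `trdeg_lt`;
* `isAlgebraic_adjoin_tcoord`: every element of `Omega K g` is algebraic over `K(t_1, …, t_g)`;
* `exists_embedding`: a function field `F ⊇ K(x)` (finite over `K(x)`, `x` transcendental) embeds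
  in `Omega K g` over `K` with `x ↦ t_i`;
* `exists_embedding_of_transcendental`: the same with any transcendental target.

Mathlib only; universe-polymorphic (`K : Type u`, `F : Type v`).
-/
import Mathlib

set_option autoImplicit false

universe u v

noncomputable section

namespace Fermat.Agent.S27P.Inst

open scoped IntermediateField

/-- **The universal domain**: an algebraic closure of the field of rational functions in `g`
variables over `K`. -/
abbrev Omega (K : Type u) [Field K] (g : ℕ) : Type u :=
  AlgebraicClosure (FractionRing (MvPolynomial (Fin g) K))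

variable (K : Type u) [Field K] (g : ℕ)

/-- The coordinates `t_1, …, t_g` of the universal domain. -/
def tcoord (i : Fin g) : Omega K g :=
  algebraMap (MvPolynomial (Fin g) K) (Omega K g) (MvPolynomial.X i)

theorem tcoord_eq_comp :
    tcoord K g = algebraMap (MvPolynomial (Fin g) K) (Omega K g) ∘ MvPolynomial.X := rfl

/-- The coordinates form a transcendence basis of `Omega K g` over `K`. -/
theorem isTranscendenceBasis_tcoord : IsTranscendenceBasis K (tcoord K g) := by
  have h1 : Algebra.IsAlgebraic (MvPolynomial (Fin g) K)
      (FractionRing (MvPolynomial (Fin g) K)) :=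
    IsLocalization.isAlgebraic _ (nonZeroDivisors (MvPolynomial (Fin g) K))
  have h2 : Algebra.IsAlgebraic (MvPolynomial (Fin g) K) (Omega K g) :=
    Algebra.IsAlgebraic.trans _ (FractionRing (MvPolynomial (Fin g) K)) _
  have hinj : Function.Injective (algebraMap (MvPolynomial (Fin g) K) (Omega K g)) := by
    rw [IsScalarTower.algebraMap_eq (MvPolynomial (Fin g) K)
      (FractionRing (MvPolynomial (Fin g) K)) (Omega K g)]
    exact (algebraMap (FractionRing (MvPolynomial (Fin g) K)) (Omega K g)).injective.comp
      (IsFractionRing.injective _ _)
  have h3 : FaithfulSMul (MvPolynomial (Fin g) K) (Omega K g) :=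
    (faithfulSMul_iff_algebraMap_injective _ _).2 hinj
  rw [tcoord_eq_comp]
  exact (IsTranscendenceBasis.mvPolynomial (Fin g) K).algebraMap_comp

theorem algebraicIndependent_tcoord : AlgebraicIndependent K (tcoord K g) :=
  (isTranscendenceBasis_tcoord K g).1

theorem tcoord_injective : Function.Injective (tcoord K g) :=
  (algebraicIndependent_tcoord K g).injective

theorem transcendental_tcoord (i : Fin g) : Transcendental K (tcoord K g i) :=
  (algebraicIndependent_tcoord K g).transcendental i

/-- `Omega K g` has transcendence degree `g` over `K`. -/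
theorem trdeg_eq : Algebra.trdeg K (Omega K g) = (g : Cardinal.{u}) := by
  have h := (isTranscendenceBasis_tcoord K g).lift_cardinalMk_eq_trdeg
  rw [Cardinal.mk_fin, Cardinal.lift_natCast, Cardinal.lift_id'] at h
  exact h.symm

theorem trdeg_lt : Algebra.trdeg K (Omega K g) < Cardinal.aleph0 := by
  rw [trdeg_eq]
  exact Cardinal.natCast_lt_aleph0

/-- Every element of the universal domain is algebraic over `K(t_1, …, t_g)`. -/
theorem isAlgebraic_adjoin_tcoord (y : Omega K g) :
    IsAlgebraic (IntermediateField.adjoin K (Set.range (tcoord K g))) y :=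
  (isTranscendenceBasis_tcoord K g).isAlgebraic_field.isAlgebraic y

variable {K}

/-- A function field `F`, finite over `K(x)` with `x` transcendental, embeds over `K` in any
algebraically closed extension `M` of `K`, with `x` going to a prescribed transcendental element. -/
theorem exists_embedding_of_transcendental {F : Type v} [Field F] [Algebra K F]
    {M : Type*} [Field M] [Algebra K M] [IsAlgClosed M]
    (x : F) (hx : Transcendental K x) [FiniteDimensional K⟮x⟯ F]
    (t : M) (ht : Transcendental K t) :
    ∃ ι : F →ₐ[K] M, ι x = t := by
  have halg : Algebra.IsAlgebraic K⟮x⟯ F := Algebra.IsAlgebraic.of_finite _ _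
  let f₀ : K⟮x⟯ →ₐ[K] M :=
    (K⟮t⟯.val).comp ((RatFunc.algEquivOfTranscendental t ht).toAlgHom.comp
      (RatFunc.algEquivOfTranscendental x hx).symm.toAlgHom)
  have hf₀ : f₀ (IntermediateField.AdjoinSimple.gen K x) = t := by
    show ((RatFunc.algEquivOfTranscendental t ht)
      ((RatFunc.algEquivOfTranscendental x hx).symm (IntermediateField.AdjoinSimple.gen K x)) : M)
      = t
    rw [RatFunc.algEquivOfTranscendental_symm_gen, RatFunc.algEquivOfTranscendental_X]
  obtain ⟨φ, hφ⟩ := IsAlgClosed.surjective_domRestrict_of_isAlgebraic (K := K) (L := K⟮x⟯)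
    (M := M) (E := F) f₀
  have hφ' : φ.domRestrict K⟮x⟯ = f₀ := hφ
  refine ⟨φ, ?_⟩
  have h1 : φ.domRestrict K⟮x⟯ (IntermediateField.AdjoinSimple.gen K x) = t := by
    rw [hφ', hf₀]
  exact h1

variable (K)

/-- A function field `F`, finite over `K(x)` with `x` transcendental, embeds over `K` in the
universal domain with `x ↦ t_i`. -/
theorem exists_embedding {F : Type v} [Field F] [Algebra K F] (x : F) (hx : Transcendental K x)
    [FiniteDimensional (IntermediateField.adjoin K {x}) F] (i : Fin g) :
    ∃ ι : F →ₐ[K] Omega K g, ι x = tcoord K g i :=
  exists_embedding_of_transcendental x hx (tcoord K g i) (transcendental_tcoord K g i)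

end Fermat.Agent.S27P.Inst
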