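/-
S27 / (INST-PLACES) (helper78) — the three valuation rings of the instance layer, in the binder
shapes of the reduction theorem of (GR) (`A`, `π : A →+* k` surjective, killing the non-units,
`∀ a : Λ, ∃ h : φ₁ a ∈ A, π ⟨φ₁ a, h⟩ = φ₂ a`) and of the anchor of (Z) (`halg`).

* `exists_place_mixed` : (P1) the MIXED instance at `(K, A)`: `K` algebraically closed of
  characteristic zero, `Λ` a finitely generated ring with `φ : Λ →+* K`, `N ≠ 0`: a prime `p ∤ N`,
  a valuation subring `A ⊇ φ(Λ)` of `K` whose residue field is an algebraic closure of `𝔽_p`.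
* `exists_place_const` : (P2) the CONSTANT instance at `(Ω, A0)`: `K ⊆ Ω`, `K` algebraically
  closed: a valuation subring `A0 ⊇ K` of `Ω` with `π0 : A0 →+* K` the identity on `K`.
* `exists_place_gauss` : (P3) the MIXED instance at `(Ω, V)` above `(K, A)`: the Gauss extension
  of `A` along an algebraically independent family `t`, together with the residue field map
  `j : κ(A) →+* κ(V)`; the residues of the `t i` are algebraically independent over `κ(A)` and
  (if `Ω` is algebraic over `K(t)`) `κ(V)` is algebraic over `κ(A)(t̄)`.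
-/
import Mathlib
import Fermat.Agent.S27P.GR.PlaceExt
import Fermat.Agent.S27P.Val.GaussExt

set_option autoImplicit false

noncomputable section

namespace Fermat.Agent.S27P.Inst.Places

universe u v w

open Fermat.Agent.S27P.GR.PlaceExt

/-! ### Generalities on residue maps -/

/-- The residue map kills the non-units. -/
theorem residue_eq_zero_of_not_isUnit {L : Type u} [Field L] (A : ValuationSubring L) (a : A)
    (ha : ¬ IsUnit a) : IsLocalRing.residue A a = 0 :=
  (IsLocalRing.residue_eq_zero_iff a).mpr ((IsLocalRing.mem_maximalIdeal a).mpr ha)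

/-- A non-zero residue comes from a unit. -/
theorem isUnit_of_residue_ne_zero {L : Type u} [Field L] (A : ValuationSubring L) (a : A)
    (ha : IsLocalRing.residue A a ≠ 0) : IsUnit a := by
  by_contra h
  exact ha (residue_eq_zero_of_not_isUnit A a h)

/-! ### (P1) the mixed instance at `(K, A)` -/

/-- **(P1) The mixed instance at `(K, A)`.**  `K` algebraically closed of characteristic zero,
`φ : Λ →+* K` with `Λ` generated as a ring by a finite set, `N ≠ 0`.  There are a prime `p ∤ N`,
a valuation subring `A` of `K` containing `φ(Λ)` whose residue field is algebraically closed of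
characteristic `p`, every element of which is fixed by a power of the Frobenius, and the reduction
`φ₂ : Λ →+* κ(A)` of `φ`. -/
theorem exists_place_mixed {K : Type u} [Field K] [IsAlgClosed K] [CharZero K] {Λ : Type v}
    [CommRing Λ] (φ : Λ →+* K) (s : Finset Λ) (hs : Subring.closure (s : Set Λ) = ⊤) (N : ℕ)
    (hN : N ≠ 0) :
    ∃ (p : ℕ) (A : ValuationSubring K) (φ₂ : Λ →+* IsLocalRing.ResidueField A),
      p.Prime ∧ ¬ p ∣ N ∧ CharP (IsLocalRing.ResidueField A) p ∧
      IsAlgClosed (IsLocalRing.ResidueField A) ∧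
      (∀ y : IsLocalRing.ResidueField A, ∃ m : ℕ, 0 < m ∧ y ^ p ^ m = y) ∧
      Function.Surjective (IsLocalRing.residue A) ∧
      (∀ a : A, ¬ IsUnit a → IsLocalRing.residue A a = 0) ∧
      ∀ a : Λ, ∃ h : φ a ∈ A, IsLocalRing.residue A ⟨φ a, h⟩ = φ₂ a := by
  classical
  obtain ⟨p, A, hp, hpN, hsA, hchar, hac, halg⟩ :=
    exists_valuationSubring_mixed_charZero (s.image φ) N hN
  have hmem : ∀ a : Λ, φ a ∈ A.toSubring := by
    intro a
    have ha : a ∈ Subring.closure (s : Set Λ) := by rw [hs]; trivial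
    have hle : Subring.closure (s : Set Λ) ≤ A.toSubring.comap φ := by
      rw [Subring.closure_le]
      intro b hb
      exact hsA _ (Finset.mem_image_of_mem φ hb)
    exact hle ha
  exact ⟨p, A, (IsLocalRing.residue A).comp (φ.codRestrict A.toSubring hmem), hp, hpN, hchar, hac,
    halg, IsLocalRing.residue_surjective, residue_eq_zero_of_not_isUnit A,
    fun a => ⟨hmem a, rfl⟩⟩

/-! ### (P2) the constant instance at `(Ω, A0)` -/

/-- **(P2) The constant instance at `(Ω, A0)`.**  `K ⊆ Ω` with `K` algebraically closed: a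
valuation subring `A0` of `Ω` containing `K` with a surjective ring hom `π0 : A0 →+* K` which is
the identity on `K` and whose kernel is the set of non-units. -/
theorem exists_place_const {K : Type u} [Field K] [IsAlgClosed K] {Ω : Type w} [Field Ω]
    [Algebra K Ω] :
    ∃ (A0 : ValuationSubring Ω) (π0 : A0 →+* K), Function.Surjective π0 ∧
      (∀ a : A0, ¬ IsUnit a → π0 a = 0) ∧ (∀ a : A0, π0 a = 0 → ¬ IsUnit a) ∧
      ∀ c : K, ∃ h : algebraMap K Ω c ∈ A0, π0 ⟨_, h⟩ = c := by
  obtain ⟨A, π, hπ, hker⟩ := exists_valuationSubring_const (K := K) (Ω := Ω)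
  refine ⟨A, π, fun c => ?_, fun a ha => (hker a).mpr ((IsLocalRing.mem_maximalIdeal a).mpr ha),
    fun a ha => (IsLocalRing.mem_maximalIdeal a).mp ((hker a).mp ha), hπ⟩
  obtain ⟨hc, h1⟩ := hπ c
  exact ⟨_, h1⟩

/-- The compatibility `hφ` of the reduction theorem for the constant instance:
`φ₁ := algebraMap K Ω ∘ φ`, `φ₂ := φ`. -/
theorem hφ_const {K : Type u} [Field K] {Ω : Type w} [Field Ω] [Algebra K Ω]
    (A0 : ValuationSubring Ω) (π0 : A0 →+* K)
    (h0 : ∀ c : K, ∃ h : algebraMap K Ω c ∈ A0, π0 ⟨_, h⟩ = c) {Λ : Type v} [CommRing Λ]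
    (φ : Λ →+* K) :
    ∀ a : Λ, ∃ h : ((algebraMap K Ω).comp φ) a ∈ A0, π0 ⟨_, h⟩ = φ a :=
  fun a => h0 (φ a)

/-! ### (P3) the mixed instance at `(Ω, V)` above `(K, A)` -/

section Gauss

variable {K : Type u} [Field K] {Ω : Type w} [Field Ω] [Algebra K Ω]

/-- The inclusion `A → V` of valuation rings, for `V ∩ K = A`. -/
def incl (A : ValuationSubring K) (V : ValuationSubring Ω)
    (hV : ∀ a : K, algebraMap K Ω a ∈ V ↔ a ∈ A) : A →+* V :=
  ((algebraMap K Ω).comp A.subtype).codRestrict V.toSubring (fun a => (hV a).mpr a.2)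

theorem incl_coe (A : ValuationSubring K) (V : ValuationSubring Ω)
    (hV : ∀ a : K, algebraMap K Ω a ∈ V ↔ a ∈ A) (a : A) :
    ((incl A V hV a : V) : Ω) = algebraMap K Ω (a : K) := rfl

/-- `A → V` is a local homomorphism. -/
theorem incl_mem_maximalIdeal (A : ValuationSubring K) (V : ValuationSubring Ω)
    (hV : ∀ a : K, algebraMap K Ω a ∈ V ↔ a ∈ A) (a : A)
    (ha : a ∈ IsLocalRing.maximalIdeal A) : incl A V hV a ∈ IsLocalRing.maximalIdeal V := by
  rw [IsLocalRing.mem_maximalIdeal, mem_nonunits_iff] at ha ⊢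
  intro hu
  apply ha
  obtain ⟨b, hb⟩ := isUnit_iff_exists_inv.1 hu
  have hb' : algebraMap K Ω (a : K) * (b : Ω) = 1 := congrArg Subtype.val hb
  have ha0 : (a : K) ≠ 0 := by
    intro h0
    rw [h0, map_zero, zero_mul] at hb'
    exact zero_ne_one hb'
  have hbinv : (b : Ω) = algebraMap K Ω ((a : K)⁻¹) := by
    rw [map_inv₀]
    exact eq_inv_of_mul_eq_one_right hb'
  have hainv : (a : K)⁻¹ ∈ A := (hV _).mp (hbinv ▸ b.2)
  exact isUnit_iff_exists_inv.2 ⟨⟨(a : K)⁻¹, hainv⟩, Subtype.ext (mul_inv_cancel₀ ha0)⟩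

/-- The map of residue fields `κ(A) → κ(V)`, for `V ∩ K = A`. -/
def resMap (A : ValuationSubring K) (V : ValuationSubring Ω)
    (hV : ∀ a : K, algebraMap K Ω a ∈ V ↔ a ∈ A) :
    IsLocalRing.ResidueField A →+* IsLocalRing.ResidueField V :=
  Ideal.Quotient.lift (IsLocalRing.maximalIdeal A) ((IsLocalRing.residue V).comp (incl A V hV))
    (fun a ha => (IsLocalRing.residue_eq_zero_iff _).mpr (incl_mem_maximalIdeal A V hV a ha))

theorem resMap_residue (A : ValuationSubring K) (V : ValuationSubring Ω)
    (hV : ∀ a : K, algebraMap K Ω a ∈ V ↔ a ∈ A) (a : A) :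
    resMap A V hV (IsLocalRing.residue A a) = IsLocalRing.residue V (incl A V hV a) := rfl

/-- Evaluation in `V` of polynomials with coefficients in `A` at a family of elements of `V`. -/
def evalV (A : ValuationSubring K) (V : ValuationSubring Ω)
    (hV : ∀ a : K, algebraMap K Ω a ∈ V ↔ a ∈ A) {σ : Type*} (s : σ → V) :
    MvPolynomial σ A →+* V :=
  MvPolynomial.eval₂Hom (incl A V hV) s

theorem evalV_coe (A : ValuationSubring K) (V : ValuationSubring Ω)
    (hV : ∀ a : K, algebraMap K Ω a ∈ V ↔ a ∈ A) {σ : Type*} (s : σ → V)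
    (Q : MvPolynomial σ A) :
    ((evalV A V hV s Q : V) : Ω) =
      MvPolynomial.aeval (fun o => (s o : Ω)) (MvPolynomial.map A.subtype Q) := by
  have h : V.subtype.comp (evalV A V hV s) =
      ((MvPolynomial.aeval (fun o => (s o : Ω)) : MvPolynomial σ K →ₐ[K] Ω) : _ →+* Ω).comp
        (MvPolynomial.map A.subtype) := by
    apply MvPolynomial.ringHom_ext
    · intro r
      simp only [evalV, RingHom.comp_apply, MvPolynomial.coe_eval₂Hom, MvPolynomial.eval₂_C,
        MvPolynomial.map_C, RingHom.coe_coe, MvPolynomial.aeval_C, ValuationSubring.subtype_apply]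
      rfl
    · intro i
      simp [evalV]
  exact RingHom.congr_fun h Q

theorem residue_evalV (A : ValuationSubring K) (V : ValuationSubring Ω)
    (hV : ∀ a : K, algebraMap K Ω a ∈ V ↔ a ∈ A) {σ : Type*} (s : σ → V)
    (Q : MvPolynomial σ A) :
    IsLocalRing.residue V (evalV A V hV s Q) =
      MvPolynomial.eval₂ (resMap A V hV) (fun o => IsLocalRing.residue V (s o))
        (MvPolynomial.map (IsLocalRing.residue A) Q) := by
  have h : (IsLocalRing.residue V).comp (evalV A V hV s) =
      (MvPolynomial.eval₂Hom (resMap A V hV) (fun o => IsLocalRing.residue V (s o))).comp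
        (MvPolynomial.map (IsLocalRing.residue A)) := by
    apply MvPolynomial.ringHom_ext
    · intro r
      simp [evalV, resMap_residue]
    · intro i
      simp [evalV]
  exact RingHom.congr_fun h Q

/-- **Gauss scaling**: a nonzero polynomial over `K` is a constant multiple of a polynomial with
coefficients in `A`, one of which is `1`. -/
theorem exists_scale (A : ValuationSubring K) {σ : Type*} (P : MvPolynomial σ K) (hP : P ≠ 0) :
    ∃ (c : K) (Q : MvPolynomial σ A), c ≠ 0 ∧ MvPolynomial.map A.subtype Q = MvPolynomial.C c * P ∧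
      ∃ m, Q.coeff m = 1 := by
  classical
  have hne : P.support.Nonempty := MvPolynomial.support_nonempty.mpr hP
  obtain ⟨m₀, hm₀, hmax⟩ := P.support.exists_max_image (fun m => A.valuation (P.coeff m)) hne
  have hc₀ : P.coeff m₀ ≠ 0 := MvPolynomial.mem_support_iff.mp hm₀
  have hmemA : ∀ m, (P.coeff m₀)⁻¹ * P.coeff m ∈ A := by
    intro m
    by_cases hm : m ∈ P.support
    · rw [← A.valuation_le_one_iff, map_mul, map_inv₀]
      have h1 := hmax m hm
      have h2 : A.valuation (P.coeff m₀) ≠ 0 := (A.valuation.ne_zero_iff).mpr hc₀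
      rw [inv_mul_le_iff₀ (zero_lt_iff.mpr h2), mul_one]
      exact h1
    · rw [MvPolynomial.notMem_support_iff.mp hm, mul_zero]
      exact A.zero_mem
  have hrange : MvPolynomial.C (P.coeff m₀)⁻¹ * P ∈ Set.range (MvPolynomial.map A.subtype) := by
    rw [MvPolynomial.mem_range_map_iff_coeffs_subset]
    intro x hx
    rw [Finset.mem_coe, MvPolynomial.mem_coeffs_iff] at hx
    obtain ⟨m, -, rfl⟩ := hx
    rw [MvPolynomial.coeff_C_mul]
    exact ⟨⟨_, hmemA m⟩, rfl⟩
  obtain ⟨Q, hQ⟩ := hrange
  refine ⟨(P.coeff m₀)⁻¹, Q, inv_ne_zero hc₀, hQ, m₀, ?_⟩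
  apply Subtype.ext
  have h1 := congrArg (MvPolynomial.coeff m₀) hQ
  rw [MvPolynomial.coeff_map, MvPolynomial.coeff_C_mul, inv_mul_cancel₀ hc₀] at h1
  exact h1

/-- **Residually independent ⟹ independent** (contrapositive form): a family of `V` which is
algebraically dependent over `K` has algebraically dependent residues over `κ(A)`. -/
theorem exists_residue_relation (A : ValuationSubring K) (V : ValuationSubring Ω)
    (hV : ∀ a : K, algebraMap K Ω a ∈ V ↔ a ∈ A) {σ : Type*} (s : σ → V)
    (P : MvPolynomial σ K) (hP : P ≠ 0) (h0 : MvPolynomial.aeval (fun o => (s o : Ω)) P = 0) :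
    ∃ R : MvPolynomial σ (IsLocalRing.ResidueField A), R ≠ 0 ∧
      MvPolynomial.eval₂ (resMap A V hV) (fun o => IsLocalRing.residue V (s o)) R = 0 := by
  obtain ⟨c, Q, -, hQ, m, hm⟩ := exists_scale A P hP
  refine ⟨MvPolynomial.map (IsLocalRing.residue A) Q, ?_, ?_⟩
  · intro h
    have h1 := congrArg (MvPolynomial.coeff m) h
    rw [MvPolynomial.coeff_map, hm, map_one, MvPolynomial.coeff_zero] at h1
    exact one_ne_zero h1
  · rw [← residue_evalV]
    have h1 : evalV A V hV s Q = 0 := by
      apply Subtype.ext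
      rw [evalV_coe, hQ, map_mul, h0, mul_zero]
      rfl
    rw [h1, map_zero]

/-- The residues of a Gauss family are algebraically independent over `κ(A)` (instance-free
form). -/
theorem residue_independent (A : ValuationSubring K) (V : ValuationSubring Ω)
    (hV : ∀ a : K, algebraMap K Ω a ∈ V ↔ a ∈ A) {ι : Type*} (t : ι → Ω) (htV : ∀ i, t i ∈ V)
    (hgauss : ∀ P : MvPolynomial ι K, (∀ m, P.coeff m ∈ A) →
      MvPolynomial.aeval t P ∈ V.nonunits → ∀ m, P.coeff m ∈ A.nonunits)
    (P : MvPolynomial ι (IsLocalRing.ResidueField A))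
    (h0 : MvPolynomial.eval₂ (resMap A V hV) (fun i => IsLocalRing.residue V ⟨t i, htV i⟩) P = 0) :
    P = 0 := by
  obtain ⟨Q, rfl⟩ := MvPolynomial.map_surjective _ IsLocalRing.residue_surjective P
  rw [← residue_evalV A V hV (fun i => ⟨t i, htV i⟩), IsLocalRing.residue_eq_zero_iff,
    ← ValuationSubring.coe_mem_nonunits_iff, evalV_coe] at h0
  have h1 := hgauss (MvPolynomial.map A.subtype Q)
    (fun m => by rw [MvPolynomial.coeff_map]; exact (Q.coeff m).2) h0
  ext m
  rw [MvPolynomial.coeff_map, MvPolynomial.coeff_zero, IsLocalRing.residue_eq_zero_iff,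
    ← ValuationSubring.coe_mem_nonunits_iff]
  have h2 := h1 m
  rwa [MvPolynomial.coeff_map] at h2

/-- The instance-free independence statement is `AlgebraicIndependent` for the algebra structure
given by the ring hom. -/
theorem algebraicIndependent_of_eval₂ {k : Type*} {k' : Type*} [Field k] [Field k']
    (j : k →+* k') {ι : Type*} (x : ι → k')
    (h : ∀ P : MvPolynomial ι k, MvPolynomial.eval₂ j x P = 0 → P = 0) :
    @AlgebraicIndependent ι k k' x _ _ j.toAlgebra := by
  let _ : Algebra k k' := j.toAlgebra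
  rw [algebraicIndependent_iff]
  intro P hP
  exact h P hP

/-- The characteristic passes to an extension field. -/
theorem charP_of_ringHom {k : Type*} {k' : Type*} [Field k] [Field k'] (j : k →+* k') (p : ℕ)
    [CharP k p] : CharP k' p :=
  (RingHom.charP_iff j j.injective p).mp inferInstance

/-- If `t` is a transcendence basis of `Ω/K`, the residues of a Gauss family `t` form a
transcendence basis of `κ(V)/κ(A)`. -/
theorem isTranscendenceBasis_residue (A : ValuationSubring K) (V : ValuationSubring Ω)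
    (hV : ∀ a : K, algebraMap K Ω a ∈ V ↔ a ∈ A) {ι : Type*} (t : ι → Ω) (htV : ∀ i, t i ∈ V)
    (hgauss : ∀ P : MvPolynomial ι K, (∀ m, P.coeff m ∈ A) →
      MvPolynomial.aeval t P ∈ V.nonunits → ∀ m, P.coeff m ∈ A.nonunits)
    (htb : IsTranscendenceBasis K t) :
    @IsTranscendenceBasis ι (IsLocalRing.ResidueField A) (IsLocalRing.ResidueField V) _ _
      (resMap A V hV).toAlgebra (fun i => IsLocalRing.residue V ⟨t i, htV i⟩) := by
  classical
  let _ : Algebra (IsLocalRing.ResidueField A) (IsLocalRing.ResidueField V) :=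
    (resMap A V hV).toAlgebra
  have hind : AlgebraicIndependent (IsLocalRing.ResidueField A)
      (fun i => IsLocalRing.residue V ⟨t i, htV i⟩) :=
    algebraicIndependent_of_eval₂ (resMap A V hV) _
      (residue_independent A V hV t htV hgauss)
  rw [hind.isTranscendenceBasis_iff_isAlgebraic]
  refine ⟨fun ybar => ?_⟩
  obtain ⟨y, rfl⟩ := IsLocalRing.residue_surjective ybar
  by_contra hT
  have hind' := (hind.option_iff_transcendental (IsLocalRing.residue V y)).mpr hT
  have halg : IsAlgebraic (Algebra.adjoin K (Set.range t)) (y : Ω) :=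
    htb.isAlgebraic.isAlgebraic (y : Ω)
  have hdep : ¬ AlgebraicIndependent K (fun o : Option ι => o.elim (y : Ω) t) := by
    rw [htb.1.option_iff_transcendental]
    exact fun h => h halg
  rw [algebraicIndependent_iff] at hdep
  obtain ⟨P, hP⟩ := not_forall.mp hdep
  obtain ⟨hP0, hPne⟩ := Classical.not_imp.mp hP
  have hs : (fun o : Option ι => ((o.elim y (fun i => (⟨t i, htV i⟩ : V)) : V) : Ω)) =
      fun o : Option ι => o.elim (y : Ω) t := by
    funext o
    cases o <;> rfl
  obtain ⟨R, hR, hR0⟩ := exists_residue_relation A V hV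
    (fun o : Option ι => o.elim y (fun i => (⟨t i, htV i⟩ : V))) P hPne (by rw [hs]; exact hP0)
  have hs' : (fun o : Option ι =>
      IsLocalRing.residue V (o.elim y (fun i => (⟨t i, htV i⟩ : V)))) =
      fun o : Option ι => o.elim (IsLocalRing.residue V y)
        (fun i => IsLocalRing.residue V ⟨t i, htV i⟩) := by
    funext o
    cases o <;> rfl
  rw [hs'] at hR0
  exact hR ((algebraicIndependent_iff.mp hind') R hR0)

/-- Finite transcendence degree of the residue field extension of a Gauss family which is a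
finite transcendence basis. -/
theorem trdeg_residue_lt (A : ValuationSubring K) (V : ValuationSubring Ω)
    (hV : ∀ a : K, algebraMap K Ω a ∈ V ↔ a ∈ A) {ι : Type*} [Finite ι] (t : ι → Ω)
    (htV : ∀ i, t i ∈ V)
    (hgauss : ∀ P : MvPolynomial ι K, (∀ m, P.coeff m ∈ A) →
      MvPolynomial.aeval t P ∈ V.nonunits → ∀ m, P.coeff m ∈ A.nonunits)
    (htb : IsTranscendenceBasis K t) :
    @Algebra.trdeg (IsLocalRing.ResidueField A) (IsLocalRing.ResidueField V) _ _
      (resMap A V hV).toAlgebra < Cardinal.aleph0 := by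
  let _ : Algebra (IsLocalRing.ResidueField A) (IsLocalRing.ResidueField V) :=
    (resMap A V hV).toAlgebra
  have h := (isTranscendenceBasis_residue A V hV t htV hgauss htb).lift_cardinalMk_eq_trdeg
  have h1 : Cardinal.lift.{w} (Cardinal.mk ι) < Cardinal.aleph0 :=
    Cardinal.lift_lt_aleph0.mpr (Cardinal.lt_aleph0_of_finite ι)
  rw [h] at h1
  exact Cardinal.lift_lt_aleph0.mp h1

/-- **(P3) The mixed instance at `(Ω, V)` above `(K, A)`.**  `Ω ⊇ K` algebraically closed, `A` a
valuation subring of `K`, `t` a family of `Ω` algebraically independent over `K`.  There are a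
valuation subring `V` of `Ω` with `V ∩ K = A` containing the `t i`, and a ring hom
`j : κ(A) →+* κ(V)` compatible with the residue maps, such that `κ(V)` is algebraically closed and
the residues of the `t i` are algebraically independent over `κ(A)`; if `t` is a transcendence
basis of `Ω/K`, its residues form a transcendence basis of `κ(V)/κ(A)`. -/
theorem exists_place_gauss [IsAlgClosed Ω] (A : ValuationSubring K) {ι : Type*} (t : ι → Ω)
    (ht : AlgebraicIndependent K t) :
    ∃ (V : ValuationSubring Ω) (j : IsLocalRing.ResidueField A →+* IsLocalRing.ResidueField V)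
      (htV : ∀ i, t i ∈ V),
      (∀ a : K, algebraMap K Ω a ∈ V ↔ a ∈ A) ∧
      (∀ a : A, ∃ h : algebraMap K Ω (a : K) ∈ V,
        IsLocalRing.residue V ⟨_, h⟩ = j (IsLocalRing.residue A a)) ∧
      IsAlgClosed (IsLocalRing.ResidueField V) ∧
      Function.Surjective (IsLocalRing.residue V) ∧
      (∀ a : V, ¬ IsUnit a → IsLocalRing.residue V a = 0) ∧
      (∀ P : MvPolynomial ι (IsLocalRing.ResidueField A),
        MvPolynomial.eval₂ j (fun i => IsLocalRing.residue V ⟨t i, htV i⟩) P = 0 → P = 0) ∧
      (∀ P : MvPolynomial ι K, (∀ m, P.coeff m ∈ A) →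
        MvPolynomial.aeval t P ∈ V.nonunits → ∀ m, P.coeff m ∈ A.nonunits) ∧
      (IsTranscendenceBasis K t →
        @IsTranscendenceBasis ι (IsLocalRing.ResidueField A) (IsLocalRing.ResidueField V) _ _
          j.toAlgebra (fun i => IsLocalRing.residue V ⟨t i, htV i⟩)) := by
  obtain ⟨V, hV, htV, hgauss⟩ :=
    Fermat.Agent.S27P.Val.GaussExt.exists_valuationSubring_gauss A t ht
  exact ⟨V, resMap A V hV, htV, hV, fun a => ⟨(hV _).mpr a.2, rfl⟩, isAlgClosed_residueField V,
    IsLocalRing.residue_surjective, residue_eq_zero_of_not_isUnit V,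
    residue_independent A V hV t htV hgauss, hgauss,
    isTranscendenceBasis_residue A V hV t htV hgauss⟩

/-- The compatibility `hφ` of the reduction theorem for the mixed instance at `(Ω, V)`:
`φ₁ := algebraMap K Ω ∘ φ`, `φ₂' := j ∘ φ₂`. -/
theorem hφ_gauss (A : ValuationSubring K) (V : ValuationSubring Ω)
    (j : IsLocalRing.ResidueField A →+* IsLocalRing.ResidueField V)
    (hj : ∀ a : A, ∃ h : algebraMap K Ω (a : K) ∈ V,
      IsLocalRing.residue V ⟨_, h⟩ = j (IsLocalRing.residue A a))
    {Λ : Type v} [CommRing Λ] (φ : Λ →+* K) (φ₂ : Λ →+* IsLocalRing.ResidueField A)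
    (hφ : ∀ a : Λ, ∃ h : φ a ∈ A, IsLocalRing.residue A ⟨φ a, h⟩ = φ₂ a) :
    ∀ a : Λ, ∃ h : ((algebraMap K Ω).comp φ) a ∈ V,
      IsLocalRing.residue V ⟨_, h⟩ = (j.comp φ₂) a := by
  intro a
  obtain ⟨h, h2⟩ := hφ a
  obtain ⟨h', h3⟩ := hj ⟨φ a, h⟩
  exact ⟨h', h3.trans (congrArg j h2)⟩

end Gauss

end Fermat.Agent.S27P.Inst.Places
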