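/-
S27 / (INST), row INST-B (twin seat, helper90), second file: the two squares of the top seam in
`RedOut` FORM (helper27's `Inst.OfIsRed.RedOut` = the conclusion of `GR.exists_isRed`) and at the
base-change maps of record (helper15's `BC.BcGauss.bcPlace`, `bcPic`).

(B2) the base-change square, for two `RedOut`s of the same model over `(K, F; A → k, Ft)` and
`(Ω, FΩ; A' → k2, Ft2)`:
* `r_comm`          : `r' (e P) = et (r P)` for maps of places `e`, `et` preserving orders;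
* `rho_comm`        : `ρ' (bcPic0 hb c) = bcPic0 hbt (ρ c)` for `IsBcPlace e`, `IsBcPlace et`;
* `r_comm_bcPlace`, `rho_comm_bcPic` : the same for `IsConstExt K F Ω FΩ`, `IsConstExt k Ft k2 Ft2`
  at `BcGauss.bcPlace`, `BcGauss.bcPic` (`hsq` of `Seam.card_torsion_of_seam`).

(B1) the constant instance, a `RedOut` over `(Ω, FΩ; A → K, F)` with `ψ₁ = (F → FΩ) ∘ ψ₂` and
`π` a retraction of `K → Ω`:
* `r_retract`       : `r (bc Q) = Q` for a map of places `bc` preserving orders;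
* `rho_retract`     : `ρ0 (bcPic0 hb c) = c`;
* `r_retract_bcPlace`, `rho_retract_bcPic` : the same at `BcGauss.bcPlace`, `BcGauss.bcPic`
  (`hρ0β` of `Seam.card_torsion_of_seam`).

The chart descriptions of the special fibres (`GR.Real.chart`, `GR.Real.chart'`) are named
hypotheses, in the literal of `RedOut.isChart_fin`, `RedOut.isChart_inf`.
Every type in its own universe; characteristic-free.
-/
import Mathlib
import Fermat.Agent.S27P.Inst.Squares90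
import Fermat.Agent.S27P.Inst.OfIsRed
import Fermat.Agent.S27P.BC.BcGauss

set_option autoImplicit false
set_option linter.unusedSectionVars false
set_option linter.unusedVariables false

noncomputable section

namespace Fermat.Agent.S27P.Inst.SquaresOut90

open Polynomial AlgebraicCurve
open Fermat.Agent.Lib.FF Fermat.Agent.Lib.Red.OneStep Fermat.Agent.Lib.Red.PlaceRed
open Fermat.Agent.S27P.GR Fermat.Agent.S27P.Inj.RedPic Fermat.Agent.S27P.Inj.Centre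
open Fermat.Agent.S27P.BC Fermat.Agent.S27P.BC.BcDiv Fermat.Agent.S27P.Inst.OfIsRed

variable {Λ U : Type*} [CommRing Λ] [CommRing U] [Algebra Λ U] {n : ℕ}

/-! ### The image of a chart ring in a realisation -/

section Repr

variable {κ E : Type*} [Field κ] [Field E] [Algebra κ E]

/-- A realisation `ψ` over `φ` sends `q(z)` to `(φ q)(ψ z)`. -/
theorem map_aeval_coe (ψ : U →+* E) (φ : Λ →+* κ)
    (hφ : ∀ a : Λ, ψ (algebraMap Λ U a) = algebraMap κ E (φ a))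
    (C : Subalgebra Λ U) (z : C) (q : Λ[X]) :
    ψ ((aeval z q : C) : U) = aeval (ψ (z : U)) (q.map φ) := by
  have h1 : ((aeval z q : C) : U) = aeval (z : U) q :=
    (Polynomial.aeval_algHom_apply C.val z q).symm
  have h2 : ψ.comp (algebraMap Λ U) = (algebraMap κ E).comp φ := RingHom.ext hφ
  rw [h1, aeval_def, aeval_def, Polynomial.eval₂_map, Polynomial.hom_eval₂, h2]

/-- The image of a function of a chart ring with a `ChartCert` is a polynomial combination of the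
images of the generators. -/
theorem exists_repr_of_chartCert (ψ : U →+* E) (φ : Λ →+* κ)
    (hφ : ∀ a : Λ, ψ (algebraMap Λ U a) = algebraMap κ E (φ a))
    (C : Subalgebra Λ U) (z : C) (β : Fin n → C) (hcert : ChartCert Λ C z β) (u : C) :
    ∃ p : Fin n → κ[X], ψ (u : U) = ∑ j, aeval (ψ (z : U)) (p j) * ψ (β j : U) := by
  obtain ⟨p, hp, -⟩ := hcert.free u
  refine ⟨fun i => (p i).map φ, ?_⟩
  have h1 : (u : U) = ∑ i, ((aeval z (p i) : C) : U) * (β i : U) := by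
    have h2 := congrArg (Subtype.val) hp
    rw [h2]
    push_cast
    rfl
  rw [h1, map_sum]
  refine Finset.sum_congr rfl fun i _ => ?_
  rw [map_mul, map_aeval_coe ψ φ hφ C z (p i)]

end Repr

/-! ### (B2): the base-change square -/

section B2

variable {K F k Ft : Type*} [Field K] [Field F] [Algebra K F] [Field k] [Field Ft] [Algebra k Ft]
variable {Ω FΩ k2 Ft2 : Type*} [Field Ω] [Field FΩ] [Algebra Ω FΩ] [Field k2] [Field Ft2]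
  [Algebra k2 Ft2] [Algebra F FΩ] [Algebra Ft Ft2]
variable {M : Model Λ U n} {ψ₁ : U →+* F} {ψ₂ : U →+* Ft} {ψ₁' : U →+* FΩ} {ψ₂' : U →+* Ft2}
variable {A : ValuationSubring K} {π : A →+* k} {O : ValuationSubring F} {red : O →+* Ft}
  {r : Place K F → Place k Ft} {xO : Oˣ}
variable {A' : ValuationSubring Ω} {π' : A' →+* k2} {O' : ValuationSubring FΩ}
  {red' : O' →+* Ft2} {r' : Place Ω FΩ → Place k2 Ft2} {xO' : O'ˣ}

/-- **(B2), places, `RedOut` form.**  Two reduction data of the same model, the second obtained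
from the first by the field maps `F → FΩ`, `Ft → Ft2` (`hψ₁`, `hψ₂`) over `j : K → Ω`,
`jt : k → k2` compatible with the valuation rings and residue maps; `e`, `et` maps of places
preserving the orders of functions.  Then `r' (e P) = et (r P)`. -/
theorem r_comm
    (h : RedOut M ψ₁ ψ₂ A π O red r xO) (h' : RedOut M ψ₁' ψ₂' A' π' O' red' r' xO')
    (hchart : ∀ f : Ft, (∀ v : Place k Ft, 0 ≤ v.ord (ψ₂ M.x) → 0 ≤ v.ord f) ↔
      ∃ p : Fin n → k[X], f = ∑ j, aeval (ψ₂ M.x) (p j) * ψ₂ (M.b j : U))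
    (hchartI : ∀ f : Ft, (∀ v : Place k Ft, v.ord (ψ₂ M.x) ≤ 0 → 0 ≤ v.ord f) ↔
      ∃ p : Fin n → k[X], f = ∑ j, aeval (ψ₂ M.x)⁻¹ (p j) * ψ₂ (M.b' j : U))
    (hchart' : ∀ f : Ft2, (∀ v : Place k2 Ft2, 0 ≤ v.ord (ψ₂' M.x) → 0 ≤ v.ord f) ↔
      ∃ p : Fin n → k2[X], f = ∑ j, aeval (ψ₂' M.x) (p j) * ψ₂' (M.b j : U))
    (hchartI' : ∀ f : Ft2, (∀ v : Place k2 Ft2, v.ord (ψ₂' M.x) ≤ 0 → 0 ≤ v.ord f) ↔
      ∃ p : Fin n → k2[X], f = ∑ j, aeval (ψ₂' M.x)⁻¹ (p j) * ψ₂' (M.b' j : U))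
    (hψ₁ : ∀ u : U, ψ₁' u = algebraMap F FΩ (ψ₁ u))
    (hψ₂ : ∀ u : U, ψ₂' u = algebraMap Ft Ft2 (ψ₂ u))
    (j : K →+* Ω) (jt : k →+* k2)
    (hj : ∀ c : K, algebraMap F FΩ (algebraMap K F c) = algebraMap Ω FΩ (j c))
    (hjt : ∀ c : k, algebraMap Ft Ft2 (algebraMap k Ft c) = algebraMap k2 Ft2 (jt c))
    (hjA : ∀ a : A, j (a : K) ∈ A')
    (hjπ : ∀ a : A, π' ⟨j (a : K), hjA a⟩ = jt (π a))
    {e : Place K F → Place Ω FΩ} {et : Place k Ft → Place k2 Ft2}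
    (he : ∀ (v : Place K F) (f : F), (e v).ord (algebraMap F FΩ f) = v.ord f)
    (het : ∀ (v : Place k Ft) (f : Ft), (et v).ord (algebraMap Ft Ft2 f) = v.ord f) :
    ∀ P : Place K F, r' (e P) = et (r P) := by
  have hS : ∀ (f' : O') (u : U), ((f' : O') : FΩ) = ψ₁' u →
      ∃ f : O, ((f : O) : F) = ψ₁ u ∧ ((f' : O') : FΩ) = algebraMap F FΩ ((f : O) : F) ∧
        red' f' = algebraMap Ft Ft2 (red f) := by
    intro f' u hu
    obtain ⟨hmem, hred⟩ := h.compat u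
    obtain ⟨hmem', hred'⟩ := h'.compat u
    have hf' : f' = ⟨ψ₁' u, hmem'⟩ := Subtype.ext hu
    refine ⟨⟨ψ₁ u, hmem⟩, rfl, ?_, ?_⟩
    · rw [hu, hψ₁]
    · rw [hf', hred', hred, hψ₂]
  have hT : ∀ (z : U) (P : Place K F), (∃ γ₀ : k, EvK A π P (ψ₁ z) γ₀) →
      ∃ γ₀ : k2, EvK A' π' (e P) (ψ₁' z) γ₀ := by
    rintro z P ⟨γ₀, a, -, hlt⟩
    refine ⟨π' ⟨j (a : K), hjA a⟩, ⟨j (a : K), hjA a⟩, rfl, ?_⟩
    have h1 : ValAt (e P) (algebraMap F FΩ (ψ₁ z)) (j (a : K)) :=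
      Squares90.valAt_of_ord_eq he j hj (show ValAt P (ψ₁ z) (a : K) from hlt)
    rw [hψ₁]
    exact h1
  refine Squares90.r_comm (h.isChart_fin hchart) (h.isChart_inf hchartI)
    (h'.isChart_fin hchart') (h'.isChart_inf hchartI') h.mem_finT_or_mem_infT j jt hj hjt hjA hjπ
    he het ?_ ?_ ?_ ?_ ?_ ?_
  · rintro f' ⟨u, hu⟩
    obtain ⟨f, hf, h1, h2⟩ := hS f' u hu
    exact ⟨f, ⟨u, hf⟩, h1, h2⟩
  · rintro f' ⟨u, hu⟩
    obtain ⟨f, hf, h1, h2⟩ := hS f' u hu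
    exact ⟨f, ⟨u, hf⟩, h1, h2⟩
  · exact fun P hP => hT M.x P hP
  · exact fun P hP => hT M.x' P hP
  · intro Q hQ
    show 0 ≤ (et Q).ord (ψ₂' M.x)
    rw [hψ₂, het]
    exact hQ
  · intro Q hQ
    show 0 ≤ (et Q).ord (ψ₂' M.x')
    rw [hψ₂, het]
    exact hQ

/-- **(B2), classes, `RedOut` form** (`hsq` of the top seam, for any base-change maps of
places). -/
theorem rho_comm
    (hG : GoodRed O red r xO) (hG' : GoodRed O' red' r' xO')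
    (h : RedOut M ψ₁ ψ₂ A π O red r xO) (h' : RedOut M ψ₁' ψ₂' A' π' O' red' r' xO')
    (hchart : ∀ f : Ft, (∀ v : Place k Ft, 0 ≤ v.ord (ψ₂ M.x) → 0 ≤ v.ord f) ↔
      ∃ p : Fin n → k[X], f = ∑ j, aeval (ψ₂ M.x) (p j) * ψ₂ (M.b j : U))
    (hchartI : ∀ f : Ft, (∀ v : Place k Ft, v.ord (ψ₂ M.x) ≤ 0 → 0 ≤ v.ord f) ↔
      ∃ p : Fin n → k[X], f = ∑ j, aeval (ψ₂ M.x)⁻¹ (p j) * ψ₂ (M.b' j : U))
    (hchart' : ∀ f : Ft2, (∀ v : Place k2 Ft2, 0 ≤ v.ord (ψ₂' M.x) → 0 ≤ v.ord f) ↔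
      ∃ p : Fin n → k2[X], f = ∑ j, aeval (ψ₂' M.x) (p j) * ψ₂' (M.b j : U))
    (hchartI' : ∀ f : Ft2, (∀ v : Place k2 Ft2, v.ord (ψ₂' M.x) ≤ 0 → 0 ≤ v.ord f) ↔
      ∃ p : Fin n → k2[X], f = ∑ j, aeval (ψ₂' M.x)⁻¹ (p j) * ψ₂' (M.b' j : U))
    (hψ₁ : ∀ u : U, ψ₁' u = algebraMap F FΩ (ψ₁ u))
    (hψ₂ : ∀ u : U, ψ₂' u = algebraMap Ft Ft2 (ψ₂ u))
    (j : K →+* Ω) (jt : k →+* k2)
    (hj : ∀ c : K, algebraMap F FΩ (algebraMap K F c) = algebraMap Ω FΩ (j c))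
    (hjt : ∀ c : k, algebraMap Ft Ft2 (algebraMap k Ft c) = algebraMap k2 Ft2 (jt c))
    (hjA : ∀ a : A, j (a : K) ∈ A')
    (hjπ : ∀ a : A, π' ⟨j (a : K), hjA a⟩ = jt (π a))
    {e : Place K F → Place Ω FΩ} {et : Place k Ft → Place k2 Ft2}
    (hb : IsBcPlace e) (hbt : IsBcPlace et) (c : Pic0 K F) :
    hG'.rho (bcPic0 hb c) = bcPic0 hbt (hG.rho c) :=
  Squares90.rho_comm hG hG' hb hbt
    (r_comm h h' hchart hchartI hchart' hchartI' hψ₁ hψ₂ j jt hj hjt hjA hjπ hb.ord hbt.ord) c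

end B2

/-! ### (B2) at the base-change maps of record -/

section B2Gauss

variable {K F k Ft : Type*} [Field K] [Field F] [Algebra K F] [Field k] [Field Ft] [Algebra k Ft]
variable {Ω FΩ k2 Ft2 : Type*} [Field Ω] [Field FΩ] [Algebra Ω FΩ] [Field k2] [Field Ft2]
  [Algebra k2 Ft2] [Algebra F FΩ] [Algebra Ft Ft2] [Algebra K Ω] [Algebra k k2]
variable {M : Model Λ U n} {ψ₁ : U →+* F} {ψ₂ : U →+* Ft} {ψ₁' : U →+* FΩ} {ψ₂' : U →+* Ft2}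
variable {A : ValuationSubring K} {π : A →+* k} {O : ValuationSubring F} {red : O →+* Ft}
  {r : Place K F → Place k Ft} {xO : Oˣ}
variable {A' : ValuationSubring Ω} {π' : A' →+* k2} {O' : ValuationSubring FΩ}
  {red' : O' →+* Ft2} {r' : Place Ω FΩ → Place k2 Ft2} {xO' : O'ˣ}

/-- **(B2), places, at `BcGauss.bcPlace`.** -/
theorem r_comm_bcPlace
    (hc : IsConstExt K F Ω FΩ) (hck : IsConstExt k Ft k2 Ft2)
    (hres : ∀ v : Place K F, RR.ResK v) (hresk : ∀ v : Place k Ft, RR.ResK v)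
    (h : RedOut M ψ₁ ψ₂ A π O red r xO) (h' : RedOut M ψ₁' ψ₂' A' π' O' red' r' xO')
    (hchart : ∀ f : Ft, (∀ v : Place k Ft, 0 ≤ v.ord (ψ₂ M.x) → 0 ≤ v.ord f) ↔
      ∃ p : Fin n → k[X], f = ∑ j, aeval (ψ₂ M.x) (p j) * ψ₂ (M.b j : U))
    (hchartI : ∀ f : Ft, (∀ v : Place k Ft, v.ord (ψ₂ M.x) ≤ 0 → 0 ≤ v.ord f) ↔
      ∃ p : Fin n → k[X], f = ∑ j, aeval (ψ₂ M.x)⁻¹ (p j) * ψ₂ (M.b' j : U))
    (hchart' : ∀ f : Ft2, (∀ v : Place k2 Ft2, 0 ≤ v.ord (ψ₂' M.x) → 0 ≤ v.ord f) ↔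
      ∃ p : Fin n → k2[X], f = ∑ j, aeval (ψ₂' M.x) (p j) * ψ₂' (M.b j : U))
    (hchartI' : ∀ f : Ft2, (∀ v : Place k2 Ft2, v.ord (ψ₂' M.x) ≤ 0 → 0 ≤ v.ord f) ↔
      ∃ p : Fin n → k2[X], f = ∑ j, aeval (ψ₂' M.x)⁻¹ (p j) * ψ₂' (M.b' j : U))
    (hψ₁ : ∀ u : U, ψ₁' u = algebraMap F FΩ (ψ₁ u))
    (hψ₂ : ∀ u : U, ψ₂' u = algebraMap Ft Ft2 (ψ₂ u))
    (hA : ∀ a : A, algebraMap K Ω (a : K) ∈ A')
    (hπ : ∀ (a : A) (ha : algebraMap K Ω (a : K) ∈ A'),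
      π' ⟨algebraMap K Ω (a : K), ha⟩ = algebraMap k k2 (π a)) :
    ∀ P : Place K F, r' (BcGauss.bcPlace hc hres P) = BcGauss.bcPlace hck hresk (r P) :=
  r_comm h h' hchart hchartI hchart' hchartI' hψ₁ hψ₂ (algebraMap K Ω) (algebraMap k k2)
    hc.comm hck.comm hA (fun a => hπ a (hA a)) (BcGauss.ord_bcPlace hc hres)
    (BcGauss.ord_bcPlace hck hresk)

/-- **(B2), classes, at `BcGauss.bcPic`** — `hsq` of `Seam.card_torsion_of_seam` with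
`β := BcGauss.bcPic hc hres`, `βk := BcGauss.bcPic hck hresk`, `ρK := hG.rho`, `ρΩ := hG'.rho`. -/
theorem rho_comm_bcPic
    (hc : IsConstExt K F Ω FΩ) (hck : IsConstExt k Ft k2 Ft2)
    (hres : ∀ v : Place K F, RR.ResK v) (hresk : ∀ v : Place k Ft, RR.ResK v)
    (hG : GoodRed O red r xO) (hG' : GoodRed O' red' r' xO')
    (h : RedOut M ψ₁ ψ₂ A π O red r xO) (h' : RedOut M ψ₁' ψ₂' A' π' O' red' r' xO')
    (hchart : ∀ f : Ft, (∀ v : Place k Ft, 0 ≤ v.ord (ψ₂ M.x) → 0 ≤ v.ord f) ↔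
      ∃ p : Fin n → k[X], f = ∑ j, aeval (ψ₂ M.x) (p j) * ψ₂ (M.b j : U))
    (hchartI : ∀ f : Ft, (∀ v : Place k Ft, v.ord (ψ₂ M.x) ≤ 0 → 0 ≤ v.ord f) ↔
      ∃ p : Fin n → k[X], f = ∑ j, aeval (ψ₂ M.x)⁻¹ (p j) * ψ₂ (M.b' j : U))
    (hchart' : ∀ f : Ft2, (∀ v : Place k2 Ft2, 0 ≤ v.ord (ψ₂' M.x) → 0 ≤ v.ord f) ↔
      ∃ p : Fin n → k2[X], f = ∑ j, aeval (ψ₂' M.x) (p j) * ψ₂' (M.b j : U))
    (hchartI' : ∀ f : Ft2, (∀ v : Place k2 Ft2, v.ord (ψ₂' M.x) ≤ 0 → 0 ≤ v.ord f) ↔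
      ∃ p : Fin n → k2[X], f = ∑ j, aeval (ψ₂' M.x)⁻¹ (p j) * ψ₂' (M.b' j : U))
    (hψ₁ : ∀ u : U, ψ₁' u = algebraMap F FΩ (ψ₁ u))
    (hψ₂ : ∀ u : U, ψ₂' u = algebraMap Ft Ft2 (ψ₂ u))
    (hA : ∀ a : A, algebraMap K Ω (a : K) ∈ A')
    (hπ : ∀ (a : A) (ha : algebraMap K Ω (a : K) ∈ A'),
      π' ⟨algebraMap K Ω (a : K), ha⟩ = algebraMap k k2 (π a))
    (c : Pic0 K F) :
    hG'.rho (BcGauss.bcPic hc hres c) = BcGauss.bcPic hck hresk (hG.rho c) :=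
  Squares90.rho_comm hG hG' (BcGauss.isBcPlace hc hres) (BcGauss.isBcPlace hck hresk)
    (r_comm_bcPlace hc hck hres hresk h h' hchart hchartI hchart' hchartI' hψ₁ hψ₂ hA hπ) c

end B2Gauss

/-! ### (B1): the constant instance -/

section B1

variable {Ω FΩ K F : Type*} [Field Ω] [Field FΩ] [Algebra Ω FΩ] [Field K] [Field F] [Algebra K F]
  [Algebra F FΩ]
variable {M : Model Λ U n} {ψ₁ : U →+* FΩ} {ψ₂ : U →+* F}
variable {A : ValuationSubring Ω} {π : A →+* K} {O : ValuationSubring FΩ} {red : O →+* F}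
  {r : Place Ω FΩ → Place K F} {xO : Oˣ}

/-- **(B1), places, `RedOut` form.**  The constant instance: a reduction datum over
`(Ω, FΩ; A → K, F)` of the realisations `ψ₁ = (F → FΩ) ∘ ψ₂` and `ψ₂` (a realisation over
`φ : Λ → K`), with `π` a retraction of `j : K → Ω`.  Then `r (bc Q) = Q` for every map of places
`bc` preserving the orders of functions. -/
theorem r_retract
    (h : RedOut M ψ₁ ψ₂ A π O red r xO)
    (hchart : ∀ f : F, (∀ v : Place K F, 0 ≤ v.ord (ψ₂ M.x) → 0 ≤ v.ord f) ↔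
      ∃ p : Fin n → K[X], f = ∑ j, aeval (ψ₂ M.x) (p j) * ψ₂ (M.b j : U))
    (hchartI : ∀ f : F, (∀ v : Place K F, v.ord (ψ₂ M.x) ≤ 0 → 0 ≤ v.ord f) ↔
      ∃ p : Fin n → K[X], f = ∑ j, aeval (ψ₂ M.x)⁻¹ (p j) * ψ₂ (M.b' j : U))
    (hψ : ∀ u : U, ψ₁ u = algebraMap F FΩ (ψ₂ u))
    (φ : Λ →+* K) (hφ : ∀ a : Λ, ψ₂ (algebraMap Λ U a) = algebraMap K F (φ a))
    (j : K →+* Ω)
    (hj : ∀ c : K, algebraMap F FΩ (algebraMap K F c) = algebraMap Ω FΩ (j c))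
    (hjA : ∀ c : K, j c ∈ A) (hjπ : ∀ c : K, π ⟨j c, hjA c⟩ = c)
    {bc : Place K F → Place Ω FΩ}
    (hbc : ∀ (v : Place K F) (f : F), (bc v).ord (algebraMap F FΩ f) = v.ord f) :
    ∀ Q : Place K F, r (bc Q) = Q := by
  have hx' : ψ₂ M.x' = (ψ₂ M.x)⁻¹ := map_x'_eq_inv ψ₂ M
  have hres : ∀ (Q : Place K F) (f : F), 0 ≤ Q.ord f → ∃ γ : K, ValAt Q f γ := by
    intro Q f hf
    obtain ⟨c, hc⟩ := Fermat.Agent.S27P.Gen.Values.exists_val_of_ord_nonneg h.ff₂ Q hf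
    exact ⟨c, hc⟩
  have hreg : ∀ (u : M.B) (Q : Place K F), 0 ≤ Q.ord (ψ₂ M.x) → 0 ≤ Q.ord (ψ₂ (u : U)) := by
    intro u Q hQ
    exact (hchart (ψ₂ (u : U))).2
      (exists_repr_of_chartCert ψ₂ φ hφ M.B ⟨M.x, M.hx⟩ M.b M.cert u) Q hQ
  have hreg' : ∀ (u : M.B') (Q : Place K F), Q.ord (ψ₂ M.x) ≤ 0 → 0 ≤ Q.ord (ψ₂ (u : U)) := by
    intro u Q hQ
    have h1 := exists_repr_of_chartCert ψ₂ φ hφ M.B' ⟨M.x', M.hx'⟩ M.b' M.cert' u
    have h2 : ∃ p : Fin n → K[X], ψ₂ (u : U) = ∑ j, aeval (ψ₂ M.x)⁻¹ (p j) * ψ₂ (M.b' j : U) := by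
      obtain ⟨p, hp⟩ := h1
      refine ⟨p, ?_⟩
      rw [hp]
      show ∑ j, aeval (ψ₂ M.x') (p j) * ψ₂ (M.b' j : U) = _
      rw [hx']
    exact (hchartI (ψ₂ (u : U))).2 h2 Q hQ
  have hT : ∀ (z : U) (Q : Place K F), 0 ≤ Q.ord (ψ₂ z) → ∃ γ₀ : K, EvK A π (bc Q) (ψ₁ z) γ₀ := by
    intro z Q hz
    obtain ⟨γ, hγ⟩ := hres Q (ψ₂ z) hz
    refine ⟨π ⟨j γ, hjA γ⟩, ⟨j γ, hjA γ⟩, rfl, ?_⟩
    have h1 : ValAt (bc Q) (algebraMap F FΩ (ψ₂ z)) (j γ) :=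
      Squares90.valAt_of_ord_eq hbc j hj hγ
    rw [hψ]
    exact h1
  have hS : ∀ (f : O) (u : U), ((f : O) : FΩ) = ψ₁ u →
      red f = ψ₂ u ∧ ((f : O) : FΩ) = algebraMap F FΩ (red f) := by
    intro f u hu
    obtain ⟨hmem, hred⟩ := h.compat u
    have hf : f = ⟨ψ₁ u, hmem⟩ := Subtype.ext hu
    have h1 : red f = ψ₂ u := by rw [hf, hred]
    exact ⟨h1, by rw [hu, h1, hψ]⟩
  refine Squares90.r_retract (h.isChart_fin hchart) (h.isChart_inf hchartI) j hj hjA hjπ hbc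
    ?_ ?_ ?_ ?_ ?_
  · intro Q
    by_cases h0 : 0 ≤ Q.ord (ψ₂ M.x)
    · exact Or.inl ⟨h0, hT M.x Q h0⟩
    · have h1 : 0 ≤ Q.ord (ψ₂ M.x') := by
        rw [hx', Place.ord_inv]
        omega
      exact Or.inr ⟨h1, hT M.x' Q h1⟩
  · rintro f ⟨u, hu⟩
    exact (hS f u hu).2
  · rintro f ⟨u, hu⟩
    exact (hS f u hu).2
  · rintro Q hQ f ⟨u, hu⟩
    rw [(hS f u hu).1]
    exact hres Q _ (hreg u Q hQ)
  · rintro Q hQ f ⟨u, hu⟩
    rw [(hS f u hu).1]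
    refine hres Q _ (hreg' u Q ?_)
    have hQ' : 0 ≤ Q.ord (ψ₂ M.x') := hQ
    rw [hx', Place.ord_inv] at hQ'
    omega

/-- **(B1), classes, `RedOut` form** (`hρ0β` of the top seam, for any base-change map of
places). -/
theorem rho_retract
    (hG : GoodRed O red r xO) (h : RedOut M ψ₁ ψ₂ A π O red r xO)
    (hchart : ∀ f : F, (∀ v : Place K F, 0 ≤ v.ord (ψ₂ M.x) → 0 ≤ v.ord f) ↔
      ∃ p : Fin n → K[X], f = ∑ j, aeval (ψ₂ M.x) (p j) * ψ₂ (M.b j : U))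
    (hchartI : ∀ f : F, (∀ v : Place K F, v.ord (ψ₂ M.x) ≤ 0 → 0 ≤ v.ord f) ↔
      ∃ p : Fin n → K[X], f = ∑ j, aeval (ψ₂ M.x)⁻¹ (p j) * ψ₂ (M.b' j : U))
    (hψ : ∀ u : U, ψ₁ u = algebraMap F FΩ (ψ₂ u))
    (φ : Λ →+* K) (hφ : ∀ a : Λ, ψ₂ (algebraMap Λ U a) = algebraMap K F (φ a))
    (j : K →+* Ω)
    (hj : ∀ c : K, algebraMap F FΩ (algebraMap K F c) = algebraMap Ω FΩ (j c))
    (hjA : ∀ c : K, j c ∈ A) (hjπ : ∀ c : K, π ⟨j c, hjA c⟩ = c)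
    {bc : Place K F → Place Ω FΩ} (hb : IsBcPlace bc) (c : Pic0 K F) :
    hG.rho (bcPic0 hb c) = c :=
  Squares90.rho_retract hG hb
    (r_retract h hchart hchartI hψ φ hφ j hj hjA hjπ hb.ord) c

end B1

/-! ### (B1) at the base-change maps of record -/

section B1Gauss

variable {Ω FΩ K F : Type*} [Field Ω] [Field FΩ] [Algebra Ω FΩ] [Field K] [Field F] [Algebra K F]
  [Algebra F FΩ] [Algebra K Ω]
variable {M : Model Λ U n} {ψ₁ : U →+* FΩ} {ψ₂ : U →+* F}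
variable {A : ValuationSubring Ω} {π : A →+* K} {O : ValuationSubring FΩ} {red : O →+* F}
  {r : Place Ω FΩ → Place K F} {xO : Oˣ}

/-- **(B1), places, at `BcGauss.bcPlace`.**  (`h0` is the last clause of
`Inst.Places.exists_place_const`, verbatim.) -/
theorem r_retract_bcPlace
    (hc : IsConstExt K F Ω FΩ) (hres : ∀ v : Place K F, RR.ResK v)
    (h : RedOut M ψ₁ ψ₂ A π O red r xO)
    (hchart : ∀ f : F, (∀ v : Place K F, 0 ≤ v.ord (ψ₂ M.x) → 0 ≤ v.ord f) ↔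
      ∃ p : Fin n → K[X], f = ∑ j, aeval (ψ₂ M.x) (p j) * ψ₂ (M.b j : U))
    (hchartI : ∀ f : F, (∀ v : Place K F, v.ord (ψ₂ M.x) ≤ 0 → 0 ≤ v.ord f) ↔
      ∃ p : Fin n → K[X], f = ∑ j, aeval (ψ₂ M.x)⁻¹ (p j) * ψ₂ (M.b' j : U))
    (hψ : ∀ u : U, ψ₁ u = algebraMap F FΩ (ψ₂ u))
    (φ : Λ →+* K) (hφ : ∀ a : Λ, ψ₂ (algebraMap Λ U a) = algebraMap K F (φ a))
    (h0 : ∀ c : K, ∃ hmem : algebraMap K Ω c ∈ A, π ⟨_, hmem⟩ = c) :
    ∀ Q : Place K F, r (BcGauss.bcPlace hc hres Q) = Q :=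
  r_retract h hchart hchartI hψ φ hφ (algebraMap K Ω) hc.comm (fun c => (h0 c).1)
    (fun c => (h0 c).2) (BcGauss.ord_bcPlace hc hres)

/-- **(B1), classes, at `BcGauss.bcPic`** — `hρ0β` of `Seam.card_torsion_of_seam` with
`β := BcGauss.bcPic hc hres`, `ρ0 := hG.rho`. -/
theorem rho_retract_bcPic
    (hc : IsConstExt K F Ω FΩ) (hres : ∀ v : Place K F, RR.ResK v)
    (hG : GoodRed O red r xO) (h : RedOut M ψ₁ ψ₂ A π O red r xO)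
    (hchart : ∀ f : F, (∀ v : Place K F, 0 ≤ v.ord (ψ₂ M.x) → 0 ≤ v.ord f) ↔
      ∃ p : Fin n → K[X], f = ∑ j, aeval (ψ₂ M.x) (p j) * ψ₂ (M.b j : U))
    (hchartI : ∀ f : F, (∀ v : Place K F, v.ord (ψ₂ M.x) ≤ 0 → 0 ≤ v.ord f) ↔
      ∃ p : Fin n → K[X], f = ∑ j, aeval (ψ₂ M.x)⁻¹ (p j) * ψ₂ (M.b' j : U))
    (hψ : ∀ u : U, ψ₁ u = algebraMap F FΩ (ψ₂ u))
    (φ : Λ →+* K) (hφ : ∀ a : Λ, ψ₂ (algebraMap Λ U a) = algebraMap K F (φ a))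
    (h0 : ∀ c : K, ∃ hmem : algebraMap K Ω c ∈ A, π ⟨_, hmem⟩ = c)
    (c : Pic0 K F) :
    hG.rho (BcGauss.bcPic hc hres c) = c :=
  Squares90.rho_retract hG (BcGauss.isBcPlace hc hres)
    (r_retract_bcPlace hc hres h hchart hchartI hψ φ hφ h0) c

end B1Gauss

end Fermat.Agent.S27P.Inst.SquaresOut90
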