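/-
S27 / (INST) — row 526 INST-VALOMEGA (helper31): the mixed valuation ring of the universal domain.

`exists_valuation_omega`: given a valuation subring `A` of an algebraically closed field `K` with a
surjective residue map `π : A → k` onto an algebraically closed field `k` (kernel the maximal ideal),
there is a valuation subring `V` of the universal domain `Omega K g` with a surjective residue map
`πΩ : V → Omega k g` (kernel the maximal ideal) such that `V ∩ K = A`, `πΩ` restricts to `π` on `A`,
and the coordinates `tcoord K g i` lie in `V` and reduce to the coordinates `tcoord k g i`.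

Proof: Chevalley's place extension (`GR.PlaceExt.exists_valuationSubring_extending`) applied to the
subring `A[t_1, …, t_g]` of `Omega K g` (a polynomial ring, by algebraic independence of the
coordinates) and the ring hom "`π` on the coefficients, `t_i ↦ tcoord k g i`".  The range of `πΩ` is
an algebraically closed subfield of `Omega k g` (it is the residue field of `V`) containing `k` and
the coordinates, and `Omega k g` is algebraic over `k(t_1, …, t_g)`; hence `πΩ` is surjective.

Mathlib + `GR/PlaceExt` + `Inst/Omega`; universe-polymorphic (`K : Type u`, `k : Type w`).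
-/
import Mathlib
import Fermat.Agent.S27P.GR.PlaceExt
import Fermat.Agent.S27P.Inst.Omega

set_option autoImplicit false

universe u w

noncomputable section

namespace Fermat.Agent.S27P.Inst

namespace ValOmega

variable {K : Type u} [Field K] (A : ValuationSubring K) {k : Type w} [Field k] (π : A →+* k)
  (g : ℕ)

/-- The evaluation `A[T_1, …, T_g] → Omega K g`, `T_i ↦ tcoord K g i`. -/
def evK : MvPolynomial (Fin g) A →+* Omega K g :=
  MvPolynomial.eval₂Hom ((algebraMap K (Omega K g)).comp A.subtype) (tcoord K g)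

/-- The reduction `A[T_1, …, T_g] → Omega k g`: `π` on the coefficients, `T_i ↦ tcoord k g i`. -/
def evk : MvPolynomial (Fin g) A →+* Omega k g :=
  MvPolynomial.eval₂Hom ((algebraMap k (Omega k g)).comp π) (tcoord k g)

theorem evK_C (a : A) : evK A g (MvPolynomial.C a) = algebraMap K (Omega K g) (a : K) := by
  simp [evK]

theorem evK_X (i : Fin g) : evK A g (MvPolynomial.X i) = tcoord K g i := by
  simp [evK]

theorem evk_C (a : A) : evk A π g (MvPolynomial.C a) = algebraMap k (Omega k g) (π a) := by
  simp [evk]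

theorem evk_X (i : Fin g) : evk A π g (MvPolynomial.X i) = tcoord k g i := by
  simp [evk]

theorem evK_injective : Function.Injective (evK A g) := by
  have h1 : evK A g =
      ((MvPolynomial.aeval (tcoord K g) : MvPolynomial (Fin g) K →ₐ[K] Omega K g) :
        MvPolynomial (Fin g) K →+* Omega K g).comp (MvPolynomial.map A.subtype) := by
    apply MvPolynomial.ringHom_ext
    · intro a
      simp [evK]
    · intro i
      simp [evK]
  have h2 : Function.Injective
      (MvPolynomial.aeval (tcoord K g) : MvPolynomial (Fin g) K →ₐ[K] Omega K g) :=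
    algebraicIndependent_tcoord K g
  rw [h1]
  exact h2.comp (MvPolynomial.map_injective _ Subtype.val_injective)

/-- Algebraic closedness transfers along a ring isomorphism (universe-polymorphic form). -/
theorem isAlgClosed_of_ringEquiv {k₁ : Type u} {k₂ : Type w} [Field k₁] [Field k₂]
    (e : k₁ ≃+* k₂) [IsAlgClosed k₁] : IsAlgClosed k₂ := by
  apply IsAlgClosed.of_exists_root
  intro p _ hp
  have hpe : Polynomial.degree (p.map (e.symm : k₂ →+* k₁)) ≠ 0 := by
    rw [Polynomial.degree_map]
    exact ne_of_gt (Polynomial.degree_pos_of_irreducible hp)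
  obtain ⟨x, hx⟩ := IsAlgClosed.exists_root (k := k₁) (p.map (e.symm : k₂ →+* k₁)) hpe
  refine ⟨e x, ?_⟩
  rw [Polynomial.IsRoot, Polynomial.eval_map] at hx
  apply e.symm.injective
  rw [map_zero, ← hx]
  have h1 := Polynomial.hom_eval₂ p (RingHom.id k₂) (e.symm : k₂ →+* k₁) (e x)
  rw [RingHom.comp_id] at h1
  have h2 : (e.symm : k₂ →+* k₁) (e x) = x := e.symm_apply_apply x
  rw [h2] at h1
  exact h1

end ValOmega

open ValOmega in
/-- **(INST-VALOMEGA)** the mixed valuation ring of the universal domain, with residue field the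
universal domain of the residue field. -/
theorem exists_valuation_omega {K : Type u} [Field K] [IsAlgClosed K] (A : ValuationSubring K)
    {k : Type w} [Field k] [IsAlgClosed k] (π : A →+* k) (hπ : Function.Surjective π)
    (hker : ∀ a : A, π a = 0 ↔ a ∈ IsLocalRing.maximalIdeal A) (g : ℕ) :
    ∃ (V : ValuationSubring (Omega K g)) (πΩ : V →+* Omega k g),
      Function.Surjective πΩ ∧ (∀ v : V, πΩ v = 0 ↔ v ∈ IsLocalRing.maximalIdeal V) ∧
      (∀ a : K, algebraMap K (Omega K g) a ∈ V ↔ a ∈ A) ∧
      (∀ (a : A) (ha : algebraMap K (Omega K g) (a : K) ∈ V), πΩ ⟨_, ha⟩ = algebraMap k (Omega k g) (π a)) ∧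
      ∀ i : Fin g, ∃ hi : tcoord K g i ∈ V, πΩ ⟨_, hi⟩ = tcoord k g i := by
  classical
  let e : MvPolynomial (Fin g) A ≃+* (evK A g).range :=
    RingEquiv.ofBijective (evK A g).rangeRestrict
      ⟨fun a b hab => evK_injective A g (congrArg Subtype.val hab),
        (evK A g).rangeRestrict_surjective⟩
  let f : (evK A g).range →+* Omega k g := (evk A π g).comp (e.symm : (evK A g).range →+* _)
  have hf : ∀ P : MvPolynomial (Fin g) A, f ⟨evK A g P, ⟨P, rfl⟩⟩ = evk A π g P := by
    intro P
    have h1 : e.symm ⟨evK A g P, ⟨P, rfl⟩⟩ = P := by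
      rw [RingEquiv.symm_apply_eq]
      rfl
    show evk A π g (e.symm _) = _
    rw [h1]
  obtain ⟨V, hRV, πΩ, hπΩ, hkerΩ⟩ :=
    GR.PlaceExt.exists_valuationSubring_extending (evK A g).range f
  have hC : ∀ a : A, ∃ ha : algebraMap K (Omega K g) (a : K) ∈ V,
      πΩ ⟨_, ha⟩ = algebraMap k (Omega k g) (π a) := by
    intro a
    have hmem : algebraMap K (Omega K g) (a : K) ∈ (evK A g).range :=
      ⟨MvPolynomial.C a, evK_C A g a⟩
    refine ⟨hRV hmem, ?_⟩
    have h1 := hπΩ ⟨_, hmem⟩
    have h2 : (⟨_, hmem⟩ : (evK A g).range) = ⟨evK A g (MvPolynomial.C a), ⟨_, rfl⟩⟩ :=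
      Subtype.ext (evK_C A g a).symm
    rw [h1, h2, hf, evk_C]
  have hX : ∀ i : Fin g, ∃ hi : tcoord K g i ∈ V, πΩ ⟨_, hi⟩ = tcoord k g i := by
    intro i
    have hmem : tcoord K g i ∈ (evK A g).range := ⟨MvPolynomial.X i, evK_X A g i⟩
    refine ⟨hRV hmem, ?_⟩
    have h1 := hπΩ ⟨_, hmem⟩
    have h2 : (⟨_, hmem⟩ : (evK A g).range) = ⟨evK A g (MvPolynomial.X i), ⟨_, rfl⟩⟩ :=
      Subtype.ext (evK_X A g i).symm
    rw [h1, h2, hf, evk_X]
  refine ⟨V, πΩ, ?_, hkerΩ, ?_, ?_, hX⟩
  · -- surjectivity
    have hκ : IsAlgClosed (IsLocalRing.ResidueField V) := GR.PlaceExt.isAlgClosed_residueField V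
    let φ : IsLocalRing.ResidueField V →+* Omega k g :=
      Ideal.Quotient.lift (IsLocalRing.maximalIdeal V) πΩ (fun v hv => (hkerΩ v).2 hv)
    have hφ : ∀ v : V, φ (IsLocalRing.residue V v) = πΩ v := fun v =>
      Ideal.Quotient.lift_mk _ _ _
    let L : IntermediateField k (Omega k g) :=
      (φ.fieldRange).toIntermediateField (fun c => by
        obtain ⟨a, rfl⟩ := hπ c
        obtain ⟨ha, hval⟩ := hC a
        exact ⟨IsLocalRing.residue V ⟨_, ha⟩, by rw [hφ, hval]⟩)
    let eL : IsLocalRing.ResidueField V ≃+* L :=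
      RingEquiv.ofBijective (φ.codRestrict L (fun z => ⟨z, rfl⟩))
        ⟨fun a b hab => φ.injective (congrArg Subtype.val hab),
          fun ⟨y, z, hz⟩ => ⟨z, Subtype.ext hz⟩⟩
    have hL : IsAlgClosed L := isAlgClosed_of_ringEquiv eL
    have hE : IntermediateField.adjoin k (Set.range (tcoord k g)) ≤ L := by
      rw [IntermediateField.adjoin_le_iff]
      rintro _ ⟨i, rfl⟩
      obtain ⟨hi, hval⟩ := hX i
      exact ⟨IsLocalRing.residue V ⟨_, hi⟩, by rw [hφ, hval]⟩
    intro y
    have h1 := isAlgebraic_adjoin_tcoord k g y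
    have h2 : IsAlgebraic L y := by
      obtain ⟨p, hp0, hp⟩ := h1
      refine ⟨p.map (IntermediateField.inclusion hE).toRingHom, ?_, ?_⟩
      · exact (Polynomial.map_ne_zero_iff (IntermediateField.inclusion hE).toRingHom.injective).2 hp0
      · rw [Polynomial.aeval_def, Polynomial.eval₂_map]
        exact hp
    have hint : IsIntegral L y := h2.isIntegral
    have hdeg : (minpoly L y).degree = 1 :=
      IsAlgClosed.degree_eq_one_of_irreducible L (minpoly.irreducible hint)
    obtain ⟨⟨y', z, hz⟩, hy'⟩ := minpoly.mem_range_of_degree_eq_one L y hdeg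
    obtain ⟨v, rfl⟩ := IsLocalRing.residue_surjective z
    refine ⟨v, ?_⟩
    rw [← hφ, hz]
    exact hy'
  · -- the trace on `K`
    intro a
    constructor
    · intro haV
      by_contra haA
      have ha0 : a ≠ 0 := fun h => haA (h ▸ A.zero_mem)
      have hinv : a⁻¹ ∈ A := (A.mem_or_inv_mem a).resolve_left haA
      have hmax : (⟨a⁻¹, hinv⟩ : A) ∈ IsLocalRing.maximalIdeal A := by
        rw [IsLocalRing.mem_maximalIdeal]
        intro hu
        obtain ⟨b, hb⟩ := hu.exists_right_inv
        have h1 : a⁻¹ * (b : K) = 1 := congrArg Subtype.val hb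
        have h2 : (b : K) = a := by
          rw [← mul_one a, ← h1, ← mul_assoc, mul_inv_cancel₀ ha0, one_mul]
        exact haA (h2 ▸ b.2)
      have h0 : π ⟨a⁻¹, hinv⟩ = 0 := (hker _).2 hmax
      obtain ⟨hinvV, hval⟩ := hC ⟨a⁻¹, hinv⟩
      have hprod : (⟨_, hinvV⟩ : V) * ⟨_, haV⟩ = 1 :=
        Subtype.ext (by
          show algebraMap K (Omega K g) a⁻¹ * algebraMap K (Omega K g) a = 1
          rw [← map_mul, inv_mul_cancel₀ ha0, map_one])
      have h3 := congrArg πΩ hprod
      rw [map_mul, hval, h0, map_zero, zero_mul, map_one] at h3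
      exact zero_ne_one h3
    · intro haA
      exact (hC ⟨a, haA⟩).1
  · intro a ha
    exact (hC a).2

end Fermat.Agent.S27P.Inst
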