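/-
S27 (row 26) / (INST-F) — THE ASSEMBLY (helper25).

`Main.card_torsion`: for a function field of one variable `F/K` (`IsFF1 K F x₀`) over an
algebraically closed field of characteristic zero and a prime `ℓ`,
`#Pic0(F)[ℓ^N] = ℓ^(2 g N)`.

The proof instantiates the top seam `Seam.card_torsion_of_seam` with

* a two-chart model `M` of `F/K` over a finitely generated ring (`GR.SpreadBTop.exists_model`),
* a place `A` of `K` with residue field `k` algebraic over a finite field of characteristic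
  `p ∤ ℓ` (`Inst.Places.exists_place_mixed`), the special fibre `Ft/k` of `M`
  (`GR.Model.exists_real`),
* `Ω := Omega K g`, `FΩ := F·Ω`, `k2 := Omega k g`, `Ft2 := Ft·k2` (`BC.ConstExt.Model`), the
  valuation ring `V` of `Ω` above `A` (`Inst.exists_valuation_omega`), the place of `Ω` trivial
  on `K` (`Inst.Places.exists_place_const`),
* three instances of the reduction theorem `GR.exists_isRed`:
  `(K, F) ⟶ (k, Ft)`, `(Ω, FΩ) ⟶ (k2, Ft2)` and the constant one `(Ω, FΩ) ⟶ (K, F)`,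
* the zeta anchor on `(k, Ft)` (`Zeta.Anchor.anchor`), the squares
  (`Inst.SquaresOut90`), (DIV_Ω) (`Gen.Lift.div_Omega`) and (LIFT_Ω) (`Inst.LiftOfRedOut.hlift`).
-/
import Mathlib
import Fermat.Agent.S27P.Top
import Fermat.Agent.S27P.Zeta.Anchor
import Fermat.Agent.S27P.Inst.Omega
import Fermat.Agent.S27P.Inst.ValOmega
import Fermat.Agent.S27P.Inst.Places
import Fermat.Agent.S27P.Inst.OfIsRed
import Fermat.Agent.S27P.Inst.SquaresOut90
import Fermat.Agent.S27P.Inst.LiftOfRedOut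
import Fermat.Agent.S27P.Inst.GenusZero45
import Fermat.Agent.S27P.BC.ConstExt
import Fermat.Agent.S27P.BC.BcMain
import Fermat.Agent.S27P.BC.RealBC
import Fermat.Agent.S27P.BC.FrameOf
import Fermat.Agent.S27P.GR.Real
import Fermat.Agent.S27P.GR.Main
import Fermat.Agent.S27P.GR.Fibre
import Fermat.Agent.S27P.GR.SpreadBTop
import Fermat.Agent.S27P.Gen.Lift

set_option autoImplicit false

noncomputable section

namespace Fermat.Agent.S27P.Inst.Main

open Polynomial AlgebraicCurve IntermediateField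
open Fermat.Agent.Lib.FF Fermat.Agent.Lib.Red Fermat.Agent.Lib.Red.PlaceRed
open Fermat.Agent.S27P.GR Fermat.Agent.S27P
open Fermat.Agent.S27P.BC Fermat.Agent.S27P.Inst Fermat.Agent.S27P.Inst.OfIsRed
open Fermat.Agent.S27P.Inj.RedPic Fermat.Agent.S27P.Inj.Centre

/-- The output of the reduction theorem `GR.exists_isRed`, packaged: the `RedOut` record, the
good reduction data and the two charts. -/
theorem exists_redOut {Λ U : Type*} [CommRing Λ] [CommRing U] [Algebra Λ U] {n : ℕ}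
    (M : Model Λ U n) {K' F' k Ft : Type*} [Field K'] [Field F'] [Algebra K' F'] [Field k]
    [Field Ft] [Algebra k Ft] [IsAlgClosed K'] [IsAlgClosed k] {φ₁ : Λ →+* K'} {ψ₁ : U →+* F'}
    (h₁ : Real M K' F' φ₁ ψ₁) {φ₂ : Λ →+* k} {ψ₂ : U →+* Ft} (h₂ : Real M k Ft φ₂ ψ₂)
    (hφ₁ : Function.Injective φ₁) (A : ValuationSubring K') (π : A →+* k)
    (hπ : Function.Surjective π) (hπ0 : ∀ a : A, ¬ IsUnit a → π a = 0)
    (hφ : ∀ a : Λ, ∃ h : φ₁ a ∈ A, π ⟨φ₁ a, h⟩ = φ₂ a) :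
    ∃ (O : ValuationSubring F') (red : O →+* Ft) (r : Place K' F' → Place k Ft) (xO : Oˣ),
      RedOut M ψ₁ ψ₂ A π O red r xO ∧ GoodRed O red r xO ∧
      IsChart A π O red r (finS M ψ₁ O) (finT M ψ₁ A π) (finTt M ψ₂) ∧
      IsChart A π O red r (infS M ψ₁ O) (infT M ψ₁ A π) (infTt M ψ₂) := by
  obtain ⟨O, red, r, xO, e1, e2, e3, e4, e5, e6, e7, e8, e9, e10, e11, e12⟩ :=
    exists_isRed M h₁ h₂ hφ₁ A π hπ hπ0 hφ
  have hOut : RedOut M ψ₁ ψ₂ A π O red r xO := ⟨e1, e2, e3, e4, e5, e6, e7, e8, e9, e10, e11, e12⟩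
  exact ⟨O, red, r, xO, hOut, hOut.goodRed h₂.exists_bad_set,
    hOut.isChart_fin h₂.chart, hOut.isChart_inf h₂.chart'⟩

/-- **(DIV_Ω)** for the classes coming from `F`. -/
theorem hdiv {K F Ω FΩ : Type*} [Field K] [Field F] [Field Ω] [Field FΩ]
    [Algebra K F] [Algebra K Ω] [Algebra F FΩ] [Algebra Ω FΩ] [IsAlgClosed K] [IsAlgClosed Ω]
    (hc : IsConstExt K F Ω FΩ) {x : F} (hF : IsFF1 K F x)
    (htrK : Algebra.trdeg K Ω < Cardinal.aleph0)
    {t : Fin (genusFF Ω FΩ) → Ω} (ht : AlgebraicIndependent K t)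
    {m : ℕ} (hm : 0 < m) (htor : {y : Pic0 Ω FΩ | m • y = 0}.Finite)
    (hres : ∀ v : Place K F, RR.ResK v) (c : Pic0 K F) :
    ∃ a : Pic0 Ω FΩ, m • a = BcGauss.bcPic hc hres c := by
  have hFr : Gen.Frame (K := K) (algebraMap F FΩ x) hc.semilinearAut :=
    FrameOf.frame_of_isBcPlace hc hF htrK (BcGauss.isBcPlace hc hres)
  obtain ⟨D, rfl⟩ := Pic0.mk_surjective c
  rw [BcGauss.bcPic_mk]
  exact Gen.Lift.div_Omega hFr ⟨t, ht⟩ hm htor _
    (fun σ => BcGauss.semilinearAut_smul_bcDivisor hc hres σ (D : Divisor K F))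

/-- **The assembly**, all eight fields abstract: from the model, its two realisations, the two
constant field extensions, the valuation rings `A ⊂ K`, `V ⊂ Ω` and the generic coordinates. -/
theorem card_torsion_of_data
    {K : Type*} {F : Type*} {Ω : Type*} {FΩ : Type*} [Field K] [Field F] [Field Ω] [Field FΩ]
    [Algebra K F] [Algebra K Ω] [Algebra F FΩ] [Algebra Ω FΩ]
    {k : Type*} {Ft : Type*} {k2 : Type*} {Ft2 : Type*} [Field k] [Field Ft] [Field k2] [Field Ft2]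
    [Algebra k Ft] [Algebra k k2] [Algebra Ft Ft2] [Algebra k2 Ft2]
    [IsAlgClosed K] [CharZero K] [IsAlgClosed Ω] [IsAlgClosed k] [IsAlgClosed k2]
    {Λ U : Type*} [CommRing Λ] [CommRing U] [Algebra Λ U] {n : ℕ} {M : Model Λ U n}
    {φ : Λ →+* K} {ψ : U →+* F} {φ₂ : Λ →+* k} {ψ₂ : U →+* Ft}
    {A : ValuationSubring K} {π : A →+* k} {V : ValuationSubring Ω} {πΩ : V →+* k2}
    (hc : IsConstExt K F Ω FΩ) (hck : IsConstExt k Ft k2 Ft2)
    (hR : Real M K F φ ψ) (hφinj : Function.Injective φ) (hR₂ : Real M k Ft φ₂ ψ₂)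
    (hπsurj : Function.Surjective π)
    (hπker : ∀ a : A, π a = 0 ↔ a ∈ IsLocalRing.maximalIdeal A)
    (hφ : ∀ a : Λ, ∃ h : φ a ∈ A, π ⟨φ a, h⟩ = φ₂ a)
    (hπΩsurj : Function.Surjective πΩ)
    (hπΩker : ∀ v : V, πΩ v = 0 ↔ v ∈ IsLocalRing.maximalIdeal V)
    (hVA : ∀ a : K, algebraMap K Ω a ∈ V ↔ a ∈ A)
    (hπΩπ : ∀ (a : A) (ha : algebraMap K Ω (a : K) ∈ V), πΩ ⟨_, ha⟩ = algebraMap k k2 (π a))
    (htrK : Algebra.trdeg K Ω < Cardinal.aleph0) (htrk : Algebra.trdeg k k2 < Cardinal.aleph0)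
    {g : ℕ} (hg : g = genusFF Ω FΩ)
    {t : Fin g → Ω} (ht : AlgebraicIndependent K t)
    (halg : ∀ y : Ω, IsAlgebraic (IntermediateField.adjoin K (Set.range t)) y)
    {tb : Fin g → k2} (htb : AlgebraicIndependent k tb)
    (hπΩt : ∀ i, ∃ hi : t i ∈ V, πΩ ⟨_, hi⟩ = tb i)
    {p : ℕ} [Fact p.Prime] [CharP k p]
    (halgk : ∀ a : k, ∃ m : ℕ, 0 < m ∧ a ^ p ^ m = a)
    (ℓ : ℕ) [Fact ℓ.Prime] (hpℓ : ¬ p ∣ ℓ) (N : ℕ) :
    Nat.card (Pic0.torsion K F (ℓ ^ N)) = ℓ ^ (2 * genusFF K F * N) := by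
  classical
  subst hg
  have hℓ : ℓ.Prime := Fact.out
  have hp : p.Prime := Fact.out
  have hπ0 : ∀ a : A, ¬ IsUnit a → π a = 0 := fun a ha => (hπker a).2 ha
  have hπΩ0 : ∀ v : V, ¬ IsUnit v → πΩ v = 0 := fun v hv => (hπΩker v).2 hv
  have hF : IsFF1 K F (ψ M.x) := hR.isFF1
  have hFt : IsFF1 k Ft (ψ₂ M.x) := hR₂.isFF1
  have hres := hF.resK
  have hresk := hFt.resK
  -- the realisations over `Ω` and `k2`
  have hRΩ := RealBC.real_baseChange M hc hR
  have hR₂Ω := RealBC.real_baseChange M hck hR₂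
  have hφΩinj : Function.Injective ((algebraMap K Ω).comp φ) :=
    (algebraMap K Ω).injective.comp hφinj
  have hφΩ : ∀ a : Λ, ∃ h : ((algebraMap K Ω).comp φ) a ∈ V,
      πΩ ⟨_, h⟩ = ((algebraMap k k2).comp φ₂) a := by
    intro a
    obtain ⟨h, e⟩ := hφ a
    refine ⟨(hVA (φ a)).2 h, ?_⟩
    have := hπΩπ ⟨φ a, h⟩ ((hVA (φ a)).2 h)
    rw [e] at this
    exact this
  -- instance 1 : (K, F) ⟶ (k, Ft)
  obtain ⟨O, red, r, xO, hOut1, hG1, hfin1, hinf1⟩ :=
    exists_redOut M hR hR₂ hφinj A π hπsurj hπ0 hφ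
  -- instance 2 : (Ω, FΩ) ⟶ (k2, Ft2)
  obtain ⟨O2, red2, r2, xO2, hOut2, hG2, hfin2, hinf2⟩ :=
    exists_redOut M hRΩ hR₂Ω hφΩinj V πΩ hπΩsurj hπΩ0 hφΩ
  -- instance 3 : (Ω, FΩ) ⟶ (K, F), the constant instance
  obtain ⟨A0, π0, hπ0surj, hπ0nu, -, hπ0c⟩ := Places.exists_place_const (K := K) (Ω := Ω)
  obtain ⟨O0, red0, r0, xO0, hOut0, hG0, hfin0, hinf0⟩ :=
    exists_redOut M hRΩ hR hφΩinj A0 π0 hπ0surj hπ0nu (Places.hφ_const A0 π0 hπ0c φ)
  -- (ANCHOR) on the special fibre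
  have hℓp : ℓ ≠ p := by
    rintro rfl
    exact hpℓ dvd_rfl
  have hanchor := Zeta.Anchor.anchor halgk hFt ℓ hℓp
  have hgen : genusFF k Ft = genusFF K F := hOut1.genus.symm
  -- injectivity of the reductions on torsion
  have hρK_inj : ∀ c : Pic0 K F, (∃ j : ℕ, ℓ ^ j • c = 0) → hG1.rho c = 0 → c = 0 := by
    rintro c ⟨j, hj⟩ hc0
    refine hG1.eq_zero_of_rho_eq_zero (m := ℓ ^ j) ?_ c ?_ hc0
    · have hcharFt : CharP Ft p := charP_of_injective_algebraMap (algebraMap k Ft).injective p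
      rw [Ne, CharP.cast_eq_zero_iff Ft p]
      intro h
      exact hpℓ (hp.dvd_of_dvd_pow h)
    · rw [natCast_zsmul]
      exact hj
  have hρ0_inj : ∀ a : Pic0 Ω FΩ, ℓ • a = 0 → hG0.rho a = 0 → a = 0 := by
    intro a ha ha0
    refine hG0.eq_zero_of_rho_eq_zero (m := ℓ) ?_ a ?_ ha0
    · have hcharF : CharZero F := charZero_of_injective_algebraMap (algebraMap K F).injective
      exact Nat.cast_ne_zero.2 hℓ.ne_zero
    · rw [natCast_zsmul]
      exact ha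
  -- finiteness of the `ℓ`-torsion of `Pic0 Ω FΩ`
  have htor : {y : Pic0 Ω FΩ | ℓ • y = 0}.Finite := by
    have hfin : Finite {c : Pic0 k Ft // ℓ • c = 0} := hanchor.1
    let f : {y : Pic0 Ω FΩ // ℓ • y = 0} → {c : Pic0 k Ft // ℓ • c = 0} := fun y =>
      ⟨hG1.rho (hG0.rho y), by rw [← map_nsmul, ← map_nsmul, y.2, map_zero, map_zero]⟩
    have hf : Function.Injective f := by
      intro y y' hyy'
      have h1 : hG1.rho (hG0.rho ((y : Pic0 Ω FΩ) - y')) = 0 := by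
        rw [map_sub, map_sub, sub_eq_zero]
        exact congrArg Subtype.val hyy'
      have hl : ℓ • ((y : Pic0 Ω FΩ) - y') = 0 := by
        rw [nsmul_sub, y.2, y'.2, sub_zero]
      have h2 : hG0.rho ((y : Pic0 Ω FΩ) - y') = 0 :=
        hρK_inj _ ⟨1, by rw [pow_one, ← map_nsmul, hl, map_zero]⟩ h1
      exact Subtype.ext (sub_eq_zero.1 (hρ0_inj _ hl h2))
    exact Set.finite_coe_iff.mp (Finite.of_injective f hf)
  -- the two squares
  have hsq : ∀ c : Pic0 K F,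
      hG2.rho (BcGauss.bcPic hc hres c) = BcGauss.bcPic hck hresk (hG1.rho c) :=
    SquaresOut90.rho_comm_bcPic hc hck hres hresk hG1 hG2 hOut1 hOut2 hR₂.chart hR₂.chart'
      hR₂Ω.chart hR₂Ω.chart' (fun _ => rfl) (fun _ => rfl) (fun a => (hVA a).2 a.2) hπΩπ
  have hretr : ∀ c : Pic0 K F, hG0.rho (BcGauss.bcPic hc hres c) = c :=
    SquaresOut90.rho_retract_bcPic hc hres hG0 hOut0 hR.chart hR.chart' (fun _ => rfl) φ
      hR.compat hπ0c
  -- the frames
  have hFr : Gen.Frame (K := K) (algebraMap F FΩ (ψ M.x)) hc.semilinearAut :=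
    FrameOf.frame_of_isBcPlace hc hF htrK (BcGauss.isBcPlace hc hres)
  have hFr2 : Gen.Frame (K := k) (algebraMap Ft Ft2 (ψ₂ M.x)) hck.semilinearAut :=
    FrameOf.frame_of_isBcPlace hck hFt htrk (BcGauss.isBcPlace hck hresk)
  -- the generic coordinates
  have htV : ∀ i, t i ∈ V := fun i => (hπΩt i).1
  have hind : AlgebraicIndependent k (fun i => πΩ ⟨t i, htV i⟩) := by
    have e : (fun i => πΩ ⟨t i, htV i⟩) = tb := funext fun i => (hπΩt i).2
    rw [e]
    exact htb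
  have hlift := LiftOfRedOut.hlift hc hck hR hR₂ hOut2 hG2 hfin2 hinf2 hFr hFr2 A π hπΩker hVA
    hπΩπ ht halg htV hind hℓ.pos htor (BcGauss.isBcPlace hc hres)
    (fun σ v => BcGauss.semilinearAut_smul_bcPlace hc hres σ v) hG1.rho
    (BcGauss.bcPic hck hresk) hsq
  exact Seam.card_torsion_of_seam ℓ hanchor hgen hG1.rho (BcGauss.bcPic hc hres) hG0.rho hG2.rho
    (BcGauss.bcPic hck hresk) hρK_inj hG1.rho_surjective hretr hρ0_inj
    (BcMain.bcPic_injective hck hFt) hsq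
    (hdiv hc hF htrK ht hℓ.pos htor hres) hlift N

/-- **S27 for `IsFF1`**: the `ℓ^N`-torsion of `Pic0` of a function field of one variable over an
algebraically closed field of characteristic zero has `ℓ^(2 g N)` elements. -/
theorem card_torsion.{u, v} {K : Type u} {F : Type v} [Field K] [Field F] [Algebra K F]
    [IsAlgClosed K] [CharZero K] {x₀ : F} (h₀ : IsFF1 K F x₀) (ℓ : ℕ) [Fact ℓ.Prime] (N : ℕ) :
    Nat.card (Pic0.torsion K F (ℓ ^ N)) = ℓ ^ (2 * genusFF K F * N) := by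
  classical
  have hℓ : ℓ.Prime := Fact.out
  obtain ⟨n, Λ, _, U, _, _, M, φ, ψ, hR, hφinj, -, ⟨s, hs⟩, -, -⟩ :=
    SpreadBTop.exists_model h₀ ∅
  obtain ⟨p, A, φ₂, hp, hpℓ, hchar, hclosed, halgk, hπsurj, -, hφ⟩ :=
    Places.exists_place_mixed φ s hs ℓ hℓ.ne_zero
  haveI := hchar
  haveI := hclosed
  haveI : Fact p.Prime := ⟨hp⟩
  obtain ⟨Ft, _, _, ψ₂, hR₂, -, -⟩ := Model.exists_real M φ₂
  obtain ⟨V, πΩ, hπΩsurj, hπΩker, hVA, hπΩπ, hπΩt⟩ :=
    exists_valuation_omega A (IsLocalRing.residue A) hπsurj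
      (fun a => IsLocalRing.residue_eq_zero_iff a) (genusFF K F)
  exact card_torsion_of_data (Ω := Omega K (genusFF K F))
    (FΩ := ConstExt.Model K F (Omega K (genusFF K F)))
    (k2 := Omega (IsLocalRing.ResidueField A) (genusFF K F))
    (Ft2 := ConstExt.Model (IsLocalRing.ResidueField A) Ft
      (Omega (IsLocalRing.ResidueField A) (genusFF K F)))
    (ConstExt.isConstExt K F _) (ConstExt.isConstExt _ Ft _) hR hφinj hR₂ hπsurj
    (fun a => IsLocalRing.residue_eq_zero_iff a) hφ hπΩsurj hπΩker hVA hπΩπ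
    (trdeg_lt K _) (trdeg_lt _ _)
    (BcMain.genusFF_eq (ConstExt.isConstExt K F _) hR.isFF1).symm
    (algebraicIndependent_tcoord K _)
    (isAlgebraic_adjoin_tcoord K _) (algebraicIndependent_tcoord _ _) hπΩt halgk ℓ hpℓ N

end Fermat.Agent.S27P.Inst.Main
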