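/-
S27 / (INST), the CONSTANT INSTANCE end to end (helper90): for a realisation `Real M K F φ ψ` of
a model and ANY constant field extension `IsConstExt K F Ω FΩ` with `K`, `Ω` algebraically closed,
the reduction theorem `GR.MainClosed56.exists_isRed` at `(Ω, FΩ; A0 → K, F)` (`A0`, `π0` from
`Inst.Places.exists_place_const`) gives a homomorphism

  `ρ0 : Pic0 Ω FΩ →+ Pic0 K F`

which is a retraction of the base change `BcGauss.bcPic hc hres` (`hρ0β` of the top seam) and is
injective on the `m`-torsion for every `m` invertible in `F` (`hρ0_inj` of the top seam).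

* `exists_redOut_const` : the reduction datum of the constant instance, as a `RedOut` + `GoodRed`;
* `exists_rho0`         : the homomorphism `ρ0` with the two properties.

Every type in its own universe; characteristic-free.
-/
import Mathlib
import Fermat.Agent.S27P.Inst.SquaresOut90
import Fermat.Agent.S27P.Inst.Places
import Fermat.Agent.S27P.GR.MainClosed56
import Fermat.Agent.S27P.GR.Real
import Fermat.Agent.S27P.BC.RealBC

set_option autoImplicit false
set_option linter.unusedSectionVars false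
set_option linter.unusedVariables false

noncomputable section

namespace Fermat.Agent.S27P.Inst.Const90

open Polynomial AlgebraicCurve
open Fermat.Agent.Lib.FF Fermat.Agent.Lib.Red.OneStep Fermat.Agent.Lib.Red.PlaceRed
open Fermat.Agent.S27P.GR Fermat.Agent.S27P.Inj.RedPic Fermat.Agent.S27P.Inj.Centre
open Fermat.Agent.S27P.BC Fermat.Agent.S27P.BC.BcDiv Fermat.Agent.S27P.Inst.OfIsRed

variable {Λ U : Type*} [CommRing Λ] [CommRing U] [Algebra Λ U] {n : ℕ}
variable {K F Ω FΩ : Type*} [Field K] [Field F] [Algebra K F] [Field Ω] [Field FΩ] [Algebra Ω FΩ]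
  [Algebra K Ω] [Algebra F FΩ]

/-- **The reduction datum of the constant instance** `(Ω, FΩ; A0 → K, F)`: a valuation ring `A0`
of `Ω` containing `K` with residue map `π0 : A0 → K` the identity on `K`, and the output of the
reduction theorem for the realisations `(F → FΩ) ∘ ψ` and `ψ`. -/
theorem exists_redOut_const [IsAlgClosed K] [IsAlgClosed Ω] (M : Model Λ U n)
    (hc : IsConstExt K F Ω FΩ) {φ : Λ →+* K} {ψ : U →+* F} (hR : Real M K F φ ψ)
    (hφ : Function.Injective φ) :
    ∃ (A0 : ValuationSubring Ω) (π0 : A0 →+* K) (O : ValuationSubring FΩ) (red : O →+* F)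
      (r : Place Ω FΩ → Place K F) (xO : Oˣ),
      Function.Surjective π0 ∧ (∀ a : A0, ¬ IsUnit a → π0 a = 0) ∧
      (∀ a : A0, π0 a = 0 → ¬ IsUnit a) ∧
      (∀ c : K, ∃ hmem : algebraMap K Ω c ∈ A0, π0 ⟨_, hmem⟩ = c) ∧
      RedOut M ((algebraMap F FΩ).comp ψ) ψ A0 π0 O red r xO ∧ GoodRed O red r xO := by
  obtain ⟨A0, π0, hsurj, hnu, hun, h0⟩ := Places.exists_place_const (K := K) (Ω := Ω)
  have hRΩ : Real M Ω FΩ ((algebraMap K Ω).comp φ) ((algebraMap F FΩ).comp ψ) :=
    RealBC.real_baseChange M hc hR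
  have hφΩ : Function.Injective ((algebraMap K Ω).comp φ) :=
    (algebraMap K Ω).injective.comp hφ
  obtain ⟨O, red, r, xO, h1, h2, h3, h4, h5, h6, h7, h8, h9, h10, h11, h12⟩ :=
    MainClosed56.exists_isRed M hRΩ hR hφΩ A0 π0 hsurj hnu (Places.hφ_const A0 π0 h0 φ)
  have hOut : RedOut M ((algebraMap F FΩ).comp ψ) ψ A0 π0 O red r xO :=
    ⟨h1, h2, h3, h4, h5, h6, h7, h8, h9, h10, h11, h12⟩
  exact ⟨A0, π0, O, red, r, xO, hsurj, hnu, hun, h0, hOut, hOut.goodRed hR.exists_bad_set⟩

/-- **The constant instance**: `ρ0 : Pic0 Ω FΩ →+ Pic0 K F`, a retraction of the base change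
`BcGauss.bcPic hc hres` (`hρ0β` of `Seam.card_torsion_of_seam`), injective on the `m`-torsion for
`m` invertible in `F` (`hρ0_inj`). -/
theorem exists_rho0 [IsAlgClosed K] [IsAlgClosed Ω] (M : Model Λ U n)
    (hc : IsConstExt K F Ω FΩ) {φ : Λ →+* K} {ψ : U →+* F} (hR : Real M K F φ ψ)
    (hφ : Function.Injective φ) (hres : ∀ v : Place K F, RR.ResK v) :
    ∃ ρ0 : Pic0 Ω FΩ →+ Pic0 K F,
      (∀ c : Pic0 K F, ρ0 (BcGauss.bcPic hc hres c) = c) ∧
      ∀ m : ℕ, (m : F) ≠ 0 → ∀ a : Pic0 Ω FΩ, m • a = 0 → ρ0 a = 0 → a = 0 := by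
  obtain ⟨A0, π0, O, red, r, xO, -, -, -, h0, hOut, hG⟩ := exists_redOut_const M hc hR hφ
  refine ⟨hG.rho, fun c => ?_, fun m hm a ha hρ => ?_⟩
  · exact SquaresOut90.rho_retract_bcPic hc hres hG hOut hR.chart hR.chart' (fun u => rfl) φ
      hR.compat h0 c
  · haveI : Infinite K := IsAlgClosed.instInfinite
    exact hG.eq_zero_of_rho_eq_zero hm a (by rw [natCast_zsmul]; exact ha) hρ

end Fermat.Agent.S27P.Inst.Const90
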