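import Mathlib
import Fermat.Agent.S27P.GR.Defs
import Fermat.Agent.S27P.BC.FrameRat
import Fermat.Agent.S27P.Gen.Values

/-!
# S27 / (INST-C): the monomial basis of the model ring in the frame

For a model `M : GR.Model Λ U n` and a realisation `hR : GR.Real M K F φ ψ`:

* `mono M ψ (m, j) = ψ x ^ m * ψ (b j)` : the monomial family of the model ring, in `F`;
* `linearIndependent_mono` : it is `K`-linearly independent;
* `exists_frac_mono` : every element of `F` is a quotient of two `K`-combinations of it;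
* `span_mono_eq` : its `K`-span is the `K`-span of the image of the chart ring `M.B`
  (so it contains `1`, `ψ x`, and is closed under products);
* `hbrat`, `hbind`, `hbfrac` : the hypotheses of `lift_key` / (G10) for the family
  `fun j => algebraMap F FΩ (mono M ψ j)` and the frame action `h.semilinearAut` of a constant
  field extension `h : BC.IsConstExt K F Ω FΩ`;
* `hc1`, `hcmul`, `hct` : the corresponding hypotheses of `lift_key` on any table of values of
  this family at a place.
-/

set_option autoImplicit false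

noncomputable section

namespace Fermat.Agent.S27P.Inst.FrameBC

open Polynomial AlgebraicCurve Fermat.Agent.S27P

variable {Λ : Type*} {U : Type*} [CommRing Λ] [CommRing U] [Algebra Λ U] {n : ℕ}
  {K : Type*} {F : Type*} [Field K] [Field F] [Algebra K F]

/-- The monomial family `x ^ m * b j` of the model ring, realised in `F`. -/
def mono (M : GR.Model Λ U n) (ψ : U →+* F) (mj : ℕ × Fin n) : F :=
  ψ M.x ^ mj.1 * ψ (M.b mj.2 : U)

/-- The `K`-linear map `p ↦ ∑ i, p i (x) * b i`. -/
def comb (K : Type*) {F : Type*} [Field K] [Field F] [Algebra K F] (M : GR.Model Λ U n)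
    (ψ : U →+* F) : (Fin n → K[X]) →ₗ[K] F where
  toFun p := ∑ i, aeval (ψ M.x) (p i) * ψ (M.b i : U)
  map_add' p q := by
    simp only [Pi.add_apply, map_add, add_mul, Finset.sum_add_distrib]
  map_smul' a p := by
    simp only [Pi.smul_apply, map_smul, RingHom.id_apply, Finset.smul_sum, smul_mul_assoc]

theorem comb_apply (M : GR.Model Λ U n) (ψ : U →+* F) (p : Fin n → K[X]) :
    comb K M ψ p = ∑ i, aeval (ψ M.x) (p i) * ψ (M.b i : U) := rfl

/-- `comb` is semilinear over `K[X]` acting through `x`. -/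
theorem comb_mul (M : GR.Model Λ U n) (ψ : U →+* F) (s : K[X]) (p : Fin n → K[X]) :
    comb K M ψ (fun i => s * p i) = aeval (ψ M.x) s * comb K M ψ p := by
  simp only [comb_apply, map_mul, Finset.mul_sum, mul_assoc]

/-- The monomial basis of `Fin n → K[X]`, indexed by `ℕ × Fin n`. -/
def monoBasis (K : Type*) [Field K] (n : ℕ) : Module.Basis (ℕ × Fin n) K (Fin n → K[X]) :=
  (Pi.basis fun _ : Fin n => Polynomial.basisMonomials K).reindex
    ((Equiv.sigmaEquivProd (Fin n) ℕ).trans (Equiv.prodComm (Fin n) ℕ))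

theorem monoBasis_apply (m : ℕ) (j : Fin n) :
    monoBasis K n (m, j) = Pi.single j (X ^ m : K[X]) := by
  classical
  simp [monoBasis, Pi.basis_apply, Polynomial.coe_basisMonomials, Polynomial.X_pow_eq_monomial]

theorem comb_monoBasis (M : GR.Model Λ U n) (ψ : U →+* F) (mj : ℕ × Fin n) :
    comb K M ψ (monoBasis K n mj) = mono M ψ mj := by
  classical
  obtain ⟨m, j⟩ := mj
  rw [monoBasis_apply, comb_apply, Finset.sum_eq_single j]
  · simp [mono]
  · intro i _ hij
    rw [Pi.single_eq_of_ne hij, map_zero, zero_mul]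
  · intro hj
    exact absurd (Finset.mem_univ j) hj

theorem comb_comp_monoBasis (M : GR.Model Λ U n) (ψ : U →+* F) :
    (comb K M ψ ∘ monoBasis K n) = mono M ψ :=
  funext fun mj => comb_monoBasis M ψ mj

/-- Every value of `comb` is a `K`-combination of the monomial family. -/
theorem comb_eq_sum (M : GR.Model Λ U n) (ψ : U →+* F) (p : Fin n → K[X]) :
    comb K M ψ p = ((monoBasis K n).repr p).sum fun j a => a • mono M ψ j := by
  conv_lhs => rw [← (monoBasis K n).linearCombination_repr p]
  rw [Finsupp.apply_linearCombination, comb_comp_monoBasis, Finsupp.linearCombination_apply]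

theorem span_mono (M : GR.Model Λ U n) (ψ : U →+* F) :
    Submodule.span K (Set.range (mono M ψ)) = LinearMap.range (comb K M ψ) := by
  rw [← comb_comp_monoBasis (K := K) M ψ, Set.range_comp, ← Submodule.map_span,
    (monoBasis K n).span_eq, Submodule.map_top]

variable {M : GR.Model Λ U n} {φ : Λ →+* K} {ψ : U →+* F}

/-- **The monomial family is `K`-linearly independent.** -/
theorem linearIndependent_mono (hR : GR.Real M K F φ ψ) : LinearIndependent K (mono M ψ) := by
  have h := (monoBasis K n).linearIndependent.map' (comb K M ψ)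
    (LinearMap.ker_eq_bot'.2 fun p hp => hR.indep p hp)
  rwa [comb_comp_monoBasis] at h

/-- The image of a polynomial expression in `x` with coefficients in `Λ`. -/
theorem psi_aeval (hR : GR.Real M K F φ ψ) (q : Λ[X]) :
    ψ ((aeval (⟨M.x, M.hx⟩ : M.B) q : M.B) : U) = aeval (ψ M.x) (q.map φ) := by
  have key : ((ψ.comp (M.B.val : M.B →+* U)).comp
      ((aeval (⟨M.x, M.hx⟩ : M.B) : Λ[X] →ₐ[Λ] M.B) : Λ[X] →+* M.B)) =
      ((aeval (ψ M.x) : K[X] →ₐ[K] F) : K[X] →+* F).comp (Polynomial.mapRingHom φ) := by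
    refine Polynomial.ringHom_ext (fun a => ?_) ?_
    · simp [hR.compat]
    · simp
  exact congrArg (fun f : Λ[X] →+* F => f q) key

/-- The image of the chart ring lies in the range of `comb`. -/
theorem psi_mem_range_comb (hR : GR.Real M K F φ ψ) {u : U} (hu : u ∈ M.B) :
    ψ u ∈ LinearMap.range (comb K M ψ) := by
  obtain ⟨p, hp, -⟩ := M.cert.free ⟨u, hu⟩
  refine ⟨fun i => (p i).map φ, ?_⟩
  have h1 : ψ u = (ψ.comp (M.B.val : M.B →+* U))
      (∑ i, aeval (⟨M.x, M.hx⟩ : M.B) (p i) * M.b i) :=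
    congrArg (fun b : M.B => ψ (b : U)) hp
  rw [h1, comb_apply, map_sum]
  refine Finset.sum_congr rfl fun i _ => ?_
  rw [map_mul, ← psi_aeval hR (p i)]
  rfl

theorem mono_mem_image (M : GR.Model Λ U n) (ψ : U →+* F) (mj : ℕ × Fin n) :
    mono M ψ mj ∈ ψ '' (M.B : Set U) :=
  ⟨M.x ^ mj.1 * (M.b mj.2 : U), M.B.mul_mem (M.B.pow_mem M.hx _) (M.b mj.2).2, by
    simp [mono]⟩

/-- **The `K`-span of the monomial family is the `K`-span of the image of the chart ring.** -/
theorem span_mono_eq (hR : GR.Real M K F φ ψ) :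
    Submodule.span K (Set.range (mono M ψ)) = Submodule.span K (ψ '' (M.B : Set U)) := by
  apply le_antisymm
  · refine Submodule.span_mono ?_
    rintro _ ⟨mj, rfl⟩
    exact mono_mem_image M ψ mj
  · rw [Submodule.span_le]
    rintro _ ⟨u, hu, rfl⟩
    rw [span_mono]
    exact psi_mem_range_comb hR hu

theorem psi_mem_span (hR : GR.Real M K F φ ψ) {u : U} (hu : u ∈ M.B) :
    ψ u ∈ Submodule.span K (Set.range (mono M ψ)) := by
  rw [span_mono]
  exact psi_mem_range_comb hR hu

theorem one_mem_span (hR : GR.Real M K F φ ψ) :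
    (1 : F) ∈ Submodule.span K (Set.range (mono M ψ)) := by
  have h := psi_mem_span hR M.B.one_mem
  rwa [map_one] at h

theorem x_mem_span (hR : GR.Real M K F φ ψ) :
    ψ M.x ∈ Submodule.span K (Set.range (mono M ψ)) :=
  psi_mem_span hR M.hx

/-- The `K`-span of the monomial family is closed under products. -/
theorem mul_mem_span (hR : GR.Real M K F φ ψ) {f f' : F}
    (hf : f ∈ Submodule.span K (Set.range (mono M ψ)))
    (hf' : f' ∈ Submodule.span K (Set.range (mono M ψ))) :
    f * f' ∈ Submodule.span K (Set.range (mono M ψ)) := by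
  rw [span_mono_eq hR] at hf hf' ⊢
  have h := Submodule.mul_mem_mul hf hf'
  rw [Submodule.span_mul_span] at h
  refine Submodule.span_mono ?_ h
  rintro _ ⟨_, ⟨u, hu, rfl⟩, _, ⟨u', hu', rfl⟩, rfl⟩
  exact ⟨u * u', M.B.mul_mem hu hu', map_mul ψ u u'⟩

theorem mono_mul_mono_mem_span (hR : GR.Real M K F φ ψ) (j j' : ℕ × Fin n) :
    mono M ψ j * mono M ψ j' ∈ Submodule.span K (Set.range (mono M ψ)) :=
  mul_mem_span hR (Submodule.subset_span ⟨j, rfl⟩) (Submodule.subset_span ⟨j', rfl⟩)

/-- **Every element of `F` is a quotient of two `K`-combinations of the monomial family.** -/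
theorem exists_frac_mono (hR : GR.Real M K F φ ψ) (f : F) :
    ∃ lam mu : ℕ × Fin n →₀ K, (mu.sum fun j a => a • mono M ψ j) ≠ 0 ∧
      f * (mu.sum fun j a => a • mono M ψ j) = lam.sum fun j a => a • mono M ψ j := by
  obtain ⟨p, s, hs, hps⟩ := hR.span f
  obtain ⟨υ, hυ⟩ := psi_mem_range_comb hR M.B.one_mem
  rw [map_one] at hυ
  have h1 : comb K M ψ (fun i => s * υ i) = aeval (ψ M.x) s := by
    rw [comb_mul, hυ, mul_one]
  have hs0 : aeval (ψ M.x) s ≠ 0 := fun h0 => hs ((transcendental_iff.1 hR.trans) s h0)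
  refine ⟨(monoBasis K n).repr p, (monoBasis K n).repr fun i => s * υ i, ?_, ?_⟩
  · rw [← comb_eq_sum, h1]
    exact hs0
  · rw [← comb_eq_sum, ← comb_eq_sum, h1, mul_comm, hps, comb_apply]

/-! ### The frame vocabulary -/

section Frame

variable {Ω : Type*} {FΩ : Type*} [Field Ω] [Field FΩ] [Algebra K Ω] [Algebra F FΩ]
  [Algebra Ω FΩ]

/-- `hbrat` of `lift_key` for the monomial family. -/
theorem hbrat (h : BC.IsConstExt K F Ω FΩ) (M : GR.Model Λ U n) (ψ : U →+* F) :
    ∀ j : ℕ × Fin n, Gen.IsRat h.semilinearAut ⊥ (algebraMap F FΩ (mono M ψ j)) :=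
  fun j => BC.FrameRat.isRat_algebraMap h ⊥ (mono M ψ j)

/-- `hbind` of (G10) for the monomial family. -/
theorem hbind (h : BC.IsConstExt K F Ω FΩ) (hR : GR.Real M K F φ ψ) :
    ∀ lam : ℕ × Fin n →₀ K,
      (lam.sum fun j a => algebraMap Ω FΩ (algebraMap K Ω a) * algebraMap F FΩ (mono M ψ j)) = 0 →
        lam = 0 :=
  BC.FrameRat.hbind_of h (mono M ψ) (linearIndependent_mono hR)

/-- `hbfrac` of `lift_key` for the monomial family. -/
theorem hbfrac [IsAlgClosed K] [IsAlgClosed Ω] (h : BC.IsConstExt K F Ω FΩ)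
    (hR : GR.Real M K F φ ψ) :
    ∀ f : FΩ, Gen.IsRat h.semilinearAut ⊥ f → ∃ lam mu : ℕ × Fin n →₀ K,
      (mu.sum fun j a => algebraMap Ω FΩ (algebraMap K Ω a) * algebraMap F FΩ (mono M ψ j)) ≠ 0 ∧
      f * (mu.sum fun j a => algebraMap Ω FΩ (algebraMap K Ω a) * algebraMap F FΩ (mono M ψ j)) =
        lam.sum fun j a => algebraMap Ω FΩ (algebraMap K Ω a) * algebraMap F FΩ (mono M ψ j) :=
  BC.FrameRat.hbfrac_of h (mono M ψ) (exists_frac_mono hR)

/-! ### Tables of values at a place -/

/-- The value at a place of a finite sum. -/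
theorem val_sum {P : Place Ω FΩ} {ι : Type*} (s : Finset ι) (f : ι → FΩ) (a : ι → Ω)
    (h : ∀ i ∈ s, Gen.Val P (f i) (a i)) : Gen.Val P (∑ i ∈ s, f i) (∑ i ∈ s, a i) := by
  classical
  induction s using Finset.induction_on with
  | empty => simpa using Gen.Values.val_zero P
  | insert i s hi ih =>
    rw [Finset.sum_insert hi, Finset.sum_insert hi]
    exact Gen.Values.val_add (h i (Finset.mem_insert_self i s))
      (ih fun j hj => h j (Finset.mem_insert_of_mem hj))

/-- A function of the `K`-span of a family of `F` takes, at a place where the family has the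
values `c`, a value in the `K`-span of `c`. -/
theorem exists_val_of_mem_span (h : BC.IsConstExt K F Ω FΩ) {J : Type*} (b₀ : J → F)
    {P : Place Ω FΩ} {c : J → Ω} (hc : ∀ j, Gen.Val P (algebraMap F FΩ (b₀ j)) (c j)) {f : F}
    (hf : f ∈ Submodule.span K (Set.range b₀)) :
    ∃ d ∈ Submodule.span K (Set.range c), Gen.Val P (algebraMap F FΩ f) d := by
  obtain ⟨lam, rfl⟩ := (Finsupp.mem_span_range_iff_exists_finsupp).1 hf
  refine ⟨lam.sum fun j a => a • c j, ?_, ?_⟩
  · exact Submodule.sum_mem _ fun j _ => Submodule.smul_mem _ _ (Submodule.subset_span ⟨j, rfl⟩)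
  · rw [← BC.FrameRat.sum_eq_algebraMap h]
    refine val_sum _ _ _ fun j _ => ?_
    show Gen.Val P (algebraMap Ω FΩ (algebraMap K Ω (lam j)) * algebraMap F FΩ (b₀ j))
      (lam j • c j)
    rw [Algebra.smul_def]
    exact Gen.Values.val_mul (Gen.Values.val_algebraMap P _) (hc j)

variable {P : Place Ω FΩ} {c : ℕ × Fin n → Ω}

/-- `hc1` of `lift_key`: the table of values of the monomial family spans `1`. -/
theorem hc1 (h : BC.IsConstExt K F Ω FΩ) (hR : GR.Real M K F φ ψ)
    (hc : ∀ j, Gen.Val P (algebraMap F FΩ (mono M ψ j)) (c j)) :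
    (1 : Ω) ∈ Submodule.span K (Set.range c) := by
  obtain ⟨d, hd, hv⟩ := exists_val_of_mem_span h (mono M ψ) hc (one_mem_span hR)
  rw [map_one] at hv
  rwa [Gen.Values.val_unique (Gen.Values.val_one P) hv]

/-- `hcmul` of `lift_key`: the span of the table of values is closed under products. -/
theorem hcmul (h : BC.IsConstExt K F Ω FΩ) (hR : GR.Real M K F φ ψ)
    (hc : ∀ j, Gen.Val P (algebraMap F FΩ (mono M ψ j)) (c j)) (j j' : ℕ × Fin n) :
    c j * c j' ∈ Submodule.span K (Set.range c) := by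
  obtain ⟨d, hd, hv⟩ := exists_val_of_mem_span h (mono M ψ) hc (mono_mul_mono_mem_span hR j j')
  rw [map_mul] at hv
  rwa [Gen.Values.val_unique (Gen.Values.val_mul (hc j) (hc j')) hv]

/-- `hct` of `lift_key`: the value of the coordinate lies in the span of the table. -/
theorem hct (h : BC.IsConstExt K F Ω FΩ) (hR : GR.Real M K F φ ψ)
    (hc : ∀ j, Gen.Val P (algebraMap F FΩ (mono M ψ j)) (c j)) {t : Ω}
    (ht : Gen.Val P (algebraMap F FΩ (ψ M.x)) t) :
    t ∈ Submodule.span K (Set.range c) := by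
  obtain ⟨d, hd, hv⟩ := exists_val_of_mem_span h (mono M ψ) hc (x_mem_span hR)
  rwa [Gen.Values.val_unique ht hv]

end Frame

end Fermat.Agent.S27P.Inst.FrameBC
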