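/-
helper84 — S27 / (INST): the hypothesis `hred` (H-UNIQ) of `Gen.lift_key` as an abstract theorem,
and the genericity of the reduced tuple.

Setting: `FΩ/Ω` with good reduction data `h : GoodRed O red r xO` onto `Ft2/k2`; the special fibre
carries a frame `Frame x2 rho2` over `k ⊂ k2`.  If the reduced tuple `r ∘ P` is generic over `k`
and the class `[ΣQ - ΣP]` has trivial reduction, then `r ∘ Q` is a permutation of `r ∘ P`
(Lemma C in the reduced frame: `h⁰(Σ r(P_i)) = 1`).
-/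
import Mathlib
import Fermat.Agent.S27P.Gen.RRC
import Fermat.Agent.S27P.Inj.RedPic
import Fermat.Agent.Lib.Red.PlaceRedLocal

set_option autoImplicit false

open AlgebraicCurve

noncomputable section

namespace Fermat.Agent.S27P.Inst.HRed

open Fermat.Agent.S27P Fermat.Agent.Lib.FF

/-! ### Combinatorics: equal sums of singles -/

/-- Two tuples with the same sum of singles differ by a permutation. -/
theorem exists_perm_of_sum_single_eq {α : Type*} {g : ℕ} (a b : Fin g → α)
    (h : ∑ i, Finsupp.single (a i) (1 : ℤ) = ∑ i, Finsupp.single (b i) (1 : ℤ)) :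
    ∃ π : Equiv.Perm (Fin g), ∀ i, a (π i) = b i := by
  classical
  have hcount : ∀ v : α,
      Fintype.card {i : Fin g // b i = v} = Fintype.card {i : Fin g // a i = v} := by
    intro v
    have h1 := congrArg (fun f : α →₀ ℤ => f v) h
    simp only [Finsupp.coe_finsetSum, Finset.sum_apply, Finsupp.single_apply] at h1
    rw [Fintype.card_subtype, Fintype.card_subtype]
    have h2 : ∀ c : Fin g → α, (∑ i, (if c i = v then (1 : ℤ) else 0))
        = ((Finset.univ.filter fun i => c i = v).card : ℤ) := by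
      intro c
      rw [Finset.sum_ite, Finset.sum_const_zero, add_zero, Finset.sum_const, nsmul_eq_mul, mul_one]
    rw [h2 a, h2 b] at h1
    exact_mod_cast h1.symm
  let e : ∀ v : α, {i : Fin g // b i = v} ≃ {i : Fin g // a i = v} := fun v =>
    Fintype.equivOfCardEq (hcount v)
  refine ⟨Equiv.ofFiberEquiv e, fun i => ?_⟩
  exact Equiv.ofFiberEquiv_map e i

/-! ### (H-UNIQ) -/

section HRed

variable {Ω FΩ k k2 Ft2 : Type*} [Field Ω] [Field FΩ] [Algebra Ω FΩ] [Field k] [Field k2]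
  [Algebra k k2] [Field Ft2] [Algebra k2 Ft2]

theorem mapDomain_tsum {g : ℕ} (r : Place Ω FΩ → Place k2 Ft2) (Q : Fin g → Place Ω FΩ) :
    Finsupp.mapDomain r (Gen.tsum Q) = Gen.tsum (fun i => r (Q i)) := by
  unfold Gen.tsum
  rw [Finsupp.mapDomain_finsetSum]
  exact Finset.sum_congr rfl fun i _ => Finsupp.mapDomain_single

/-- **(H-UNIQ)** = the hypothesis `hred` of `Gen.lift_key`: if the reduced tuple `r ∘ P` is
generic in the reduced frame and `[ΣQ - ΣP]` has trivial reduction, then `r ∘ Q` is a permutation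
of `r ∘ P`. -/
theorem hred [IsAlgClosed k2] {x2 : Ft2} {rho2 : (k2 ≃ₐ[k] k2) →* SemilinearAut k2 Ft2}
    (hF2 : Gen.Frame x2 rho2) (hsep2 : Gen.RRC.SepHyp x2 rho2)
    {O : ValuationSubring FΩ} {red : O →+* Ft2} {r : Place Ω FΩ → Place k2 Ft2} {xO : Oˣ}
    (h : Inj.RedPic.GoodRed O red r xO)
    {g : ℕ} (hg : g ≤ genusFF k2 Ft2) {P : Fin g → Place Ω FΩ} {tb : Fin g → k2}
    (hPb : Gen.IsGeneric k x2 (fun i => r (P i)) tb) (Q : Fin g → Place Ω FΩ)
    (hρ : ∀ D' : Divisor.degZero (K := Ω) (F := FΩ),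
      (D' : Divisor Ω FΩ) = Gen.tsum Q - Gen.tsum P → h.rho (Pic0.mk D') = 0) :
    ∃ π : Equiv.Perm (Fin g), ∀ i, r (Q (π i)) = r (P i) := by
  have hdeg : Gen.tsum Q - Gen.tsum P ∈ Divisor.degZero (K := Ω) (F := FΩ) := by
    rw [Divisor.mem_degZero, map_sub, Gen.RRC.degree_tsum h.ffL, Gen.RRC.degree_tsum h.ffL,
      sub_self]
  have h0 := hρ ⟨_, hdeg⟩ rfl
  rw [Inj.RedPic.GoodRed.rho_mk] at h0
  have h1 : Inj.RedPic.redDegZero r h.degL h.degk ⟨_, hdeg⟩ ∈
      (Divisor.principal (K := k2) (F := Ft2)).addSubgroupOf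
        (Divisor.degZero (K := k2) (F := Ft2)) :=
    (QuotientAddGroup.eq_zero_iff _).1 h0
  rw [AddSubgroup.mem_addSubgroupOf, Inj.RedPic.coe_redDegZero] at h1
  have h2 : Gen.LinEq (Gen.tsum (fun i => r (Q i))) (Gen.tsum (fun i => r (P i))) := by
    unfold Gen.LinEq
    rw [← mapDomain_tsum, ← mapDomain_tsum, ← Finsupp.mapDomain_sub]
    exact h1
  have h3 : Gen.tsum (fun i => r (Q i)) = Gen.tsum (fun i => r (P i)) :=
    Gen.RRC.eq_tsum_of_linEq_of_sep hF2 hsep2 hg hPb (Gen.RRC.zero_le_tsum _) h2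
  exact exists_perm_of_sum_single_eq (fun i => r (Q i)) (fun i => r (P i)) h3

end HRed

/-! ### The reduced tuple is generic -/

section GenRed

variable {Ω FΩ k k2 Ft2 : Type*} [Field Ω] [Field FΩ] [Algebra Ω FΩ] [Field k] [Field k2]
  [Algebra k k2] [Field Ft2] [Algebra k2 Ft2]

/-- **The reduced tuple is generic**: from the `x`-centre clause of the reduction theorem
(`EvK A π P x γ → (r P).adicValuation (x2 - γ) < 1`) and the algebraic independence of the
residues of the `x`-values. -/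
theorem isGeneric_red (A : ValuationSubring Ω) (π : A →+* k2) {x : FΩ} {x2 : Ft2}
    {r : Place Ω FΩ → Place k2 Ft2}
    (hx : ∀ (P : Place Ω FΩ) (γ : k2), Fermat.Agent.Lib.Red.PlaceRed.EvK A π P x γ →
      (r P).adicValuation (x2 - algebraMap k2 Ft2 γ) < 1)
    {g : ℕ} {P : Fin g → Place Ω FΩ} {t : Fin g → Ω} (hP : ∀ i, Gen.Val (P i) x (t i))
    (ht : ∀ i, t i ∈ A) {tb : Fin g → k2} (htb : ∀ i, π ⟨t i, ht i⟩ = tb i)
    (hind : AlgebraicIndependent k tb) :
    Gen.IsGeneric k x2 (fun i => r (P i)) tb :=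
  ⟨hind, fun i => hx (P i) (tb i) ⟨⟨t i, ht i⟩, htb i, hP i⟩⟩

end GenRed

end Fermat.Agent.S27P.Inst.HRed

end
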