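/-
helper86 — S27 / (INST-E), the composition: the hypotheses `hdiv` (DIV_Ω) and `hlift` (LIFT_Ω) of
the top seam `Seam.card_torsion_of_seam`, in the shape the seam consumes, from the closed (GEN)
literals `Gen.Lift.div_Omega` / `Gen.Lift.lift_core` and a base-change map of places `bc`.

`β := BcDiv.bcPic0 hb : Pic0 K F →+ Pic0 Ω FΩ`.  A class `β c` is represented by the
base-changed divisor `bc_* D`, which is fixed by `Aut(Ω/K)` as soon as every place `bc v` is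
(`hbc`; `BcGauss.semilinearAut_smul_bcPlace`).

* `hdiv`          : `∀ c, ∃ a, n • a = β c`;
* `hlift_of_key`  : `ρΩ (β c) = 0 → ∃ a, n • a = β c ∧ ρΩ a = 0`, from the key property `hkey`
                    (= the conclusion of `Gen.lift_key`) for a class `A` of admissible
                    automorphisms acting trivially through `ρΩ`;
* `hlift`         : the seam shape `∀ c, ρK c = 0 → …`, given the square `ρΩ ∘ β = βk ∘ ρK`.

Characteristic-free; every type in its own universe.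
-/
import Mathlib
import Fermat.Agent.S27P.Gen.Lift
import Fermat.Agent.S27P.BC.BcDiv

set_option autoImplicit false
set_option linter.unusedSectionVars false

open AlgebraicCurve

noncomputable section

namespace Fermat.Agent.S27P.Inst.Lift

open Fermat.Agent.S27P Fermat.Agent.S27P.Gen Fermat.Agent.S27P.BC.BcDiv

variable {K : Type*} {F : Type*} {Ω : Type*} {FΩ : Type*} [Field K] [Field F] [Field Ω]
  [Field FΩ] [Algebra K F] [Algebra K Ω] [Algebra Ω FΩ] [Algebra F FΩ]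
  {x : FΩ} {rho : (Ω ≃ₐ[K] Ω) →* SemilinearAut Ω FΩ} {bc : Place K F → Place Ω FΩ}

/-- A base-changed divisor is fixed by `Aut(Ω/K)` when the places `bc v` are. -/
theorem rho_smul_bcDegZero (hb : IsBcPlace bc)
    (hbc : ∀ (σ : Ω ≃ₐ[K] Ω) (v : Place K F), rho σ • bc v = bc v)
    (D : Divisor.degZero (K := K) (F := F)) (σ : Ω ≃ₐ[K] Ω) :
    rho σ • (bcDegZero hb D : Divisor Ω FΩ) = bcDegZero hb D := by
  rw [coe_bcDegZero]
  exact smul_bcDiv (rho σ) (hbc σ) D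

/-- **`hdiv` of the top seam (DIV_Ω).** -/
theorem hdiv [IsAlgClosed Ω] [IsAlgClosed K] (hF : Frame x rho)
    (hgen : ∃ t : Fin (genusFF Ω FΩ) → Ω, AlgebraicIndependent K t)
    {n : ℕ} (hn : 0 < n) (htor : {y : Pic0 Ω FΩ | n • y = 0}.Finite)
    (hb : IsBcPlace bc) (hbc : ∀ (σ : Ω ≃ₐ[K] Ω) (v : Place K F), rho σ • bc v = bc v)
    (c : Pic0 K F) : ∃ a : Pic0 Ω FΩ, n • a = bcPic0 hb c := by
  obtain ⟨D, rfl⟩ := Pic0.mk_surjective c
  rw [bcPic0_mk]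
  exact Gen.Lift.div_Omega hF hgen hn htor (bcDegZero hb D) (rho_smul_bcDegZero hb hbc D)

/-- **(LIFT_Ω) from the key property.** `A` is a class of automorphisms acting trivially through
`ρΩ`; `hkey` (the conclusion of `Gen.lift_key`) realises every generic tuple `Q` with
`ρΩ [ΣQ − ΣP] = 0` as `σ P` with `σ` in `A`. -/
theorem hlift_of_key [IsAlgClosed Ω] [IsAlgClosed K] (hF : Frame x rho) {X : Type*}
    [AddCommGroup X] (ρΩ : Pic0 Ω FΩ →+ X) {n : ℕ} (hn : 0 < n)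
    (htor : {y : Pic0 Ω FΩ | n • y = 0}.Finite)
    {P : Fin (genusFF Ω FΩ) → Place Ω FΩ} {t : Fin (genusFF Ω FΩ) → Ω}
    (hP : IsGeneric K x P t)
    (A : (Ω ≃ₐ[K] Ω) → Prop) (hA : ∀ σ, A σ → ∀ a : Pic0 Ω FΩ, ρΩ (rho σ • a) = ρΩ a)
    (hkey : ∀ (Q : Fin (genusFF Ω FΩ) → Place Ω FΩ) (t' : Fin (genusFF Ω FΩ) → Ω),
      IsGeneric K x Q t' →
      (∀ D' : Divisor.degZero (K := Ω) (F := FΩ),
        (D' : Divisor Ω FΩ) = tsum Q - tsum P → ρΩ (Pic0.mk D') = 0) →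
      ∃ σ, A σ ∧ rho σ • tsum P = tsum Q)
    (hb : IsBcPlace bc) (hbc : ∀ (σ : Ω ≃ₐ[K] Ω) (v : Place K F), rho σ • bc v = bc v)
    (c : Pic0 K F) (hc : ρΩ (bcPic0 hb c) = 0) :
    ∃ a : Pic0 Ω FΩ, n • a = bcPic0 hb c ∧ ρΩ a = 0 := by
  obtain ⟨D, rfl⟩ := Pic0.mk_surjective c
  rw [bcPic0_mk] at hc ⊢
  exact Gen.Lift.lift_core hF ρΩ hn htor hP A hA hkey (bcDegZero hb D)
    (rho_smul_bcDegZero hb hbc D) hc

/-- **`hlift` of the top seam (LIFT_Ω)**: the seam shape, given the commutative square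
`ρΩ ∘ β = βk ∘ ρK` of reductions and base changes. -/
theorem hlift [IsAlgClosed Ω] [IsAlgClosed K] (hF : Frame x rho) {X : Type*}
    [AddCommGroup X] (ρΩ : Pic0 Ω FΩ →+ X) {n : ℕ} (hn : 0 < n)
    (htor : {y : Pic0 Ω FΩ | n • y = 0}.Finite)
    {P : Fin (genusFF Ω FΩ) → Place Ω FΩ} {t : Fin (genusFF Ω FΩ) → Ω}
    (hP : IsGeneric K x P t)
    (A : (Ω ≃ₐ[K] Ω) → Prop) (hA : ∀ σ, A σ → ∀ a : Pic0 Ω FΩ, ρΩ (rho σ • a) = ρΩ a)
    (hkey : ∀ (Q : Fin (genusFF Ω FΩ) → Place Ω FΩ) (t' : Fin (genusFF Ω FΩ) → Ω),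
      IsGeneric K x Q t' →
      (∀ D' : Divisor.degZero (K := Ω) (F := FΩ),
        (D' : Divisor Ω FΩ) = tsum Q - tsum P → ρΩ (Pic0.mk D') = 0) →
      ∃ σ, A σ ∧ rho σ • tsum P = tsum Q)
    (hb : IsBcPlace bc) (hbc : ∀ (σ : Ω ≃ₐ[K] Ω) (v : Place K F), rho σ • bc v = bc v)
    {XK : Type*} [AddCommGroup XK] (ρK : Pic0 K F →+ XK) (βk : XK →+ X)
    (hsq : ∀ c : Pic0 K F, ρΩ (bcPic0 hb c) = βk (ρK c)) :
    ∀ c : Pic0 K F, ρK c = 0 → ∃ a : Pic0 Ω FΩ, n • a = bcPic0 hb c ∧ ρΩ a = 0 :=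
  fun c hc => hlift_of_key hF ρΩ hn htor hP A hA hkey hb hbc c (by rw [hsq, hc, map_zero])

end Fermat.Agent.S27P.Inst.Lift
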