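/-
helper84 — S27 / (INST-E): the hypothesis discharges of `Gen.lift_core` / `Gen.lift_key`, in
abstract form over two charts (`Inj.Centre.IsChart`) covering the curve and good reduction data
(`Inj.RedPic.GoodRed`).

* (E1) `smul_eq_of_cover`, `rho_smul_eq` : an automorphism stabilising the valuation ring, with
  trivial residue action and fixing the chart functions, fixes the centres, hence commutes with
  the reduction on `Pic0` (hypothesis `hA` of `lift_core`);
* (E1') `hA_adm` : the same in the frame vocabulary, literally `hA` of `lift_core` at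
  `A := Gen.Adm V`;
* (E2) `hcong` : places with the same centre have congruent values (hypothesis `hcong` of
  `lift_key`);
* (E3) `htor` : finiteness of torsion from the injectivity of two reductions and the anchor
  (hypothesis `htor` of `lift_core` / `div_Omega`), with the adapters `rho_inj_nsmul`,
  `rho_inj_pow` from `GoodRed`;
* (E4) `hJI` : residual independence of the products of values at a generic tuple from the
  linear independence of the reduced products (hypothesis `hJI` of `lift_key`).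
-/
import Mathlib
import Fermat.Agent.S27P.Gen.Defs
import Fermat.Agent.S27P.Inj.RedPic
import Fermat.Agent.S27P.Inj.Centre
import Fermat.Agent.S27P.Val.GaussFam

set_option autoImplicit false

open AlgebraicCurve

noncomputable section

namespace Fermat.Agent.S27P.Inst.LiftHyp

open Fermat.Agent.S27P Fermat.Agent.S27P.Inj.Centre Fermat.Agent.S27P.Inj.RedPic

/-! ### (E1) automorphisms with trivial residue action fix the centres -/

section Adm

variable {L F k Ft : Type*} [Field L] [Field F] [Algebra L F] [Field k] [Field Ft] [Algebra k Ft]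
variable {A : ValuationSubring L} {π : A →+* k} {O : ValuationSubring F} {red : O →+* Ft}
  {r : Place L F → Place k Ft} {S S' : Set O} {T T' : Set (Place L F)}
  {Tt Tt' : Set (Place k Ft)}

/-- The set of places at which `f` takes a value in `A` is stable under a semilinear automorphism
fixing `f` and stabilising `A`. -/
theorem smul_mem_of_valAt (g : SemilinearAut L F)
    (hA : ∀ a : A, SemilinearAut.baseAut g (a : L) ∈ A) {f : F} (hf : g • f = f)
    {P : Place L F} (hP : ∃ c : A, ValAt P f (c : L)) : ∃ c : A, ValAt (g • P) f (c : L) := by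
  obtain ⟨c, hc⟩ := hP
  refine ⟨⟨_, hA c⟩, ?_⟩
  have := hc.smul g
  rwa [hf] at this

/-- Equivariance on one chart, trivial action on the special fibre. -/
theorem smul_eq_self (h : IsChart A π O red r S T Tt) (g : SemilinearAut L F)
    (hA : ∀ a : A, SemilinearAut.baseAut g (a : L) ∈ A)
    (hπ : ∀ a : A, π ⟨SemilinearAut.baseAut g (a : L), hA a⟩ = π a)
    (hS : ∀ f ∈ S, g • ((f : O) : F) = ((f : O) : F)) (hT : ∀ P ∈ T, g • P ∈ T) :
    ∀ P ∈ T, r (g • P) = r P := by
  intro P hP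
  have h1 := h.smul_eq g 1 hA (fun a => by rw [hπ a, SemilinearAut.baseAut_one]; rfl)
    (fun f hf => ⟨f, hf, (hS f hf).symm, (one_smul _ _).symm⟩) hT
    (fun Q hQ => by rwa [one_smul]) P hP
  rwa [one_smul] at h1

/-- **(E1)** Two charts covering all places: an automorphism stabilising `A` with trivial residue
action and fixing the chart functions fixes all centres. -/
theorem smul_eq_of_cover (h₁ : IsChart A π O red r S T Tt) (h₂ : IsChart A π O red r S' T' Tt')
    (hcov : ∀ P : Place L F, P ∈ T ∨ P ∈ T') (g : SemilinearAut L F)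
    (hA : ∀ a : A, SemilinearAut.baseAut g (a : L) ∈ A)
    (hπ : ∀ a : A, π ⟨SemilinearAut.baseAut g (a : L), hA a⟩ = π a)
    (hS : ∀ f ∈ S, g • ((f : O) : F) = ((f : O) : F))
    (hS' : ∀ f ∈ S', g • ((f : O) : F) = ((f : O) : F))
    (hT : ∀ P ∈ T, g • P ∈ T) (hT' : ∀ P ∈ T', g • P ∈ T') (P : Place L F) :
    r (g • P) = r P := by
  rcases hcov P with hP | hP
  · exact smul_eq_self h₁ g hA hπ hS hT P hP
  · exact smul_eq_self h₂ g hA hπ hS' hT' P hP

/-- **(E1), `Pic0` form** (hypothesis `hA` of `Gen.lift_core`): an automorphism fixing all centres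
commutes with the reduction on `Pic0`. -/
theorem rho_smul_eq {x : Oˣ} (h : GoodRed O red r x) (g : SemilinearAut L F)
    (hr : ∀ P : Place L F, r (g • P) = r P) (a : Pic0 L F) : h.rho (g • a) = h.rho a := by
  have h1 := h.rho_smul g 1 (fun P => by rw [hr P, one_smul]) a
  rwa [one_smul] at h1

end Adm

/-! ### (E1'), frame form: the hypothesis `hA` of `Gen.lift_core` at `A := Gen.Adm V` -/

section AdmFrame

variable {K Ω FΩ k2 Ft2 : Type*} [Field K] [Field Ω] [Algebra K Ω] [Field FΩ] [Algebra Ω FΩ]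
  [Field k2] [Field Ft2] [Algebra k2 Ft2]
variable {V : ValuationSubring Ω} {πV : V →+* k2} {O : ValuationSubring FΩ} {red : O →+* Ft2}
  {r : Place Ω FΩ → Place k2 Ft2} {S S' : Set O} {T T' : Set (Place Ω FΩ)}
  {Tt Tt' : Set (Place k2 Ft2)}

/-- The base automorphism of `rho σ` is `σ`. -/
theorem baseAut_rho {x : FΩ} {rho : (Ω ≃ₐ[K] Ω) →* SemilinearAut Ω FΩ} (hF : Gen.Frame x rho)
    (σ : Ω ≃ₐ[K] Ω) (c : Ω) : SemilinearAut.baseAut (rho σ) c = σ c := by
  have h1 := hF.smul_algebraMap σ c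
  rw [SemilinearAut.smul_algebraMap] at h1
  exact (algebraMap Ω FΩ).injective h1

/-- **(E1')** = the hypothesis `hA` of `Gen.lift_core` at `A := Gen.Adm V`
(`Adm V σ := (∀ a, a ∈ V ↔ σ a ∈ V) ∧ ∀ a ∈ V, σ a - a ∈ V.nonunits`): an automorphism of `Ω/K`
stabilising `V` with trivial residue action commutes with the reduction on `Pic0`.  The two charts
are `T = {P | xf has a value in V at P}`, `T' = {P | xf' has a value in V at P}`, and all chart
functions are rational over `K` (fixed by `rho`). -/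
theorem hA_adm {x : FΩ} {rho : (Ω ≃ₐ[K] Ω) →* SemilinearAut Ω FΩ} (hF : Gen.Frame x rho)
    {xO : Oˣ} (h : GoodRed O red r xO)
    (h₁ : IsChart V πV O red r S T Tt) (h₂ : IsChart V πV O red r S' T' Tt')
    (hcov : ∀ P : Place Ω FΩ, P ∈ T ∨ P ∈ T')
    (hπV : ∀ w : V, (w : Ω) ∈ V.nonunits → πV w = 0)
    (hS : ∀ f ∈ S, ∀ σ : Ω ≃ₐ[K] Ω, rho σ • ((f : O) : FΩ) = ((f : O) : FΩ))
    (hS' : ∀ f ∈ S', ∀ σ : Ω ≃ₐ[K] Ω, rho σ • ((f : O) : FΩ) = ((f : O) : FΩ))
    {xf xf' : FΩ} (hxf : ∀ σ : Ω ≃ₐ[K] Ω, rho σ • xf = xf)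
    (hxf' : ∀ σ : Ω ≃ₐ[K] Ω, rho σ • xf' = xf')
    (hT : ∀ P : Place Ω FΩ, P ∈ T ↔ ∃ c : V, ValAt P xf (c : Ω))
    (hT' : ∀ P : Place Ω FΩ, P ∈ T' ↔ ∃ c : V, ValAt P xf' (c : Ω))
    (σ : Ω ≃ₐ[K] Ω)
    (hσ : (∀ a : Ω, a ∈ V ↔ σ a ∈ V) ∧ ∀ a : Ω, a ∈ V → σ a - a ∈ V.nonunits)
    (a : Pic0 Ω FΩ) : h.rho (rho σ • a) = h.rho a := by
  have hA : ∀ a : V, SemilinearAut.baseAut (rho σ) (a : Ω) ∈ V := fun a => by
    rw [baseAut_rho hF]
    exact (hσ.1 _).1 a.2
  have hπ : ∀ a : V, πV ⟨SemilinearAut.baseAut (rho σ) (a : Ω), hA a⟩ = πV a := fun a => by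
    have h1 : πV (⟨SemilinearAut.baseAut (rho σ) (a : Ω), hA a⟩ - a) = 0 := by
      apply hπV
      show SemilinearAut.baseAut (rho σ) (a : Ω) - (a : Ω) ∈ V.nonunits
      rw [baseAut_rho hF]
      exact hσ.2 _ a.2
    rw [map_sub, sub_eq_zero] at h1
    exact h1
  refine rho_smul_eq h (rho σ) (smul_eq_of_cover h₁ h₂ hcov (rho σ) hA hπ
    (fun f hf => hS f hf σ) (fun f hf => hS' f hf σ) (fun P hP => ?_) (fun P hP => ?_)) a
  · exact (hT _).2 (smul_mem_of_valAt (rho σ) hA (hxf σ) ((hT P).1 hP))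
  · exact (hT' _).2 (smul_mem_of_valAt (rho σ) hA (hxf' σ) ((hT' P).1 hP))

end AdmFrame

/-! ### (E2) places with the same centre have congruent values -/

section Cong

variable {L F k Ft : Type*} [Field L] [Field F] [Algebra L F] [Field k] [Field Ft] [Algebra k Ft]
variable {A : ValuationSubring L} {π : A →+* k} {O : ValuationSubring F} {red : O →+* Ft}
  {r : Place L F → Place k Ft} {S S' : Set O} {T T' : Set (Place L F)}
  {Tt Tt' : Set (Place k Ft)}

/-- A place whose centre lies on the first chart lies on the first chart (the charts cover, the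
centre sets are disjoint). -/
theorem mem_of_centre_mem (h₂ : IsChart A π O red r S' T' Tt')
    (hcov : ∀ P : Place L F, P ∈ T ∨ P ∈ T') (hdisj : ∀ Q : Place k Ft, Q ∈ Tt → Q ∉ Tt')
    {P : Place L F} (hP : r P ∈ Tt) : P ∈ T := by
  rcases hcov P with h | h
  · exact h
  · exact absurd (h₂.maps P h) (hdisj _ hP)

/-- **(E2)** Two places with the same centre on the first chart have congruent values on the
chart functions. -/
theorem sub_mem_nonunits (h₁ : IsChart A π O red r S T Tt) (h₂ : IsChart A π O red r S' T' Tt')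
    (hcov : ∀ P : Place L F, P ∈ T ∨ P ∈ T') (hdisj : ∀ Q : Place k Ft, Q ∈ Tt → Q ∉ Tt')
    (hker : ∀ a : A, π a = 0 → a ∈ IsLocalRing.maximalIdeal A)
    {P P' : Place L F} (hP : P ∈ T) (hr : r P' = r P) {f : O} (hf : f ∈ S) {c c' : L}
    (hc : ValAt P ((f : O) : F) c) (hc' : ValAt P' ((f : O) : F) c') : c' - c ∈ A.nonunits := by
  have hP' : P' ∈ T := mem_of_centre_mem h₂ hcov hdisj (by rw [hr]; exact h₁.maps P hP)
  obtain ⟨d, hd, hd0⟩ := h₁.sub_mem_ker hP' hP hr hf hc' hc
  rw [← hd]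
  exact ValuationSubring.coe_mem_nonunits_iff.2 (hker d hd0)

/-- **(E2)** = the hypothesis `hcong` of `Gen.lift_key` (its unused premises `Val Q' x t'`,
`Transcendental K t'` dropped): `P i` a tuple of places of the first chart, `b j` chart
functions, `c i j` the value of `b j` at `P i`. -/
theorem hcong (h₁ : IsChart A π O red r S T Tt) (h₂ : IsChart A π O red r S' T' Tt')
    (hcov : ∀ P : Place L F, P ∈ T ∨ P ∈ T') (hdisj : ∀ Q : Place k Ft, Q ∈ Tt → Q ∉ Tt')
    (hker : ∀ a : A, π a = 0 → a ∈ IsLocalRing.maximalIdeal A)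
    {g : ℕ} {P : Fin g → Place L F} (hPT : ∀ i, P i ∈ T) {J : Type*} {b : J → F}
    (hb : ∀ j, ∃ f ∈ S, ((f : O) : F) = b j) {c : Fin g → J → L}
    (hc : ∀ i j, Gen.Val (P i) (b j) (c i j)) :
    ∀ (i : Fin g) (Q' : Place L F), r Q' = r (P i) → ∀ (j : J) (c' : L),
      Gen.Val Q' (b j) c' → c' - c i j ∈ A.nonunits := by
  intro i Q' hr j c' hc'
  obtain ⟨f, hf, hfb⟩ := hb j
  refine sub_mem_nonunits h₁ h₂ hcov hdisj hker (hPT i) hr hf (c := c i j) (c' := c') ?_ ?_
  · rw [hfb]; exact hc i j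
  · rw [hfb]; exact hc'

end Cong

/-! ### (E3) finiteness of torsion -/

section Tor

/-- **(E3)** = the hypothesis `htor` of `Gen.lift_core` / `Gen.div_Omega`, pure group theory:
two reductions `ρ0 : X → Y`, `ρK : Y → Z`, injective on `ℓ`-torsion resp. `ℓ`-primary torsion,
and finiteness of the `ℓ`-torsion of `Z` (the anchor). -/
theorem htor {X Y Z : Type*} [AddCommGroup X] [AddCommGroup Y] [AddCommGroup Z]
    (ρ0 : X →+ Y) (ρK : Y →+ Z) (ℓ : ℕ)
    (hρ0 : ∀ a : X, ℓ • a = 0 → ρ0 a = 0 → a = 0)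
    (hρK : ∀ c : Y, (∃ n : ℕ, ℓ ^ n • c = 0) → ρK c = 0 → c = 0)
    (hfin : Finite {c : Z // ℓ • c = 0}) : {y : X | ℓ • y = 0}.Finite := by
  let φ : {y : X | ℓ • y = 0} → {c : Z // ℓ • c = 0} := fun y =>
    ⟨ρK (ρ0 (y : X)), by rw [← map_nsmul, ← map_nsmul, y.2, map_zero, map_zero]⟩
  have hφ : Function.Injective φ := by
    intro y y' hyy'
    have h1 : ρK (ρ0 ((y : X) - (y' : X))) = 0 := by
      have := congrArg Subtype.val hyy'
      rw [map_sub, map_sub, sub_eq_zero]
      exact this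
    have h2 : ℓ • ((y : X) - (y' : X)) = 0 := by
      rw [smul_sub, y.2, y'.2, sub_zero]
    have h3 : ρ0 ((y : X) - (y' : X)) = 0 :=
      hρK _ ⟨1, by rw [pow_one, ← map_nsmul, h2, map_zero]⟩ h1
    exact Subtype.ext (sub_eq_zero.1 (hρ0 _ h2 h3))
  exact Set.finite_coe_iff.1 (Finite.of_injective φ hφ)

variable {L F k Ft : Type*} [Field L] [Field F] [Algebra L F] [Field k] [Field Ft] [Algebra k Ft]
variable {O : ValuationSubring F} {red : O →+* Ft} {r : Place L F → Place k Ft} {x : Oˣ}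

/-- `GoodRed.eq_zero_of_rho_eq_zero` with a natural-number scalar. -/
theorem rho_inj_nsmul [Infinite k] (h : GoodRed O red r x) {m : ℕ} (hm : (m : Ft) ≠ 0)
    (c : Pic0 L F) (hmc : m • c = 0) (hc : h.rho c = 0) : c = 0 :=
  h.eq_zero_of_rho_eq_zero hm c (by rw [natCast_zsmul]; exact hmc) hc

/-- The reduction is injective on the `ℓ`-primary torsion (`hρK_inj` of the top seam). -/
theorem rho_inj_pow [Infinite k] (h : GoodRed O red r x) {ℓ : ℕ} (hℓ : (ℓ : Ft) ≠ 0)
    (c : Pic0 L F) (hc : ∃ n : ℕ, ℓ ^ n • c = 0) (h0 : h.rho c = 0) : c = 0 := by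
  obtain ⟨n, hn⟩ := hc
  refine rho_inj_nsmul h (m := ℓ ^ n) ?_ c hn h0
  rw [Nat.cast_pow]
  exact pow_ne_zero _ hℓ

end Tor

/-! ### (E4) residual independence of the products of values -/

section JI

variable {K Ω FΩ k k2 Ft2 : Type*} [Field K] [Field Ω] [Algebra K Ω] [Field FΩ] [Algebra Ω FΩ]
  [Field k] [Field k2] [Algebra k k2] [Field Ft2] [Algebra k2 Ft2]
variable {V : ValuationSubring Ω} {πV : V →+* k2} {O : ValuationSubring FΩ} {red : O →+* Ft2}
  {r : Place Ω FΩ → Place k2 Ft2} {S : Set O} {T : Set (Place Ω FΩ)} {Tt : Set (Place k2 Ft2)}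

/-- **(E4)** = the hypothesis `hJI` of `Gen.lift_key`.  `P i` places of the chart, `f j` chart
functions, `c i j` the value of `f j` at `P i`; `π₀` the residue map of the trace of `V` on `K`.
If the products of the values of the reduced functions `red (f j)` at the reduced places
`r (P i)` are linearly independent over `k` (= (G10) in the reduced frame), the products of the
`c i j` are residually independent. -/
theorem hJI (h : IsChart V πV O red r S T Tt)
    (hπV : ∀ w : V, (w : Ω) ∈ V.nonunits → πV w = 0)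
    (π₀ : V.comap (algebraMap K Ω) →+* k)
    (hπ₀ : ∀ a : V.comap (algebraMap K Ω), π₀ a = 0 → algebraMap K Ω (a : K) ∈ V.nonunits)
    (hcomp : ∀ a : V.comap (algebraMap K Ω),
      πV ⟨algebraMap K Ω (a : K), a.2⟩ = algebraMap k k2 (π₀ a))
    {g : ℕ} {P : Fin g → Place Ω FΩ} (hPT : ∀ i, P i ∈ T) {J : Type*} (f : J → O)
    (hf : ∀ j, f j ∈ S) {c : Fin g → J → Ω}
    (hc : ∀ i j, Gen.Val (P i) ((f j : O) : FΩ) (c i j))
    (hG10 : ∀ cb : Fin g → J → k2, (∀ i j, Gen.Val (r (P i)) (red (f j)) (cb i j)) →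
      LinearIndependent k (fun φ : Fin g → J => ∏ i, cb i (φ i))) :
    (∀ i j, c i j ∈ V) ∧
      Val.GaussFam.ResIndepFam (K := K) V (fun φ : Fin g → J => ∏ i, c i (φ i)) := by
  -- the values lie in `V` and reduce to the values of the reductions
  have hval : ∀ i j, ∃ a : V, (a : Ω) = c i j ∧ ValAt (r (P i)) (red (f j)) (πV a) :=
    fun i j => h.exists_eq_of_valAt (hPT i) (hf j) (hc i j)
  have hcV : ∀ i j, c i j ∈ V := fun i j => by
    obtain ⟨a, ha, -⟩ := hval i j
    rw [← ha]; exact a.2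
  refine ⟨hcV, ?_⟩
  have hcb : ∀ i j, Gen.Val (r (P i)) (red (f j)) (πV ⟨c i j, hcV i j⟩) := fun i j => by
    obtain ⟨a, ha, hra⟩ := hval i j
    have : a = ⟨c i j, hcV i j⟩ := Subtype.ext ha
    rw [← this]
    exact hra
  have hprod : ∀ φ : Fin g → J, (∏ i, c i (φ i)) ∈ V := fun φ =>
    prod_mem fun i _ => hcV i (φ i)
  refine Val.GaussFam.resIndepFam_of_linearIndependent V πV hπV π₀ hπ₀ hcomp _ hprod ?_
  have hred : ∀ φ : Fin g → J, πV ⟨∏ i, c i (φ i), hprod φ⟩
      = ∏ i, πV ⟨c i (φ i), hcV i (φ i)⟩ := fun φ => by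
    rw [← map_prod]
    congr 1
    apply Subtype.ext
    simp
  have hfun : (fun φ : Fin g → J => πV ⟨∏ i, c i (φ i), hprod φ⟩)
      = fun φ : Fin g → J => ∏ i, πV ⟨c i (φ i), hcV i (φ i)⟩ := funext hred
  rw [hfun]
  exact hG10 (fun i j => πV ⟨c i j, hcV i j⟩) hcb

end JI

end Fermat.Agent.S27P.Inst.LiftHyp

end
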