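/-
helper86 — S27 / (INST-E), the assembly: `hlift` (LIFT_Ω) of the top seam from the reduction data
of the `Ω`-instance, with every hypothesis of `Gen.lift_key` / `Gen.lift_core` discharged.

Data (all produced by other rows; nothing here is typed twice):
* the frame `hF : Frame x rho` of `(K ⊂ Ω, FΩ)` (`BC/FrameOf`) and the reduced frame
  `hF2 : Frame x2 rho2` of `(k ⊂ k2, Ft2)`;
* good reduction `h : GoodRed O red r xO` of `FΩ/Ω` along a valuation ring `V ⊂ Ω` with residue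
  map `πV : V →+* k2`, and the finite chart `h₁ : IsChart V πV O red r S T Tt` (`Inst/OfIsRed`)
  with `hmem : r P' ∈ Tt → P' ∈ T` ("a place whose centre is finite is finite");
* a generic tuple `P` on the chart whose reduction `r ∘ P` is generic in the reduced frame
  (`HRed.isGeneric_red`);
* chart functions `f j ∈ S`, rational over `K` (`hbrat`), generating the rational functions
  (`hbfrac`), with values `c i j` at `P i` forming `K`-algebras (`hc1`, `hcmul`, `hct`), whose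
  reductions are rational (`hbrat2`) and linearly independent over `k` (`hbind2`).

Results:
* `hcong`  : congruence of values at places with the same centre (no disjointness of the centre
  sets needed — only `hmem`);
* `mem_of_centre_mem_of_inv` : a producer of `hmem` for the two standard charts `x`, `1/x`;
* `hkey`   : the conclusion of `LiftKey91.lift_key` for every `Q` (`hred` := `HRed.hred`,
  `hJI` := `LiftHyp.hJI` + (G10) `JI.linearIndependent_prod_val` in the reduced frame);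
* `hlift`  : the hypothesis `hlift` of `Seam.card_torsion_of_seam` (`hA` := `LiftHyp.hA_adm`).
-/
import Mathlib
import Fermat.Agent.S27P.Inst.Lift
import Fermat.Agent.S27P.Inst.LiftHyp
import Fermat.Agent.S27P.Inst.HRed
import Fermat.Agent.S27P.Gen.LiftKey91
import Fermat.Agent.S27P.Gen.JI
import Fermat.Agent.S27P.Gen.SepP

set_option autoImplicit false
set_option linter.unusedSectionVars false

open AlgebraicCurve

noncomputable section

namespace Fermat.Agent.S27P.Inst.LiftAsm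

open Fermat.Agent.S27P Fermat.Agent.S27P.Gen Fermat.Agent.S27P.Inj.Centre
  Fermat.Agent.S27P.Inj.RedPic Fermat.Agent.S27P.BC.BcDiv

/-! ### Congruence of values at places with the same centre -/

section Cong

variable {L F k Ft : Type*} [Field L] [Field F] [Algebra L F] [Field k] [Field Ft] [Algebra k Ft]
variable {A : ValuationSubring L} {π : A →+* k} {O : ValuationSubring F} {red : O →+* Ft}
  {r : Place L F → Place k Ft} {S S' : Set O} {T T' : Set (Place L F)}
  {Tt Tt' : Set (Place k Ft)}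

/-- **(E2')** = the hypothesis `hcong` of `Gen.lift_key`, from ONE chart and the property
`hmem` that a place whose centre lies on the chart lies on the chart. -/
theorem hcong (h₁ : IsChart A π O red r S T Tt) (hmem : ∀ P' : Place L F, r P' ∈ Tt → P' ∈ T)
    (hker : ∀ a : A, π a = 0 → a ∈ IsLocalRing.maximalIdeal A)
    {g : ℕ} {P : Fin g → Place L F} (hPT : ∀ i, P i ∈ T) {J : Type*} (f : J → O)
    (hf : ∀ j, f j ∈ S) {c : Fin g → J → L}
    (hc : ∀ i j, Gen.Val (P i) ((f j : O) : F) (c i j)) :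
    ∀ (i : Fin g) (Q' : Place L F), r Q' = r (P i) → ∀ (j : J) (c' : L),
      Gen.Val Q' ((f j : O) : F) c' → c' - c i j ∈ A.nonunits := by
  intro i Q' hr j c' hc'
  have hQ' : Q' ∈ T := hmem Q' (by rw [hr]; exact h₁.maps (P i) (hPT i))
  obtain ⟨d, hd, hd0⟩ := h₁.sub_mem_ker hQ' (hPT i) hr (hf j) (c := c') (c' := c i j) hc' (hc i j)
  rw [← hd]
  exact ValuationSubring.coe_mem_nonunits_iff.2 (hker d hd0)

/-- **A producer of `hmem`** for the two standard charts.  `u`, `u'` are functions of `O` with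
`u * u' = 1` (the coordinate `x` and `1/x`); `T` / `T'` are the places at which `u` / `u'` takes
a value in `A`; `Tt` is the set of places of the special fibre at which `red u` is regular; the
second chart evaluates `u'`.  Then a place whose centre lies in `Tt` lies in `T`. -/
theorem mem_of_centre_mem_of_inv (h₂ : IsChart A π O red r S' T' Tt')
    (hcov : ∀ P : Place L F, P ∈ T ∨ P ∈ T')
    (hπ : ∀ a : A, (a : L) ∈ A.nonunits → π a = 0)
    {u u' : O} (huu' : u * u' = 1) (hu' : u' ∈ S')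
    (hT : ∀ P : Place L F, (∃ c : A, ValAt P ((u : O) : F) (c : L)) → P ∈ T)
    (hTt : ∀ Q : Place k Ft, Q ∈ Tt → 0 ≤ Q.ord (red u))
    {P : Place L F} (hP : r P ∈ Tt) : P ∈ T := by
  rcases hcov P with h | h
  · exact h
  · -- `u'` takes a value `c' ∈ A` at `P`, and `red u'` the value `π c'` at `r P`
    obtain ⟨c', hc', hrc'⟩ := h₂.ev P h u' hu'
    have hred1 : red u * red u' = 1 := by rw [← map_mul, huu', map_one]
    have hru0 : red u ≠ 0 := left_ne_zero_of_mul_eq_one hred1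
    have hru'0 : red u' ≠ 0 := right_ne_zero_of_mul_eq_one hred1
    have hF1 : ((u : O) : F) * ((u' : O) : F) = 1 := by
      have := congrArg (fun y : O => (y : F)) huu'
      simpa using this
    -- the value `π c'` is not zero: otherwise `red u'` vanishes at `r P`, and `red u` has a pole
    have hπc' : π c' ≠ 0 := by
      intro h0
      rw [h0] at hrc'
      have hpos : 0 < (r P).ord (red u') := by
        have h1 : ValAt (r P) (red u') (0 : k) := hrc'
        unfold ValAt at h1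
        rw [map_zero, sub_zero] at h1
        exact (Fermat.Agent.Lib.Red.PlaceRed.adicValuation_lt_one_iff (r P) hru'0).1 h1
      have hsum : (r P).ord (red u) + (r P).ord (red u') = 0 := by
        rw [← (r P).ord_mul hru0 hru'0, hred1, Place.ord_one]
      have := hTt (r P) hP
      omega
    -- hence `c'` is a unit of `A`
    have hunit : IsUnit c' := by
      by_contra hnu
      exact hπc' (hπ c' (ValuationSubring.coe_mem_nonunits_iff.2
        ((IsLocalRing.mem_maximalIdeal c').2 hnu)))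
    obtain ⟨w, hw⟩ := hunit
    have hc'0 : (c' : L) ≠ 0 := by
      intro h0
      have : (c' : A) = 0 := Subtype.ext h0
      rw [← hw] at this
      exact w.ne_zero this
    -- `u = 1/u'` takes the value `1/c'` at `P`
    refine hT P ⟨((w⁻¹ : Aˣ) : A), ?_⟩
    have hwc : (((w⁻¹ : Aˣ) : A) : L) * (c' : L) = 1 := by
      have := congrArg (fun y : A => (y : L)) (w.inv_mul)
      rw [hw] at this
      simpa using this
    unfold ValAt at hc' ⊢
    have hu'reg : P.adicValuation ((u' : O) : F) ≤ 1 := ValAt.le_one hc'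
    have hu'val : P.adicValuation ((u' : O) : F) = 1 := by
      -- `u'` has the nonzero value `c'` at `P`
      have e : ((u' : O) : F) = (((u' : O) : F) - algebraMap L F (c' : L)) + algebraMap L F (c' : L) := by
        ring
      have h1 : P.adicValuation (algebraMap L F (c' : L)) = 1 :=
        Fermat.Agent.Lib.Red.PlaceRed.adicValuation_algebraMap_eq_one P hc'0
      rw [e, P.adicValuation.map_add_eq_of_lt_right (by rw [h1]; exact hc'), h1]
    have hu1 : P.adicValuation ((u : O) : F) = 1 := by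
      have := congrArg P.adicValuation hF1
      rw [map_mul, hu'val, mul_one, map_one] at this
      exact this
    have e2 : ((u : O) : F) - algebraMap L F ((((w⁻¹ : Aˣ) : A)) : L)
        = -(((u : O) : F) * algebraMap L F ((((w⁻¹ : Aˣ) : A)) : L)
            * (((u' : O) : F) - algebraMap L F (c' : L))) := by
      have hm : algebraMap L F ((((w⁻¹ : Aˣ) : A)) : L) * algebraMap L F (c' : L) = 1 := by
        rw [← map_mul, hwc, map_one]
      linear_combination (algebraMap L F ((((w⁻¹ : Aˣ) : A)) : L)) * hF1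
        - ((u : O) : F) * hm
    rw [e2, Valuation.map_neg, map_mul, map_mul, hu1, one_mul]
    exact Right.mul_lt_one_of_le_of_lt (P.adicValuation_algebraMap_le_one _) hc'

end Cong

/-! ### The key property and `hlift` -/

section Asm

variable {K : Type*} {F : Type*} {Ω : Type*} {FΩ : Type*} [Field K] [Field F] [Field Ω]
  [Field FΩ] [Algebra K F] [Algebra K Ω] [Algebra Ω FΩ] [Algebra F FΩ]
  {x : FΩ} {rho : (Ω ≃ₐ[K] Ω) →* SemilinearAut Ω FΩ}
variable {k : Type*} {k2 : Type*} {Ft2 : Type*} [Field k] [Field k2] [Algebra k k2] [Field Ft2]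
  [Algebra k2 Ft2] {x2 : Ft2} {rho2 : (k2 ≃ₐ[k] k2) →* SemilinearAut k2 Ft2}
variable {V : ValuationSubring Ω} {πV : V →+* k2} {O : ValuationSubring FΩ} {red : O →+* Ft2}
  {r : Place Ω FΩ → Place k2 Ft2} {xO : Oˣ} {S S' : Set O} {T T' : Set (Place Ω FΩ)}
  {Tt Tt' : Set (Place k2 Ft2)}

/-- **The key property** (= the conclusion of `LiftKey91.lift_key` for every generic tuple `Q`
with `ρΩ [ΣQ − ΣP] = 0`), with `hred`, `hJI`, `hcV`, `hcong` discharged. -/
theorem hkey [IsAlgClosed Ω] [IsAlgClosed K] [CharZero K] [IsAlgClosed k2] [IsAlgClosed k]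
    (hF : Frame x rho) (h : GoodRed O red r xO) (h₁ : IsChart V πV O red r S T Tt)
    (hmem : ∀ P' : Place Ω FΩ, r P' ∈ Tt → P' ∈ T)
    (hπV : ∀ w : V, (w : Ω) ∈ V.nonunits → πV w = 0)
    (hker : ∀ a : V, πV a = 0 → a ∈ IsLocalRing.maximalIdeal V)
    (π₀ : V.comap (algebraMap K Ω) →+* k)
    (hπ₀ : ∀ a : V.comap (algebraMap K Ω), π₀ a = 0 → algebraMap K Ω (a : K) ∈ V.nonunits)
    (hcomp : ∀ a : V.comap (algebraMap K Ω),
      πV ⟨algebraMap K Ω (a : K), a.2⟩ = algebraMap k k2 (π₀ a))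
    (hF2 : Frame x2 rho2) {g : ℕ} (hg : g ≤ genusFF k2 Ft2) {P : Fin g → Place Ω FΩ}
    {t : Fin g → Ω} (hP : IsGeneric K x P t)
    (halg : ∀ y : Ω, IsAlgebraic (IntermediateField.adjoin K (Set.range t)) y)
    (hPT : ∀ i, P i ∈ T) {tb : Fin g → k2} (hPb : IsGeneric k x2 (fun i => r (P i)) tb)
    {J : Type*} (f : J → O) (hf : ∀ j, f j ∈ S)
    (hbrat : ∀ j, IsRat rho ⊥ ((f j : O) : FΩ))
    (hbfrac : ∀ z : FΩ, IsRat rho ⊥ z → ∃ lam mu : J →₀ K,
      (mu.sum fun j a => algebraMap Ω FΩ (algebraMap K Ω a) * ((f j : O) : FΩ)) ≠ 0 ∧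
      z * (mu.sum fun j a => algebraMap Ω FΩ (algebraMap K Ω a) * ((f j : O) : FΩ)) =
        lam.sum fun j a => algebraMap Ω FΩ (algebraMap K Ω a) * ((f j : O) : FΩ))
    (c : Fin g → J → Ω) (hc : ∀ i j, Val (P i) ((f j : O) : FΩ) (c i j))
    (hc1 : ∀ i, (1 : Ω) ∈ Submodule.span K (Set.range (c i)))
    (hcmul : ∀ i j j', c i j * c i j' ∈ Submodule.span K (Set.range (c i)))
    (hct : ∀ i, t i ∈ Submodule.span K (Set.range (c i)))
    (hbrat2 : ∀ j, IsRat rho2 ⊥ (red (f j)))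
    (hbind2 : ∀ lam : J →₀ k,
      (lam.sum fun j a => algebraMap k2 Ft2 (algebraMap k k2 a) * red (f j)) = 0 → lam = 0)
    (Q : Fin g → Place Ω FΩ) (t' : Fin g → Ω) (hQ : IsGeneric K x Q t')
    (hρ : ∀ D' : Divisor.degZero (K := Ω) (F := FΩ),
      (D' : Divisor Ω FΩ) = tsum Q - tsum P → h.rho (Pic0.mk D') = 0) :
    ∃ σ : Ω ≃ₐ[K] Ω, ((∀ a : Ω, a ∈ V ↔ σ a ∈ V) ∧ ∀ a : Ω, a ∈ V → σ a - a ∈ V.nonunits) ∧
      rho σ • tsum P = tsum Q := by
  obtain ⟨hcV, hJI⟩ := LiftHyp.hJI (K := K) h₁ hπV π₀ hπ₀ hcomp hPT f hf hc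
    (fun cb hcb => JI.linearIndependent_prod_val hF2 hPb (fun j => red (f j)) hbrat2 hbind2 cb hcb)
  exact LiftKey91.lift_key hF h.rho hP halg V r
    (fun Q t' _ hρ => HRed.hred hF2 (SepP.sepHyp hF2) h hg hPb Q hρ)
    (fun j => ((f j : O) : FΩ)) hbrat hbfrac c hc hcV hc1 hcmul hct hJI
    (fun i Q' _ _ _ hr j c' hc' => hcong h₁ hmem hker hPT f hf hc i Q' hr j c' hc')
    Q t' hQ hρ

/-- **`hlift` of the top seam (LIFT_Ω), assembled.**  `ρΩ := h.rho`, `β := bcPic0 hb`; the square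
`hsq : ρΩ ∘ β = βk ∘ ρK` is (INST-B). -/
theorem hlift [IsAlgClosed Ω] [IsAlgClosed K] [CharZero K] [IsAlgClosed k2] [IsAlgClosed k]
    (hF : Frame x rho) (h : GoodRed O red r xO) (h₁ : IsChart V πV O red r S T Tt)
    (h₂ : IsChart V πV O red r S' T' Tt') (hcov : ∀ P : Place Ω FΩ, P ∈ T ∨ P ∈ T')
    (hmem : ∀ P' : Place Ω FΩ, r P' ∈ Tt → P' ∈ T)
    (hπV : ∀ w : V, (w : Ω) ∈ V.nonunits → πV w = 0)
    (hker : ∀ a : V, πV a = 0 → a ∈ IsLocalRing.maximalIdeal V)
    (hS : ∀ f ∈ S, ∀ σ : Ω ≃ₐ[K] Ω, rho σ • ((f : O) : FΩ) = ((f : O) : FΩ))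
    (hS' : ∀ f ∈ S', ∀ σ : Ω ≃ₐ[K] Ω, rho σ • ((f : O) : FΩ) = ((f : O) : FΩ))
    {xf xf' : FΩ} (hxf : ∀ σ : Ω ≃ₐ[K] Ω, rho σ • xf = xf)
    (hxf' : ∀ σ : Ω ≃ₐ[K] Ω, rho σ • xf' = xf')
    (hT : ∀ P : Place Ω FΩ, P ∈ T ↔ ∃ c : V, ValAt P xf (c : Ω))
    (hT' : ∀ P : Place Ω FΩ, P ∈ T' ↔ ∃ c : V, ValAt P xf' (c : Ω))
    (π₀ : V.comap (algebraMap K Ω) →+* k)
    (hπ₀ : ∀ a : V.comap (algebraMap K Ω), π₀ a = 0 → algebraMap K Ω (a : K) ∈ V.nonunits)
    (hcomp : ∀ a : V.comap (algebraMap K Ω),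
      πV ⟨algebraMap K Ω (a : K), a.2⟩ = algebraMap k k2 (π₀ a))
    (hF2 : Frame x2 rho2) {P : Fin (genusFF Ω FΩ) → Place Ω FΩ}
    {t : Fin (genusFF Ω FΩ) → Ω} (hP : IsGeneric K x P t)
    (halg : ∀ y : Ω, IsAlgebraic (IntermediateField.adjoin K (Set.range t)) y)
    (hPT : ∀ i, P i ∈ T) {tb : Fin (genusFF Ω FΩ) → k2}
    (hPb : IsGeneric k x2 (fun i => r (P i)) tb)
    {J : Type*} (f : J → O) (hf : ∀ j, f j ∈ S)
    (hbrat : ∀ j, IsRat rho ⊥ ((f j : O) : FΩ))
    (hbfrac : ∀ z : FΩ, IsRat rho ⊥ z → ∃ lam mu : J →₀ K,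
      (mu.sum fun j a => algebraMap Ω FΩ (algebraMap K Ω a) * ((f j : O) : FΩ)) ≠ 0 ∧
      z * (mu.sum fun j a => algebraMap Ω FΩ (algebraMap K Ω a) * ((f j : O) : FΩ)) =
        lam.sum fun j a => algebraMap Ω FΩ (algebraMap K Ω a) * ((f j : O) : FΩ))
    (c : Fin (genusFF Ω FΩ) → J → Ω) (hc : ∀ i j, Val (P i) ((f j : O) : FΩ) (c i j))
    (hc1 : ∀ i, (1 : Ω) ∈ Submodule.span K (Set.range (c i)))
    (hcmul : ∀ i j j', c i j * c i j' ∈ Submodule.span K (Set.range (c i)))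
    (hct : ∀ i, t i ∈ Submodule.span K (Set.range (c i)))
    (hbrat2 : ∀ j, IsRat rho2 ⊥ (red (f j)))
    (hbind2 : ∀ lam : J →₀ k,
      (lam.sum fun j a => algebraMap k2 Ft2 (algebraMap k k2 a) * red (f j)) = 0 → lam = 0)
    {n : ℕ} (hn : 0 < n) (htor : {y : Pic0 Ω FΩ | n • y = 0}.Finite)
    {bc : Place K F → Place Ω FΩ} (hb : IsBcPlace bc)
    (hbc : ∀ (σ : Ω ≃ₐ[K] Ω) (v : Place K F), rho σ • bc v = bc v)
    {XK : Type*} [AddCommGroup XK] (ρK : Pic0 K F →+ XK) (βk : XK →+ Pic0 k2 Ft2)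
    (hsq : ∀ c : Pic0 K F, h.rho (bcPic0 hb c) = βk (ρK c)) :
    ∀ c : Pic0 K F, ρK c = 0 → ∃ a : Pic0 Ω FΩ, n • a = bcPic0 hb c ∧ h.rho a = 0 :=
  Lift.hlift hF h.rho hn htor hP
    (fun σ => (∀ a : Ω, a ∈ V ↔ σ a ∈ V) ∧ ∀ a : Ω, a ∈ V → σ a - a ∈ V.nonunits)
    (fun σ hσ a => LiftHyp.hA_adm hF h h₁ h₂ hcov hπV hS hS' hxf hxf' hT hT' σ hσ a)
    (fun Q t' hQ hρ => hkey hF h h₁ hmem hπV hker π₀ hπ₀ hcomp hF2 h.genus hP halg hPT hPb f hf
      hbrat hbfrac c hc hc1 hcmul hct hbrat2 hbind2 Q t' hQ hρ)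
    hb hbc ρK βk hsq

end Asm

end Fermat.Agent.S27P.Inst.LiftAsm
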