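import Mathlib
import Fermat.Agent.S27P.Gen.Defs
import Fermat.Agent.S27P.Inj.Centre
import Fermat.Agent.S27P.Inj.RedPic

/-!
# S27 / (INST-E) glue: `hA` and `hcong` of `lift_core` / `lift_key` from two charts

Setting: `Ω ⊇ K`, a valuation ring `V ⊂ Ω` with residue map `πV : V →+* k2`, the function field
`FΩ/Ω` with its Gauss ring `O`, reduction `red : O →+* Ft2` and place reduction
`r : Place Ω FΩ → Place k2 Ft2`, described by charts `Inj.Centre.IsChart V πV O red r S T Tt`.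

* `r_smul_of_charts`, `rho_smul_of_charts` : (HA) an automorphism `σ` of `Ω/K` stabilising `V` and
  acting trivially on its residue field commutes with `r`, hence with the reduction on `Pic0`
  (the hypothesis `hA` of `lift_core`);
* `hcong_of_chart` : (HCONG) two places with the same centre have congruent values on the chart
  functions (the hypothesis `hcong` of `lift_key`), for a chart which is the full preimage of its
  special fibre (`hback`);
* `evK_of_r_ord_nonneg` : the producer of `hback` for the concrete charts of a reduction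
  (`T = {P | ∃ γ₀, EvK V πV P X γ₀}`, `Tt = {Q | 0 ≤ Q.ord Xt}`, and the chart at infinity
  `T' = {P | ∃ γ₀, EvK V πV P X' γ₀}`, `X * X' = 1`).  NOTE: the special fibres
  `{Q | 0 ≤ Q.ord Xt}` and `{Q | Q.ord Xt ≤ 0}` of the two concrete charts are NOT disjoint, so
  "cover + disjoint" is not available there; this lemma replaces it;
* `rho_smul_evK`, `hcong_evK` : (HA) and (HCONG) for the concrete `EvK`-charts.
-/

set_option autoImplicit false

noncomputable section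

namespace Fermat.Agent.S27P.Inst.LiftHyps

open AlgebraicCurve Fermat.Agent.S27P.Inj.Centre Fermat.Agent.S27P.Inj.RedPic
open Fermat.Agent.S27P.Gen

/-! ### Non-units of a valuation subring and residue maps -/

section Nonunits

variable {Ω k2 : Type*} [Field Ω] [Field k2]

/-- An element of `V` killed by a ring hom into a field is a non-unit. -/
theorem coe_mem_nonunits_of_map_eq_zero {V : ValuationSubring Ω} (πV : V →+* k2) {d : V}
    (hd : πV d = 0) : (d : Ω) ∈ V.nonunits := by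
  rw [ValuationSubring.mem_nonunits_iff_exists_mem_maximalIdeal]
  refine ⟨d.2, ?_⟩
  rw [IsLocalRing.mem_maximalIdeal, mem_nonunits_iff]
  intro hu
  exact (hu.map πV).ne_zero hd

/-- An element of `V` whose coercion is a non-unit of `V` is not a unit. -/
theorem not_isUnit_of_coe_mem_nonunits {V : ValuationSubring Ω} {d : V}
    (hd : (d : Ω) ∈ V.nonunits) : ¬ IsUnit d := by
  rw [ValuationSubring.mem_nonunits_iff_exists_mem_maximalIdeal] at hd
  obtain ⟨_, h⟩ := hd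
  rw [IsLocalRing.mem_maximalIdeal, mem_nonunits_iff] at h
  exact h

/-- A non-unit of `V` has its coercion in `V.nonunits`. -/
theorem coe_mem_nonunits_of_not_isUnit {V : ValuationSubring Ω} {d : V}
    (hd : ¬ IsUnit d) : (d : Ω) ∈ V.nonunits := by
  rw [ValuationSubring.mem_nonunits_iff_exists_mem_maximalIdeal]
  refine ⟨d.2, ?_⟩
  rw [IsLocalRing.mem_maximalIdeal, mem_nonunits_iff]
  exact hd

end Nonunits

/-! ### (HA): admissible automorphisms commute with the reduction of places -/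

section HA

variable {K Ω FΩ k2 Ft2 : Type*} [Field K] [Field Ω] [Algebra K Ω] [Field FΩ] [Algebra Ω FΩ]
  [Field k2] [Field Ft2] [Algebra k2 Ft2]
variable {V : ValuationSubring Ω} {πV : V →+* k2} {O : ValuationSubring FΩ} {red : O →+* Ft2}
  {r : Place Ω FΩ → Place k2 Ft2} {S S' : Set O} {T T' : Set (Place Ω FΩ)}
  {Tt Tt' : Set (Place k2 Ft2)}

/-- The base automorphism of `rho σ` is `σ`. -/
theorem baseAut_rho (rho : (Ω ≃ₐ[K] Ω) →* SemilinearAut Ω FΩ)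
    (hrho : ∀ (σ : Ω ≃ₐ[K] Ω) (c : Ω), rho σ • algebraMap Ω FΩ c = algebraMap Ω FΩ (σ c))
    (σ : Ω ≃ₐ[K] Ω) (c : Ω) : SemilinearAut.baseAut (rho σ) c = σ c := by
  have h := hrho σ c
  rw [SemilinearAut.smul_algebraMap] at h
  exact (algebraMap Ω FΩ).injective h

/-- **(HA) on one chart.**  An automorphism `σ` of `Ω/K` which stabilises `V`, acts trivially on
its residue field, and fixes the chart functions and the chart, commutes with `r` on the chart. -/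
theorem r_smul_of_chart (h : IsChart V πV O red r S T Tt)
    (hπ0 : ∀ a : V, ¬ IsUnit a → πV a = 0)
    (rho : (Ω ≃ₐ[K] Ω) →* SemilinearAut Ω FΩ)
    (hrho : ∀ (σ : Ω ≃ₐ[K] Ω) (c : Ω), rho σ • algebraMap Ω FΩ c = algebraMap Ω FΩ (σ c))
    {σ : Ω ≃ₐ[K] Ω} (hσV : ∀ a : Ω, a ∈ V ↔ σ a ∈ V)
    (hσ1 : ∀ a : Ω, a ∈ V → σ a - a ∈ V.nonunits)
    (hS : ∀ f ∈ S, rho σ • ((f : O) : FΩ) = ((f : O) : FΩ))
    (hT : ∀ P ∈ T, rho σ • P ∈ T) :
    ∀ P ∈ T, r (rho σ • P) = r P := by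
  intro P hP
  have hA : ∀ a : V, SemilinearAut.baseAut (rho σ) (a : Ω) ∈ V := fun a => by
    rw [baseAut_rho rho hrho]
    exact (hσV a).1 a.2
  have hπ : ∀ a : V, πV ⟨SemilinearAut.baseAut (rho σ) (a : Ω), hA a⟩
      = SemilinearAut.baseAut (1 : SemilinearAut k2 Ft2) (πV a) := fun a => by
    rw [SemilinearAut.baseAut_one]
    show πV ⟨SemilinearAut.baseAut (rho σ) (a : Ω), hA a⟩ = πV a
    have hd : ¬ IsUnit ((⟨SemilinearAut.baseAut (rho σ) (a : Ω), hA a⟩ : V) - a) := by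
      apply not_isUnit_of_coe_mem_nonunits
      show SemilinearAut.baseAut (rho σ) (a : Ω) - (a : Ω) ∈ V.nonunits
      rw [baseAut_rho rho hrho]
      exact hσ1 a a.2
    have h0 := hπ0 _ hd
    rw [map_sub, sub_eq_zero] at h0
    exact h0
  have key := h.smul_eq (rho σ) (1 : SemilinearAut k2 Ft2) hA hπ
    (fun f hf => ⟨f, hf, (hS f hf).symm, (one_smul _ _).symm⟩) hT
    (fun Q hQ => by rw [one_smul]; exact hQ) P hP
  rw [one_smul] at key
  exact key

/-- **(HA) on places**: two charts covering all places. -/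
theorem r_smul_of_charts (hfin : IsChart V πV O red r S T Tt)
    (hinf : IsChart V πV O red r S' T' Tt') (hcov : ∀ P : Place Ω FΩ, P ∈ T ∨ P ∈ T')
    (hπ0 : ∀ a : V, ¬ IsUnit a → πV a = 0)
    (rho : (Ω ≃ₐ[K] Ω) →* SemilinearAut Ω FΩ)
    (hrho : ∀ (σ : Ω ≃ₐ[K] Ω) (c : Ω), rho σ • algebraMap Ω FΩ c = algebraMap Ω FΩ (σ c))
    {σ : Ω ≃ₐ[K] Ω} (hσV : ∀ a : Ω, a ∈ V ↔ σ a ∈ V)
    (hσ1 : ∀ a : Ω, a ∈ V → σ a - a ∈ V.nonunits)
    (hS : ∀ f ∈ S, rho σ • ((f : O) : FΩ) = ((f : O) : FΩ))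
    (hS' : ∀ f ∈ S', rho σ • ((f : O) : FΩ) = ((f : O) : FΩ))
    (hT : ∀ P ∈ T, rho σ • P ∈ T) (hT' : ∀ P ∈ T', rho σ • P ∈ T') :
    ∀ P : Place Ω FΩ, r (rho σ • P) = r P := by
  intro P
  rcases hcov P with hP | hP
  · exact r_smul_of_chart hfin hπ0 rho hrho hσV hσ1 hS hT P hP
  · exact r_smul_of_chart hinf hπ0 rho hrho hσV hσ1 hS' hT' P hP

/-- **(HA) on `Pic0`** = the hypothesis `hA` of `lift_core` (at `A σ := Adm V σ`). -/
theorem rho_smul_of_charts {xO : Oˣ} (hG : GoodRed O red r xO)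
    (hfin : IsChart V πV O red r S T Tt)
    (hinf : IsChart V πV O red r S' T' Tt') (hcov : ∀ P : Place Ω FΩ, P ∈ T ∨ P ∈ T')
    (hπ0 : ∀ a : V, ¬ IsUnit a → πV a = 0)
    (rho : (Ω ≃ₐ[K] Ω) →* SemilinearAut Ω FΩ)
    (hrho : ∀ (σ : Ω ≃ₐ[K] Ω) (c : Ω), rho σ • algebraMap Ω FΩ c = algebraMap Ω FΩ (σ c))
    {σ : Ω ≃ₐ[K] Ω} (hσV : ∀ a : Ω, a ∈ V ↔ σ a ∈ V)
    (hσ1 : ∀ a : Ω, a ∈ V → σ a - a ∈ V.nonunits)
    (hS : ∀ f ∈ S, rho σ • ((f : O) : FΩ) = ((f : O) : FΩ))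
    (hS' : ∀ f ∈ S', rho σ • ((f : O) : FΩ) = ((f : O) : FΩ))
    (hT : ∀ P ∈ T, rho σ • P ∈ T) (hT' : ∀ P ∈ T', rho σ • P ∈ T') :
    ∀ a : Pic0 Ω FΩ, hG.rho (rho σ • a) = hG.rho a := by
  intro a
  have hr := r_smul_of_charts hfin hinf hcov hπ0 rho hrho hσV hσ1 hS hS' hT hT'
  have key := hG.rho_smul (rho σ) (1 : SemilinearAut k2 Ft2)
    (fun P => by rw [one_smul]; exact hr P) a
  rw [one_smul] at key
  exact key

/-- The chart "`f` has a value in `V`" is stable under `rho σ` when `σ` stabilises `V` and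
`rho σ` fixes `f`. -/
theorem smul_mem_valSet (rho : (Ω ≃ₐ[K] Ω) →* SemilinearAut Ω FΩ)
    (hrho : ∀ (σ : Ω ≃ₐ[K] Ω) (c : Ω), rho σ • algebraMap Ω FΩ c = algebraMap Ω FΩ (σ c))
    {σ : Ω ≃ₐ[K] Ω} (hσV : ∀ a : Ω, a ∈ V ↔ σ a ∈ V) {f : FΩ} (hf : rho σ • f = f)
    {P : Place Ω FΩ} (hP : ∃ c : V, ValAt P f (c : Ω)) :
    ∃ c : V, ValAt (rho σ • P) f (c : Ω) := by
  obtain ⟨c, hc⟩ := hP
  have h1 := hc.smul (rho σ)
  rw [hf, baseAut_rho rho hrho] at h1
  exact ⟨⟨σ (c : Ω), (hσV _).1 c.2⟩, h1⟩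

/-- The chart "`f` has a value in the maximal ideal of `V`" is stable under `rho σ` when `σ`
stabilises `V` and `rho σ` fixes `f`. -/
theorem smul_mem_valSet_nonunits (rho : (Ω ≃ₐ[K] Ω) →* SemilinearAut Ω FΩ)
    (hrho : ∀ (σ : Ω ≃ₐ[K] Ω) (c : Ω), rho σ • algebraMap Ω FΩ c = algebraMap Ω FΩ (σ c))
    {σ : Ω ≃ₐ[K] Ω}
    (hσ1 : ∀ a : Ω, a ∈ V → σ a - a ∈ V.nonunits) {f : FΩ} (hf : rho σ • f = f)
    {P : Place Ω FΩ} (hP : ∃ c : Ω, c ∈ V.nonunits ∧ ValAt P f c) :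
    ∃ c : Ω, c ∈ V.nonunits ∧ ValAt (rho σ • P) f c := by
  obtain ⟨c, hcn, hc⟩ := hP
  have h1 := hc.smul (rho σ)
  rw [hf, baseAut_rho rho hrho] at h1
  refine ⟨σ c, ?_, h1⟩
  have hcV : c ∈ V := V.nonunits_subset hcn
  have e : σ c = (σ c - c) + c := by ring
  rw [e]
  exact add_mem (hσ1 c hcV) hcn

end HA

/-! ### (HCONG): places with the same centre have congruent values -/

section HCONG

variable {Ω FΩ k2 Ft2 : Type*} [Field Ω] [Field FΩ] [Algebra Ω FΩ]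
  [Field k2] [Field Ft2] [Algebra k2 Ft2]
variable {V : ValuationSubring Ω} {πV : V →+* k2} {O : ValuationSubring FΩ} {red : O →+* Ft2}
  {r : Place Ω FΩ → Place k2 Ft2} {S S' : Set O} {T T' : Set (Place Ω FΩ)}
  {Tt Tt' : Set (Place k2 Ft2)}

/-- With two charts covering all places and disjoint on the special fibre, the first chart is the
full preimage of its special fibre. -/
theorem mem_of_r_mem (hinf : IsChart V πV O red r S' T' Tt')
    (hcov : ∀ P : Place Ω FΩ, P ∈ T ∨ P ∈ T') (hdisj : ∀ Q : Place k2 Ft2, Q ∈ Tt → Q ∉ Tt')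
    {Q : Place Ω FΩ} (hQ : r Q ∈ Tt) : Q ∈ T := by
  rcases hcov Q with h | h
  · exact h
  · exact absurd (hinf.maps Q h) (hdisj _ hQ)

/-- **(HCONG)**, abstract form: if `r Q' = r P` with `P` on the chart (and the chart is the full
preimage of its special fibre), the values of a chart function at `Q'` and `P` are congruent
modulo the maximal ideal of `V`. -/
theorem sub_mem_nonunits_of_chart (h : IsChart V πV O red r S T Tt)
    (hback : ∀ Q : Place Ω FΩ, r Q ∈ Tt → Q ∈ T)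
    {P Q' : Place Ω FΩ} (hP : P ∈ T) (hr : r Q' = r P) {f : O} (hf : f ∈ S) {c c' : Ω}
    (hc : Val P ((f : O) : FΩ) c) (hc' : Val Q' ((f : O) : FΩ) c') :
    c' - c ∈ V.nonunits := by
  have hQ' : Q' ∈ T := hback Q' (by rw [hr]; exact h.maps P hP)
  obtain ⟨d, hd, hπd⟩ := h.sub_mem_ker hQ' hP hr hf hc' hc
  rw [← hd]
  exact coe_mem_nonunits_of_map_eq_zero πV hπd

/-- **(HCONG)** = the hypothesis `hcong` of `lift_key`, literally. -/
theorem hcong_of_chart {K : Type*} [Field K] [Algebra K Ω] (h : IsChart V πV O red r S T Tt)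
    (hback : ∀ Q : Place Ω FΩ, r Q ∈ Tt → Q ∈ T) (x : FΩ)
    {g : ℕ} {J : Type*} {P : Fin g → Place Ω FΩ} (hP : ∀ i, P i ∈ T)
    (b : J → FΩ) (hbS : ∀ j, ∃ f ∈ S, ((f : O) : FΩ) = b j)
    (c : Fin g → J → Ω) (hc : ∀ i j, Val (P i) (b j) (c i j)) :
    ∀ (i : Fin g) (Q' : Place Ω FΩ) (t' : Ω), Val Q' x t' → Transcendental K t' →
      r Q' = r (P i) → ∀ (j : J) (c' : Ω), Val Q' (b j) c' → c' - c i j ∈ V.nonunits := by
  intro i Q' t' _ _ hr j c' hc'
  obtain ⟨f, hf, hfb⟩ := hbS j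
  refine sub_mem_nonunits_of_chart h hback (hP i) hr hf ?_ ?_
  · rw [hfb]; exact hc i j
  · rw [hfb]; exact hc'

end HCONG

/-! ### The concrete charts of a reduction: `EvK`-charts -/

section Concrete

open Fermat.Agent.Lib.Red.PlaceRed

variable {K Ω FΩ k2 Ft2 : Type*} [Field K] [Field Ω] [Algebra K Ω] [Field FΩ] [Algebra Ω FΩ]
  [Field k2] [Field Ft2] [Algebra k2 Ft2]
variable {V : ValuationSubring Ω} {πV : V →+* k2} {O : ValuationSubring FΩ} {red : O →+* Ft2}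
  {r : Place Ω FΩ → Place k2 Ft2} {S' : Set O} {T' : Set (Place Ω FΩ)}
  {Tt' : Set (Place k2 Ft2)}

/-- The inverse of a function with a nonzero value takes the inverse value. -/
theorem valAt_inv {P : Place Ω FΩ} {f : FΩ} {c : Ω} (h : ValAt P f c) (hc : c ≠ 0) :
    ValAt P f⁻¹ c⁻¹ := by
  have hv1 : P.adicValuation (algebraMap Ω FΩ c) = 1 := adicValuation_algebraMap_eq_one P hc
  have hvf : P.adicValuation f = 1 := by
    have e : f = (f - algebraMap Ω FΩ c) + algebraMap Ω FΩ c := by ring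
    rw [e, Valuation.map_add_eq_of_lt_right]
    · exact hv1
    · rw [hv1]; exact h
  have hf0 : f ≠ 0 := by
    rintro rfl
    rw [map_zero] at hvf
    exact zero_ne_one hvf
  have hc0 : algebraMap Ω FΩ c ≠ 0 := (map_ne_zero _).2 hc
  unfold ValAt
  have e : f⁻¹ - algebraMap Ω FΩ c⁻¹
      = -((f - algebraMap Ω FΩ c) * (f⁻¹ * (algebraMap Ω FΩ c)⁻¹)) := by
    rw [map_inv₀]
    field_simp
    ring
  rw [e, Valuation.map_neg, map_mul, map_mul, map_inv₀, map_inv₀, hvf, hv1, inv_one, mul_one,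
    mul_one]
  exact h

/-- The `EvK`-chart of a function fixed by `rho σ` is stable under `rho σ` when `σ`
stabilises `V`. -/
theorem smul_mem_evKSet (rho : (Ω ≃ₐ[K] Ω) →* SemilinearAut Ω FΩ)
    (hrho : ∀ (σ : Ω ≃ₐ[K] Ω) (c : Ω), rho σ • algebraMap Ω FΩ c = algebraMap Ω FΩ (σ c))
    {σ : Ω ≃ₐ[K] Ω} (hσV : ∀ a : Ω, a ∈ V ↔ σ a ∈ V) {f : FΩ} (hf : rho σ • f = f)
    {P : Place Ω FΩ} (hP : ∃ γ₀ : k2, EvK V πV P f γ₀) :
    ∃ γ₀ : k2, EvK V πV (rho σ • P) f γ₀ := by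
  obtain ⟨γ₀, a, -, ha⟩ := hP
  obtain ⟨c, hc⟩ := smul_mem_valSet rho hrho hσV hf ⟨a, ha⟩
  exact ⟨πV c, c, rfl, hc⟩

/-- **The finite chart is the full preimage of its special fibre.**  `X * X' = 1`, the chart at
infinity `T'` consists of places where `X'` has a value in `V`, `X'` is a chart function at
infinity with reduction `Xt⁻¹`.  If `r Q` is not a pole of `Xt`, then `X` has a value in `V`
at `Q`. -/
theorem evK_of_r_ord_nonneg (hinf : IsChart V πV O red r S' T' Tt')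
    (hπ0 : ∀ a : V, ¬ IsUnit a → πV a = 0)
    {X X' : FΩ} (hXX' : X * X' = 1) {Xt : Ft2}
    (hT' : ∀ P ∈ T', ∃ γ₀ : k2, EvK V πV P X' γ₀)
    {fX' : O} (hfS : fX' ∈ S') (hfX' : ((fX' : O) : FΩ) = X') (hred : red fX' * Xt = 1)
    {Q : Place Ω FΩ} (hcov : (∃ γ₀ : k2, EvK V πV Q X γ₀) ∨ Q ∈ T')
    (hQ : 0 ≤ (r Q).ord Xt) : ∃ γ₀ : k2, EvK V πV Q X γ₀ := by
  rcases hcov with h | h
  · exact h
  obtain ⟨γ₀, a, -, hval⟩ := hT' Q h
  have hX : X = X'⁻¹ := eq_inv_of_mul_eq_one_left hXX'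
  by_cases hu : IsUnit a
  · -- the value of `X'` is a unit of `V`: `X` takes the inverse value
    obtain ⟨u, rfl⟩ := hu
    have hne : ((u : V) : Ω) ≠ 0 := by
      intro h0
      have h1 : (((u : V) * ((u⁻¹ : Vˣ) : V) : V) : Ω) = 1 := by rw [Units.mul_inv]; rfl
      rw [show (((u : V) * ((u⁻¹ : Vˣ) : V) : V) : Ω) = ((u : V) : Ω) * (((u⁻¹ : Vˣ) : V) : Ω)
        from rfl, h0, zero_mul] at h1
      exact zero_ne_one h1
    have hinv : (((u⁻¹ : Vˣ) : V) : Ω) = (((u : V) : Ω))⁻¹ := by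
      have h1 : ((u : V) : Ω) * (((u⁻¹ : Vˣ) : V) : Ω) = 1 :=
        congrArg Subtype.val (Units.mul_inv u)
      exact eq_inv_of_mul_eq_one_right h1
    have h2 : ValAt Q X (((u⁻¹ : Vˣ) : V) : Ω) := by
      rw [hX, hinv]
      exact valAt_inv hval hne
    exact ⟨πV ((u⁻¹ : Vˣ) : V), ((u⁻¹ : Vˣ) : V), rfl, h2⟩
  · -- the value of `X'` is a non-unit: `r Q` is a zero of `red X'`, i.e. a pole of `Xt`
    exfalso
    obtain ⟨c, hc, hrc⟩ := hinf.ev Q h fX' hfS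
    rw [hfX'] at hc
    have hca : (c : Ω) = (a : Ω) := hc.unique hval
    have hca' : c = a := Subtype.ext hca
    rw [hca', hπ0 a hu] at hrc
    have hne : red fX' ≠ 0 := left_ne_zero_of_mul_eq_one hred
    have hXt : Xt ≠ 0 := right_ne_zero_of_mul_eq_one hred
    have hpos : 0 < (r Q).ord (red fX') := by
      have h3 : (r Q).adicValuation (red fX') < 1 := by
        have h4 := hrc
        unfold ValAt at h4
        rwa [map_zero, sub_zero] at h4
      exact (adicValuation_lt_one_iff (r Q) hne).1 h3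
    have hsum : (r Q).ord (red fX') + (r Q).ord Xt = 0 := by
      rw [← (r Q).ord_mul hne hXt, hred, Place.ord_one]
    omega

/-- A value in `V` gives an `EvK`-value. -/
theorem evK_of_val {P : Place Ω FΩ} {f : FΩ} {c : Ω} (hc : Val P f c) (hcV : c ∈ V) :
    ∃ γ₀ : k2, EvK V πV P f γ₀ :=
  ⟨πV ⟨c, hcV⟩, ⟨c, hcV⟩, rfl, hc⟩

/-- **(HA) for the `EvK`-charts of a reduction** = the hypothesis `hA` of `lift_core`
(at `A σ := Adm V σ`): an automorphism of `Ω/K` which stabilises `V` and acts trivially on its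
residue field, whose `rho σ` fixes the chart functions and the coordinates `X`, `X'`, commutes
with the reduction on `Pic0`. -/
theorem rho_smul_evK {xO : Oˣ} (hG : GoodRed O red r xO) {S : Set O}
    {Tt : Set (Place k2 Ft2)} {X X' : FΩ}
    (hfin : IsChart V πV O red r S {P | ∃ γ₀ : k2, EvK V πV P X γ₀} Tt)
    (hinf : IsChart V πV O red r S' {P | ∃ γ₀ : k2, EvK V πV P X' γ₀} Tt')
    (hcov : ∀ P : Place Ω FΩ,
      (∃ γ₀ : k2, EvK V πV P X γ₀) ∨ (∃ γ₀ : k2, EvK V πV P X' γ₀))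
    (hπ0 : ∀ a : V, ¬ IsUnit a → πV a = 0)
    (rho : (Ω ≃ₐ[K] Ω) →* SemilinearAut Ω FΩ)
    (hrho : ∀ (σ : Ω ≃ₐ[K] Ω) (c : Ω), rho σ • algebraMap Ω FΩ c = algebraMap Ω FΩ (σ c))
    {σ : Ω ≃ₐ[K] Ω} (hσV : ∀ a : Ω, a ∈ V ↔ σ a ∈ V)
    (hσ1 : ∀ a : Ω, a ∈ V → σ a - a ∈ V.nonunits)
    (hS : ∀ f ∈ S, rho σ • ((f : O) : FΩ) = ((f : O) : FΩ))
    (hS' : ∀ f ∈ S', rho σ • ((f : O) : FΩ) = ((f : O) : FΩ))
    (hX : rho σ • X = X) (hX' : rho σ • X' = X') :
    ∀ a : Pic0 Ω FΩ, hG.rho (rho σ • a) = hG.rho a :=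
  rho_smul_of_charts hG hfin hinf hcov hπ0 rho hrho hσV hσ1 hS hS'
    (fun _ hP => smul_mem_evKSet rho hrho hσV hX hP)
    (fun _ hP => smul_mem_evKSet rho hrho hσV hX' hP)

/-- **(HCONG) for the `EvK`-charts of a reduction** = the hypothesis `hcong` of `lift_key`,
literally, with NO disjointness hypothesis on the special fibres of the two charts: `X * X' = 1`,
`X'` is a chart function at infinity (`fX'`) whose reduction is inverse to `Xt`. -/
theorem hcong_evK {S : Set O} {X X' : FΩ} {Xt : Ft2}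
    (hfin : IsChart V πV O red r S {P | ∃ γ₀ : k2, EvK V πV P X γ₀} {Q | 0 ≤ Q.ord Xt})
    (hinf : IsChart V πV O red r S' {P | ∃ γ₀ : k2, EvK V πV P X' γ₀} Tt')
    (hcov : ∀ P : Place Ω FΩ,
      (∃ γ₀ : k2, EvK V πV P X γ₀) ∨ (∃ γ₀ : k2, EvK V πV P X' γ₀))
    (hπ0 : ∀ a : V, ¬ IsUnit a → πV a = 0) (hXX' : X * X' = 1)
    {fX' : O} (hfS : fX' ∈ S') (hfX' : ((fX' : O) : FΩ) = X') (hred : red fX' * Xt = 1)
    (x : FΩ) {g : ℕ} {J : Type*} {P : Fin g → Place Ω FΩ}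
    (hP : ∀ i, ∃ γ₀ : k2, EvK V πV (P i) X γ₀)
    (b : J → FΩ) (hbS : ∀ j, ∃ f ∈ S, ((f : O) : FΩ) = b j)
    (c : Fin g → J → Ω) (hc : ∀ i j, Val (P i) (b j) (c i j)) :
    ∀ (i : Fin g) (Q' : Place Ω FΩ) (t' : Ω), Val Q' x t' → Transcendental K t' →
      r Q' = r (P i) → ∀ (j : J) (c' : Ω), Val Q' (b j) c' → c' - c i j ∈ V.nonunits :=
  hcong_of_chart (K := K) hfin
    (fun Q hQ => evK_of_r_ord_nonneg hinf hπ0 hXX' (fun _ h => h) hfS hfX' hred (hcov Q) hQ)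
    x hP b hbS c hc

end Concrete

end Fermat.Agent.S27P.Inst.LiftHyps
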