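import Mathlib
import Fermat.Agent.S27P.Inst.OfIsRed
import Fermat.Agent.S27P.Inst.LiftHyps

/-!
# S27 / (INST-E) glue over `OfIsRed.RedOut`: `hA` and `hcong` of `lift_core` / `lift_key`

For the output `h : RedOut M ψ₁ ψ₂ A π O red r xO` of the reduction theorem and its two charts
(`RedOut.isChart_fin`, `RedOut.isChart_inf`):

* `mem_finT_of_r_mem` : the finite chart is the full preimage of its special fibre
  (`r Q ∈ finTt → Q ∈ finT`); note that `finTt` and `infTt` are not disjoint;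
* `hcong` : the hypothesis `hcong` of `lift_key`, literally;
* `rho_smul` : the hypothesis `hA` of `lift_core` (for `σ` stabilising `A` with trivial action on
  the residue field, `rho σ` fixing the image of `ψ₁`);
* `val_r_of_val` : the value table of the reduced tuple.
-/

set_option autoImplicit false

noncomputable section

namespace Fermat.Agent.S27P.Inst.LiftHypsOut

open Polynomial AlgebraicCurve
open Fermat.Agent.S27P.GR Fermat.Agent.S27P.Inj.Centre Fermat.Agent.S27P.Inj.RedPic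
open Fermat.Agent.S27P.Inst.OfIsRed Fermat.Agent.S27P.Inst.LiftHyps
open Fermat.Agent.Lib.Red.PlaceRed Fermat.Agent.S27P.Gen

variable {Λ U : Type*} [CommRing Λ] [CommRing U] [Algebra Λ U] {n : ℕ}
  {K' F' k Ft : Type*} [Field K'] [Field F'] [Algebra K' F'] [Field k] [Field Ft] [Algebra k Ft]
variable {M : Model Λ U n} {ψ₁ : U →+* F'} {ψ₂ : U →+* Ft} {A : ValuationSubring K'}
  {π : A →+* k} {O : ValuationSubring F'} {red : O →+* Ft} {r : Place K' F' → Place k Ft}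
  {xO : Oˣ}

/-- **The finite chart is the full preimage of its special fibre.** -/
theorem mem_finT_of_r_mem (h : RedOut M ψ₁ ψ₂ A π O red r xO)
    (hinf : IsChart A π O red r (infS M ψ₁ O) (infT M ψ₁ A π) (infTt M ψ₂))
    (hπ0 : ∀ a : A, ¬ IsUnit a → π a = 0) {Q : Place K' F'} (hQ : r Q ∈ finTt M ψ₂) :
    Q ∈ finT M ψ₁ A π := by
  obtain ⟨hx'O, hredx'⟩ := h.compat M.x'
  have hXX' : ψ₁ M.x * ψ₁ M.x' = 1 := by rw [← map_mul, M.hxx', map_one]
  have hred : red ⟨ψ₁ M.x', hx'O⟩ * ψ₂ M.x = 1 := by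
    rw [hredx', ← map_mul, mul_comm, M.hxx', map_one]
  have hfS : (⟨ψ₁ M.x', hx'O⟩ : O) ∈ infS M ψ₁ O := ⟨⟨M.x', M.hx'⟩, rfl⟩
  exact evK_of_r_ord_nonneg hinf hπ0 hXX' (fun _ hP => hP) hfS rfl hred
    (h.mem_finT_or_mem_infT Q) hQ

/-- **(HCONG)** = the hypothesis `hcong` of `lift_key`, literally, for a reduction. -/
theorem hcong {K : Type*} [Field K] [Algebra K K'] (h : RedOut M ψ₁ ψ₂ A π O red r xO)
    (hfin : IsChart A π O red r (finS M ψ₁ O) (finT M ψ₁ A π) (finTt M ψ₂))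
    (hinf : IsChart A π O red r (infS M ψ₁ O) (infT M ψ₁ A π) (infTt M ψ₂))
    (hπ0 : ∀ a : A, ¬ IsUnit a → π a = 0)
    (x : F') {g : ℕ} {J : Type*} {P : Fin g → Place K' F'} (hP : ∀ i, P i ∈ finT M ψ₁ A π)
    (b : J → F') (hb : ∀ j, ∃ u : M.B, b j = ψ₁ (u : U))
    (c : Fin g → J → K') (hc : ∀ i j, Val (P i) (b j) (c i j)) :
    ∀ (i : Fin g) (Q' : Place K' F') (t' : K'), Val Q' x t' → Transcendental K t' →
      r Q' = r (P i) → ∀ (j : J) (c' : K'), Val Q' (b j) c' → c' - c i j ∈ A.nonunits := by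
  refine hcong_of_chart (K := K) hfin (fun Q hQ => mem_finT_of_r_mem h hinf hπ0 hQ) x hP b
    (fun j => ?_) c hc
  obtain ⟨u, hu⟩ := hb j
  obtain ⟨hO, -⟩ := h.compat (u : U)
  exact ⟨⟨ψ₁ (u : U), hO⟩, ⟨u, rfl⟩, hu.symm⟩

/-- **(HA)** = the hypothesis `hA` of `lift_core` for a reduction: an automorphism `σ` of `K'/K`
which stabilises `A`, acts trivially on its residue field, and whose `rho σ` fixes the image of
`ψ₁`, commutes with the reduction on `Pic0`. -/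
theorem rho_smul {K : Type*} [Field K] [Algebra K K'] (h : RedOut M ψ₁ ψ₂ A π O red r xO)
    (hG : GoodRed O red r xO)
    (hfin : IsChart A π O red r (finS M ψ₁ O) (finT M ψ₁ A π) (finTt M ψ₂))
    (hinf : IsChart A π O red r (infS M ψ₁ O) (infT M ψ₁ A π) (infTt M ψ₂))
    (hπ0 : ∀ a : A, ¬ IsUnit a → π a = 0)
    (rho : (K' ≃ₐ[K] K') →* SemilinearAut K' F')
    (hrho : ∀ (σ : K' ≃ₐ[K] K') (c : K'), rho σ • algebraMap K' F' c = algebraMap K' F' (σ c))
    {σ : K' ≃ₐ[K] K'} (hσA : ∀ a : K', a ∈ A ↔ σ a ∈ A)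
    (hσ1 : ∀ a : K', a ∈ A → σ a - a ∈ A.nonunits)
    (hψ : ∀ u : U, rho σ • ψ₁ u = ψ₁ u) :
    ∀ a : Pic0 K' F', hG.rho (rho σ • a) = hG.rho a := by
  refine rho_smul_evK hG hfin hinf h.mem_finT_or_mem_infT hπ0 rho hrho hσA hσ1 ?_ ?_
    (hψ M.x) (hψ M.x')
  · rintro f ⟨u, hu⟩
    rw [hu]
    exact hψ (u : U)
  · rintro f ⟨u, hu⟩
    rw [hu]
    exact hψ (u : U)

/-- **The value table of the reduced tuple**: a value `c` of the chart function `ψ₁ u`, `u ∈ B`,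
at a place `P` of the finite chart lies in `A`, and `ψ₂ u` takes the value `π c` at `r P`. -/
theorem val_r_of_val (h : RedOut M ψ₁ ψ₂ A π O red r xO)
    (hfin : IsChart A π O red r (finS M ψ₁ O) (finT M ψ₁ A π) (finTt M ψ₂))
    {P : Place K' F'} (hP : P ∈ finT M ψ₁ A π) (u : M.B) {c : K'}
    (hc : ValAt P (ψ₁ (u : U)) c) :
    ∃ hcA : c ∈ A, ValAt (r P) (ψ₂ (u : U)) (π ⟨c, hcA⟩) := by
  obtain ⟨hO, hredu⟩ := h.compat (u : U)
  have hf : (⟨ψ₁ (u : U), hO⟩ : O) ∈ finS M ψ₁ O := ⟨u, rfl⟩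
  obtain ⟨a, ha, hra⟩ := hfin.exists_eq_of_valAt hP hf hc
  subst ha
  rw [hredu] at hra
  exact ⟨a.2, hra⟩

end Fermat.Agent.S27P.Inst.LiftHypsOut
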