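/-
helper86 — S27 / (INST-E) in the vocabulary of the reduction theorem: `hlift` (LIFT_Ω) of the top
seam from

* a model `M : GR.Model Λ U n` with realisations `hR : Real M K F φ ψ` (generic fibre) and
  `hR₂ : Real M k Ft φ₂ ψ₂` (special fibre);
* constant field extensions `hc : IsConstExt K F Ω FΩ`, `hc2 : IsConstExt k Ft k2 Ft2` with their
  frames `hF`, `hF2` (`BC/FrameOf`);
* the output `h : RedOut M ((algebraMap F FΩ).comp ψ) ((algebraMap Ft Ft2).comp ψ₂) V πV O red r xO`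
  of the reduction theorem at the instance `(Ω, FΩ; V → k2, Ft2)`, with its `GoodRed` and its two
  charts (`Inst/OfIsRed`);
* the valuation ring `V ⊂ Ω` over `A ⊂ K` (row 526: `hkerV`, `hVA`, `hπA`);
* generic coordinates `t` in `V` with algebraically independent residues.

Everything else (`hmem`, `hcov`, rationality of the chart functions, the monomial family
`x^m b_j` as elements of the Gauss ring, its tables of values, the reduced tuple, the residue map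
of the trace of `V` on `K`) is derived here; the statement is `LiftAsm.hlift` with all these
binders filled.
-/
import Mathlib
import Fermat.Agent.S27P.Inst.LiftAsm
import Fermat.Agent.S27P.Inst.OfIsRed
import Fermat.Agent.S27P.Inst.FrameBC

set_option autoImplicit false
set_option linter.unusedSectionVars false

open AlgebraicCurve

noncomputable section

namespace Fermat.Agent.S27P.Inst.LiftOfRedOut

open Fermat.Agent.S27P Fermat.Agent.S27P.Gen Fermat.Agent.S27P.Inj.Centre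
  Fermat.Agent.S27P.Inj.RedPic Fermat.Agent.S27P.BC.BcDiv Fermat.Agent.S27P.Inst.OfIsRed
  Fermat.Agent.Lib.Red.PlaceRed

variable {Λ : Type*} {U : Type*} [CommRing Λ] [CommRing U] [Algebra Λ U] {n : ℕ}
  {K : Type*} {F : Type*} {Ω : Type*} {FΩ : Type*} [Field K] [Field F] [Field Ω] [Field FΩ]
  [Algebra K F] [Algebra K Ω] [Algebra Ω FΩ] [Algebra F FΩ]
  {k : Type*} {Ft : Type*} {k2 : Type*} {Ft2 : Type*} [Field k] [Field Ft] [Field k2] [Field Ft2]
  [Algebra k Ft] [Algebra k k2] [Algebra k2 Ft2] [Algebra Ft Ft2]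
  {M : GR.Model Λ U n} {φ : Λ →+* K} {ψ : U →+* F} {φ₂ : Λ →+* k} {ψ₂ : U →+* Ft}
  {V : ValuationSubring Ω} {πV : V →+* k2} {O : ValuationSubring FΩ} {red : O →+* Ft2}
  {r : Place Ω FΩ → Place k2 Ft2} {xO : Oˣ}

/-! ### The monomial family as elements of the Gauss ring -/

/-- The monomial `x^m b_j` of the model ring, as an element of the Gauss ring `O`. -/
def monoO (h : RedOut M ((algebraMap F FΩ).comp ψ) ((algebraMap Ft Ft2).comp ψ₂) V πV O red r xO)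
    (mj : ℕ × Fin n) : O :=
  ⟨((algebraMap F FΩ).comp ψ) (M.x ^ mj.1 * (M.b mj.2 : U)), (h.compat _).choose⟩

theorem coe_monoO
    (h : RedOut M ((algebraMap F FΩ).comp ψ) ((algebraMap Ft Ft2).comp ψ₂) V πV O red r xO)
    (mj : ℕ × Fin n) : ((monoO h mj : O) : FΩ) = algebraMap F FΩ (FrameBC.mono M ψ mj) := by
  show ((algebraMap F FΩ).comp ψ) (M.x ^ mj.1 * (M.b mj.2 : U)) = _
  rw [RingHom.comp_apply, map_mul, map_pow]
  rfl

theorem red_monoO
    (h : RedOut M ((algebraMap F FΩ).comp ψ) ((algebraMap Ft Ft2).comp ψ₂) V πV O red r xO)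
    (mj : ℕ × Fin n) : red (monoO h mj) = algebraMap Ft Ft2 (FrameBC.mono M ψ₂ mj) := by
  have h1 := (h.compat (M.x ^ mj.1 * (M.b mj.2 : U))).choose_spec
  show red ⟨_, (h.compat _).choose⟩ = _
  rw [h1, RingHom.comp_apply, map_mul, map_pow]
  rfl

theorem monoO_mem_finS
    (h : RedOut M ((algebraMap F FΩ).comp ψ) ((algebraMap Ft Ft2).comp ψ₂) V πV O red r xO)
    (mj : ℕ × Fin n) : monoO h mj ∈ finS M ((algebraMap F FΩ).comp ψ) O :=
  ⟨⟨M.x ^ mj.1 * (M.b mj.2 : U), M.B.mul_mem (M.B.pow_mem M.hx _) (M.b mj.2).2⟩, rfl⟩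

/-! ### A place with finite centre is finite -/

/-- **`hmem`**: a place of `FΩ` whose centre is not a pole of `x̄` lies on the finite chart. -/
theorem mem_finT_of_r_mem
    (h : RedOut M ((algebraMap F FΩ).comp ψ) ((algebraMap Ft Ft2).comp ψ₂) V πV O red r xO)
    (h₂ : IsChart V πV O red r (infS M ((algebraMap F FΩ).comp ψ) O)
      (infT M ((algebraMap F FΩ).comp ψ) V πV) (infTt M ((algebraMap Ft Ft2).comp ψ₂)))
    (hπV : ∀ w : V, (w : Ω) ∈ V.nonunits → πV w = 0) {P : Place Ω FΩ}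
    (hP : r P ∈ finTt M ((algebraMap Ft Ft2).comp ψ₂)) :
    P ∈ finT M ((algebraMap F FΩ).comp ψ) V πV := by
  set u' : O := ⟨((algebraMap F FΩ).comp ψ) M.x', (h.compat M.x').choose⟩ with hu'
  have huu' : (xO : O) * u' = 1 := by
    apply Subtype.ext
    show ((xO : O) : FΩ) * ((algebraMap F FΩ).comp ψ) M.x' = 1
    rw [h.hx₁, ← map_mul, M.hxx', map_one]
  refine LiftAsm.mem_of_centre_mem_of_inv h₂ h.mem_finT_or_mem_infT hπV huu'
    ⟨⟨M.x', M.hx'⟩, rfl⟩ (fun P ⟨c, hc⟩ => mem_finT_of_valAt c (by rw [← h.hx₁]; exact hc))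
    (fun Q hQ => ?_) hP
  rw [h.hx₂]
  exact hQ

/-! ### `hlift` -/

/-- **`hlift` of the top seam (LIFT_Ω) in the vocabulary of the reduction theorem.** -/
theorem hlift [IsAlgClosed Ω] [IsAlgClosed K] [CharZero K] [IsAlgClosed k2] [IsAlgClosed k]
    (hc : BC.IsConstExt K F Ω FΩ) (hc2 : BC.IsConstExt k Ft k2 Ft2)
    (hR : GR.Real M K F φ ψ) (hR₂ : GR.Real M k Ft φ₂ ψ₂)
    (h : RedOut M ((algebraMap F FΩ).comp ψ) ((algebraMap Ft Ft2).comp ψ₂) V πV O red r xO)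
    (hG : GoodRed O red r xO)
    (h₁ : IsChart V πV O red r (finS M ((algebraMap F FΩ).comp ψ) O)
      (finT M ((algebraMap F FΩ).comp ψ) V πV) (finTt M ((algebraMap Ft Ft2).comp ψ₂)))
    (h₂ : IsChart V πV O red r (infS M ((algebraMap F FΩ).comp ψ) O)
      (infT M ((algebraMap F FΩ).comp ψ) V πV) (infTt M ((algebraMap Ft Ft2).comp ψ₂)))
    (hF : Frame (algebraMap F FΩ (ψ M.x)) hc.semilinearAut)
    (hF2 : Frame (algebraMap Ft Ft2 (ψ₂ M.x)) hc2.semilinearAut)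
    (A : ValuationSubring K) (π : A →+* k)
    (hkerV : ∀ v : V, πV v = 0 ↔ v ∈ IsLocalRing.maximalIdeal V)
    (hVA : ∀ a : K, algebraMap K Ω a ∈ V ↔ a ∈ A)
    (hπA : ∀ (a : A) (ha : algebraMap K Ω (a : K) ∈ V),
      πV ⟨_, ha⟩ = algebraMap k k2 (π a))
    {t : Fin (genusFF Ω FΩ) → Ω} (ht : AlgebraicIndependent K t)
    (halg : ∀ y : Ω, IsAlgebraic (IntermediateField.adjoin K (Set.range t)) y)
    (htV : ∀ i, t i ∈ V) (hind : AlgebraicIndependent k (fun i => πV ⟨t i, htV i⟩))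
    {ℓ : ℕ} (hℓ : 0 < ℓ) (htor : {y : Pic0 Ω FΩ | ℓ • y = 0}.Finite)
    {bc : Place K F → Place Ω FΩ} (hb : IsBcPlace bc)
    (hbc : ∀ (σ : Ω ≃ₐ[K] Ω) (v : Place K F), hc.semilinearAut σ • bc v = bc v)
    {XK : Type*} [AddCommGroup XK] (ρK : Pic0 K F →+ XK) (βk : XK →+ Pic0 k2 Ft2)
    (hsq : ∀ c : Pic0 K F, hG.rho (bcPic0 hb c) = βk (ρK c)) :
    ∀ c : Pic0 K F, ρK c = 0 → ∃ a : Pic0 Ω FΩ, ℓ • a = bcPic0 hb c ∧ hG.rho a = 0 := by
  classical
  -- the residue map of `V`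
  have hπV : ∀ w : V, (w : Ω) ∈ V.nonunits → πV w = 0 := fun w hw =>
    (hkerV w).2 (ValuationSubring.coe_mem_nonunits_iff.1 hw)
  have hker : ∀ a : V, πV a = 0 → a ∈ IsLocalRing.maximalIdeal V := fun a ha => (hkerV a).1 ha
  -- the residue map of the trace of `V` on `K`
  have hle : V.comap (algebraMap K Ω) ≤ A := fun a ha => (hVA a).1 (ValuationSubring.mem_comap.1 ha)
  set π₀ : V.comap (algebraMap K Ω) →+* k :=
    π.comp (ValuationSubring.inclusion _ A hle) with hπ₀def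
  have hcomp : ∀ a : V.comap (algebraMap K Ω),
      πV ⟨algebraMap K Ω (a : K), a.2⟩ = algebraMap k k2 (π₀ a) := fun a =>
    hπA ⟨(a : K), hle a.2⟩ a.2
  have hπ₀ : ∀ a : V.comap (algebraMap K Ω), π₀ a = 0 →
      algebraMap K Ω (a : K) ∈ V.nonunits := by
    intro a ha
    have h1 := hcomp a
    rw [ha, map_zero] at h1
    exact ValuationSubring.coe_mem_nonunits_iff.2 (hker _ h1)
  -- the charts
  have hcov := h.mem_finT_or_mem_infT
  have hmem : ∀ P' : Place Ω FΩ, r P' ∈ finTt M ((algebraMap Ft Ft2).comp ψ₂) →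
      P' ∈ finT M ((algebraMap F FΩ).comp ψ) V πV := fun P' hP' =>
    mem_finT_of_r_mem h h₂ hπV hP'
  have hS : ∀ f ∈ finS M ((algebraMap F FΩ).comp ψ) O, ∀ σ : Ω ≃ₐ[K] Ω,
      hc.semilinearAut σ • ((f : O) : FΩ) = ((f : O) : FΩ) := by
    rintro f ⟨u, hfu⟩ σ
    rw [hfu]
    exact hc.semilinearAut_smul_algebraMap σ (ψ (u : U))
  have hS' : ∀ f ∈ infS M ((algebraMap F FΩ).comp ψ) O, ∀ σ : Ω ≃ₐ[K] Ω,
      hc.semilinearAut σ • ((f : O) : FΩ) = ((f : O) : FΩ) := by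
    rintro f ⟨u, hfu⟩ σ
    rw [hfu]
    exact hc.semilinearAut_smul_algebraMap σ (ψ (u : U))
  have hxf : ∀ σ : Ω ≃ₐ[K] Ω, hc.semilinearAut σ • ((algebraMap F FΩ).comp ψ) M.x
      = ((algebraMap F FΩ).comp ψ) M.x := fun σ => hc.semilinearAut_smul_algebraMap σ (ψ M.x)
  have hxf' : ∀ σ : Ω ≃ₐ[K] Ω, hc.semilinearAut σ • ((algebraMap F FΩ).comp ψ) M.x'
      = ((algebraMap F FΩ).comp ψ) M.x' := fun σ => hc.semilinearAut_smul_algebraMap σ (ψ M.x')
  have hT : ∀ P : Place Ω FΩ, P ∈ finT M ((algebraMap F FΩ).comp ψ) V πV ↔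
      ∃ c : V, ValAt P (((algebraMap F FΩ).comp ψ) M.x) (c : Ω) := fun P =>
    ⟨fun ⟨_, a, _, ha⟩ => ⟨a, ha⟩, fun ⟨c, hc⟩ => ⟨πV c, c, rfl, hc⟩⟩
  have hT' : ∀ P : Place Ω FΩ, P ∈ infT M ((algebraMap F FΩ).comp ψ) V πV ↔
      ∃ c : V, ValAt P (((algebraMap F FΩ).comp ψ) M.x') (c : Ω) := fun P =>
    ⟨fun ⟨_, a, _, ha⟩ => ⟨a, ha⟩, fun ⟨c, hc⟩ => ⟨πV c, c, rfl, hc⟩⟩
  -- the generic tuple, on the finite chart, with generic reduction
  choose P hPv using fun i => Gen.Values.exists_place_val hF.ff (t i)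
  have hP : IsGeneric K (algebraMap F FΩ (ψ M.x)) P t := ⟨ht, hPv⟩
  have hPT : ∀ i, P i ∈ finT M ((algebraMap F FΩ).comp ψ) V πV := fun i =>
    mem_finT_of_valAt ⟨t i, htV i⟩ (hPv i)
  have hx : ∀ (Q : Place Ω FΩ) (γ : k2), EvK V πV Q (algebraMap F FΩ (ψ M.x)) γ →
      (r Q).adicValuation (algebraMap Ft Ft2 (ψ₂ M.x) - algebraMap k2 Ft2 γ) < 1 := by
    intro Q γ hγ
    obtain ⟨γ', hγ', hr⟩ := h.ev Q γ hγ ⟨M.x, M.hx⟩
    have : γ' = γ := hγ'.unique hγ
    rw [this] at hr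
    exact hr
  have hPb : IsGeneric k (algebraMap Ft Ft2 (ψ₂ M.x)) (fun i => r (P i))
      (fun i => πV ⟨t i, htV i⟩) :=
    HRed.isGeneric_red V πV hx hPv htV (fun _ => rfl) hind
  -- the monomial family and its tables of values
  have hcoe := coe_monoO h
  have hredf := red_monoO h
  have hex : ∀ i j, ∃ a : V, ValAt (P i) ((monoO h j : O) : FΩ) (a : Ω) := fun i j => by
    obtain ⟨a, ha, -⟩ := h₁.ev (P i) (hPT i) (monoO h j) (monoO_mem_finS h j)
    exact ⟨a, ha⟩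
  choose cV hcV using hex
  set c : Fin (genusFF Ω FΩ) → ℕ × Fin n → Ω := fun i j => (cV i j : Ω) with hcdef
  have hcv : ∀ i j, Val (P i) ((monoO h j : O) : FΩ) (c i j) := fun i j => hcV i j
  have hcv' : ∀ i j, Val (P i) (algebraMap F FΩ (FrameBC.mono M ψ j)) (c i j) := fun i j => by
    rw [← hcoe j]
    exact hcv i j
  have hbrat : ∀ j, IsRat hc.semilinearAut ⊥ ((monoO h j : O) : FΩ) := fun j => by
    rw [hcoe j]
    exact FrameBC.hbrat hc M ψ j
  have hbfrac : ∀ z : FΩ, IsRat hc.semilinearAut ⊥ z → ∃ lam mu : ℕ × Fin n →₀ K,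
      (mu.sum fun j a => algebraMap Ω FΩ (algebraMap K Ω a) * ((monoO h j : O) : FΩ)) ≠ 0 ∧
      z * (mu.sum fun j a => algebraMap Ω FΩ (algebraMap K Ω a) * ((monoO h j : O) : FΩ)) =
        lam.sum fun j a => algebraMap Ω FΩ (algebraMap K Ω a) * ((monoO h j : O) : FΩ) := by
    simp only [hcoe]
    exact FrameBC.hbfrac hc hR
  have hbrat2 : ∀ j, IsRat hc2.semilinearAut ⊥ (red (monoO h j)) := fun j => by
    rw [hredf j]
    exact FrameBC.hbrat hc2 M ψ₂ j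
  have hbind2 : ∀ lam : ℕ × Fin n →₀ k,
      (lam.sum fun j a => algebraMap k2 Ft2 (algebraMap k k2 a) * red (monoO h j)) = 0 →
        lam = 0 := by
    simp only [hredf]
    exact FrameBC.hbind hc2 hR₂
  exact LiftAsm.hlift hF hG h₁ h₂ hcov hmem hπV hker hS hS' hxf hxf' hT hT' π₀ hπ₀ hcomp hF2 hP
    halg hPT hPb (monoO h) (monoO_mem_finS h) hbrat hbfrac c hcv
    (fun i => FrameBC.hc1 hc hR (hcv' i)) (fun i => FrameBC.hcmul hc hR (hcv' i))
    (fun i => FrameBC.hct hc hR (hcv' i) (hPv i)) hbrat2 hbind2 hℓ htor hb hbc ρK βk hsq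

end Fermat.Agent.S27P.Inst.LiftOfRedOut
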