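/-
S27 / (INST-F), twin seat (helper64): the top assembly.

* `exists_redOut`      : `GR.exists_isRed` packaged as `OfIsRed.RedOut`;
* `hlift_of_redOut`    : `hlift` of the top seam from the `RedOut` of the `Ω`-instance and a
  tuple of embeddings `F →ₐ[K] Ω` with algebraically independent `x`-values in the valuation ring;
* `card_torsion`       : the count for `IsFF1 K F x₀`;
* `card_torsion_pow`   : the frozen statement of S27.
-/
import Mathlib
import Fermat.Agent.S27P.Adapter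
import Fermat.Agent.S27P.GR.Fibre
import Fermat.Agent.S27P.GR.Real
import Fermat.Agent.S27P.GR.MainClosed56
import Fermat.Agent.S27P.GR.SpreadBTop
import Fermat.Agent.S27P.Zeta.AnchorAt
import Fermat.Agent.S27P.Inst.Places
import Fermat.Agent.S27P.Inst.ValOmega
import Fermat.Agent.S27P.Inst.Omega
import Fermat.Agent.S27P.Inst.OfIsRed
import Fermat.Agent.S27P.Inst.SquaresOut90
import Fermat.Agent.S27P.Inst.FrameBC
import Fermat.Agent.S27P.Inst.Lift
import Fermat.Agent.S27P.Inst.LiftAsm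
import Fermat.Agent.S27P.BC.Main
import Fermat.Agent.S27P.BC.ConstExt
import Fermat.Agent.S27P.BC.RealBC
import Fermat.Agent.S27P.BC.FrameOf
import Fermat.Agent.S27P.BC.Generic
import Fermat.Agent.S27P.Inj.RedPic
import Fermat.Agent.S27P.Inj.Centre
import Fermat.Agent.S27P.Top

set_option autoImplicit false

noncomputable section

namespace Fermat.Agent.S27P.Inst.Main64

open Polynomial AlgebraicCurve IntermediateField
open Fermat.Agent.Lib.FF Fermat.Agent.Lib.Red Fermat.Agent.Lib.Red.PlaceRed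
open Fermat.Agent.S27P.GR Fermat.Agent.S27P Fermat.Agent.S27P.BC
open Fermat.Agent.S27P.Inj.RedPic Fermat.Agent.S27P.Inj.Centre Fermat.Agent.S27P.Inst.OfIsRed
open Fermat.Agent.S27P.Inst

/-! ### Generalities -/

/-- `m` is invertible in a field of characteristic `p ∤ m` (any extension of the constants). -/
theorem natCast_ne_zero_of_charP {k Ft : Type*} [Field k] [Field Ft] [Algebra k Ft] (p : ℕ)
    [CharP k p] {m : ℕ} (hm : ¬ p ∣ m) : (m : Ft) ≠ 0 := by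
  have : CharP Ft p := (RingHom.charP_iff (algebraMap k Ft) (algebraMap k Ft).injective p).mp
    inferInstance
  rw [Ne, CharP.cast_eq_zero_iff Ft p]
  exact hm

/-- **`GR.exists_isRed` packaged as a `RedOut`.** -/
theorem exists_redOut {Λ U : Type*} [CommRing Λ] [CommRing U] [Algebra Λ U] {n : ℕ}
    (M : Model Λ U n) {K' F' k Ft : Type*} [Field K'] [Field F'] [Algebra K' F'] [Field k]
    [Field Ft] [Algebra k Ft] [IsAlgClosed K'] [IsAlgClosed k] {φ₁ : Λ →+* K'} {ψ₁ : U →+* F'}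
    (h₁ : Real M K' F' φ₁ ψ₁) {φ₂ : Λ →+* k} {ψ₂ : U →+* Ft} (h₂ : Real M k Ft φ₂ ψ₂)
    (hφ₁ : Function.Injective φ₁) (A : ValuationSubring K') (π : A →+* k)
    (hπ : Function.Surjective π) (hπ0 : ∀ a : A, ¬ IsUnit a → π a = 0)
    (hφ : ∀ a : Λ, ∃ h : φ₁ a ∈ A, π ⟨φ₁ a, h⟩ = φ₂ a) :
    ∃ (O : ValuationSubring F') (red : O →+* Ft) (r : Place K' F' → Place k Ft) (xO : Oˣ),
      RedOut M ψ₁ ψ₂ A π O red r xO := by
  obtain ⟨O, red, r, xO, h1, h2, h3, h4, h5, h6, h7, h8, h9, h10, h11, h12⟩ :=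
    MainClosed56.exists_isRed M h₁ h₂ hφ₁ A π hπ hπ0 hφ
  exact ⟨O, red, r, xO, ⟨h1, h2, h3, h4, h5, h6, h7, h8, h9, h10, h11, h12⟩⟩

/-- Uniqueness of `EvK`-values. -/
theorem evK_unique {L F k : Type*} [Field L] [Field F] [Algebra L F] [Field k]
    {A : ValuationSubring L} {π : A →+* k} {P : Place L F} {f : F} {γ γ' : k}
    (h : EvK A π P f γ) (h' : EvK A π P f γ') : γ = γ' := by
  obtain ⟨a, rfl, ha⟩ := h
  obtain ⟨a', rfl, ha'⟩ := h'
  have h1 : ValAt P f (a : L) := ha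
  have h2 : ValAt P f (a' : L) := ha'
  have h3 : (a : L) = (a' : L) := h1.unique h2
  rw [Subtype.ext h3]

/-! ### `hlift` of the top seam, in `RedOut` vocabulary -/

section Lift

variable {K : Type*} {F : Type*} {Ω : Type*} {FΩ : Type*} [Field K] [Field F] [Field Ω]
  [Field FΩ] [Algebra K F] [Algebra K Ω] [Algebra Ω FΩ] [Algebra F FΩ]
  {k : Type*} {Ft : Type*} {k2 : Type*} {Ft2 : Type*} [Field k] [Field Ft] [Field k2] [Field Ft2]
  [Algebra k Ft] [Algebra k k2] [Algebra k2 Ft2] [Algebra Ft Ft2]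
  {Λ U : Type*} [CommRing Λ] [CommRing U] [Algebra Λ U] {n : ℕ} {M : Model Λ U n}

/-- **`hlift` of the top seam** from the reduction datum of the `Ω`-instance (a `RedOut` of the
base-changed realisations along a valuation ring `V` of `Ω` above `A`) and a tuple of embeddings
`ι i : F →ₐ[K] Ω` whose `x`-values `t i` are algebraically independent, lie in `V` and have
algebraically independent residues. -/
theorem hlift_of_redOut [IsAlgClosed K] [CharZero K] [IsAlgClosed Ω] [IsAlgClosed k]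
    [IsAlgClosed k2]
    {φ : Λ →+* K} {ψ : U →+* F} (hR : Real M K F φ ψ)
    {φ₂ : Λ →+* k} {ψ₂ : U →+* Ft} (hR₂ : Real M k Ft φ₂ ψ₂)
    (hce : IsConstExt K F Ω FΩ) (hce2 : IsConstExt k Ft k2 Ft2)
    (htr : Algebra.trdeg K Ω < Cardinal.aleph0) (htr2 : Algebra.trdeg k k2 < Cardinal.aleph0)
    {A : ValuationSubring K} {π : A →+* k}
    (hπker : ∀ a : A, π a = 0 → a ∈ IsLocalRing.maximalIdeal A)
    {V : ValuationSubring Ω} {πV : V →+* k2}
    (hkerV : ∀ v : V, πV v = 0 ↔ v ∈ IsLocalRing.maximalIdeal V)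
    (hVA : ∀ a : K, algebraMap K Ω a ∈ V ↔ a ∈ A)
    (hπVA : ∀ (a : A) (ha : algebraMap K Ω (a : K) ∈ V),
      πV ⟨algebraMap K Ω (a : K), ha⟩ = algebraMap k k2 (π a))
    {O : ValuationSubring FΩ} {red : O →+* Ft2} {r : Place Ω FΩ → Place k2 Ft2} {xO : Oˣ}
    (hΩ : RedOut M ((algebraMap F FΩ).comp ψ) ((algebraMap Ft Ft2).comp ψ₂) V πV O red r xO)
    (hG : GoodRed O red r xO)
    (t : Fin (genusFF Ω FΩ) → Ω) (ht : AlgebraicIndependent K t)
    (halg : ∀ y : Ω, IsAlgebraic (IntermediateField.adjoin K (Set.range t)) y)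
    (htV : ∀ i, t i ∈ V) (tb : Fin (genusFF Ω FΩ) → k2) (htb : ∀ i, πV ⟨t i, htV i⟩ = tb i)
    (hind : AlgebraicIndependent k tb)
    (ι : Fin (genusFF Ω FΩ) → F →ₐ[K] Ω) (hι : ∀ i, ι i (ψ M.x) = t i)
    {ℓ : ℕ} (hℓ : 0 < ℓ) (htor : {y : Pic0 Ω FΩ | ℓ • y = 0}.Finite)
    (hres : ∀ v : Place K F, RR.ResK v)
    {XK : Type*} [AddCommGroup XK] (ρK : Pic0 K F →+ XK) (βk : XK →+ Pic0 k2 Ft2)
    (hsq : ∀ c : Pic0 K F, hG.rho (BcGauss.bcPic hce hres c) = βk (ρK c)) :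
    ∀ c : Pic0 K F, ρK c = 0 →
      ∃ a : Pic0 Ω FΩ, ℓ • a = BcGauss.bcPic hce hres c ∧ hG.rho a = 0 := by
  -- the function fields and the frames
  have hFx : IsFF1 K F (ψ M.x) := Real.isFF1 hR
  have hFx₂ : IsFF1 k Ft (ψ₂ M.x) := Real.isFF1 hR₂
  have hR₂' := RealBC.real_baseChange M hce2 hR₂
  have hF : Gen.Frame (K := K) (algebraMap F FΩ (ψ M.x)) hce.semilinearAut := by
    obtain ⟨v, -⟩ := hFx.exists_pole
    exact FrameOf.frame_of_isConstExt hce hFx htr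
      ⟨v, BcGauss.bcPlace hce hres v, BcGauss.ord_bcPlace hce hres v⟩
  have hF2 : Gen.Frame (K := k) (algebraMap Ft Ft2 (ψ₂ M.x)) hce2.semilinearAut := by
    obtain ⟨v, -⟩ := hFx₂.exists_pole
    exact FrameOf.frame_of_isConstExt hce2 hFx₂ htr2
      ⟨v, BcGauss.bcPlace hce2 hFx₂.resK v, BcGauss.ord_bcPlace hce2 hFx₂.resK v⟩
  -- the two charts
  have h₁ := hΩ.isChart_fin (Real.chart hR₂')
  have h₂ := hΩ.isChart_inf (Real.chart' hR₂')
  have hcov := hΩ.mem_finT_or_mem_infT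
  have hπV : ∀ w : V, (w : Ω) ∈ V.nonunits → πV w = 0 := fun w hw =>
    (hkerV w).2 (ValuationSubring.coe_mem_nonunits_iff.1 hw)
  have hker : ∀ a : V, πV a = 0 → a ∈ IsLocalRing.maximalIdeal V := fun a ha => (hkerV a).1 ha
  have hxO' : (((xO⁻¹ : Oˣ) : O) : FΩ) = (algebraMap F FΩ).comp ψ M.x' := by
    have h0 : (xO : O) * ((xO⁻¹ : Oˣ) : O) = 1 := xO.mul_inv
    have h1 : ((xO : O) : FΩ) * (((xO⁻¹ : Oˣ) : O) : FΩ) = 1 :=
      congrArg (fun y : O => (y : FΩ)) h0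
    rw [hΩ.hx₁] at h1
    rw [map_x'_eq_inv]
    exact eq_inv_of_mul_eq_one_right h1
  have hmem : ∀ P' : Place Ω FΩ, r P' ∈ finTt M ((algebraMap Ft Ft2).comp ψ₂) →
      P' ∈ finT M ((algebraMap F FΩ).comp ψ) V πV := by
    intro P' hP'
    refine LiftAsm.mem_of_centre_mem_of_inv h₂ hcov hπV (u := (xO : O))
      (u' := ((xO⁻¹ : Oˣ) : O)) xO.mul_inv ?_ ?_ ?_ hP'
    · exact ⟨⟨M.x', M.hx'⟩, hxO'⟩
    · rintro P ⟨c, hc⟩
      rw [hΩ.hx₁] at hc
      exact mem_finT_of_valAt c hc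
    · intro Q hQ
      rw [hΩ.hx₂]
      exact hQ
  have hS : ∀ f ∈ finS M ((algebraMap F FΩ).comp ψ) O, ∀ σ : Ω ≃ₐ[K] Ω,
      hce.semilinearAut σ • ((f : O) : FΩ) = ((f : O) : FΩ) := by
    rintro f ⟨u, hu⟩ σ
    rw [hu]
    exact hce.semilinearAut_smul_algebraMap σ (ψ u)
  have hS' : ∀ f ∈ infS M ((algebraMap F FΩ).comp ψ) O, ∀ σ : Ω ≃ₐ[K] Ω,
      hce.semilinearAut σ • ((f : O) : FΩ) = ((f : O) : FΩ) := by
    rintro f ⟨u, hu⟩ σ
    rw [hu]
    exact hce.semilinearAut_smul_algebraMap σ (ψ u)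
  have hT : ∀ P : Place Ω FΩ, P ∈ finT M ((algebraMap F FΩ).comp ψ) V πV ↔
      ∃ c : V, ValAt P ((algebraMap F FΩ).comp ψ M.x) (c : Ω) :=
    fun P => ⟨fun ⟨_, a, _, ha⟩ => ⟨a, ha⟩, fun ⟨c, hc⟩ => ⟨πV c, c, rfl, hc⟩⟩
  have hT' : ∀ P : Place Ω FΩ, P ∈ infT M ((algebraMap F FΩ).comp ψ) V πV ↔
      ∃ c : V, ValAt P ((algebraMap F FΩ).comp ψ M.x') (c : Ω) :=
    fun P => ⟨fun ⟨_, a, _, ha⟩ => ⟨a, ha⟩, fun ⟨c, hc⟩ => ⟨πV c, c, rfl, hc⟩⟩
  -- the residue map of `V ∩ K = A`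
  let j₀ : V.comap (algebraMap K Ω) →+* A :=
    ((V.comap (algebraMap K Ω)).subtype).codRestrict A.toSubring (fun a => (hVA a).1 a.2)
  have hπ₀ : ∀ a : V.comap (algebraMap K Ω), (π.comp j₀) a = 0 →
      algebraMap K Ω (a : K) ∈ V.nonunits := by
    intro a ha
    have h1 := Places.incl_mem_maximalIdeal A V hVA (j₀ a) (hπker _ ha)
    exact ValuationSubring.coe_mem_nonunits_iff.2 h1
  have hcomp : ∀ a : V.comap (algebraMap K Ω),
      πV ⟨algebraMap K Ω (a : K), a.2⟩ = algebraMap k k2 ((π.comp j₀) a) :=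
    fun a => hπVA (j₀ a) a.2
  -- the generic tuple
  obtain ⟨P, hPval⟩ : ∃ P : Fin (genusFF Ω FΩ) → Place Ω FΩ,
      ∀ i (y : F), Gen.Val (P i) (algebraMap F FΩ y) (ι i y) :=
    ⟨fun i => Generic.genPlace hce hFx (ι i), fun i y => Generic.val_genPlace hce hFx (ι i) y⟩
  have hP : Gen.IsGeneric K (algebraMap F FΩ (ψ M.x)) P t :=
    ⟨ht, fun i => by have := hPval i (ψ M.x); rwa [hι] at this⟩
  have hPT : ∀ i, P i ∈ finT M ((algebraMap F FΩ).comp ψ) V πV := fun i =>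
    mem_finT_of_valAt ⟨t i, htV i⟩ (hP.2 i)
  have hPb : Gen.IsGeneric k (algebraMap Ft Ft2 (ψ₂ M.x)) (fun i => r (P i)) tb := by
    refine HRed.isGeneric_red V πV ?_ hP.2 htV htb hind
    intro P' γ hγ
    obtain ⟨γ', hγ', hr⟩ := hΩ.ev P' γ hγ ⟨M.x, M.hx⟩
    rw [evK_unique hγ hγ']
    exact hr
  -- the chart functions
  obtain ⟨f, hfj, hredj, hf⟩ : ∃ f : ℕ × Fin n → O,
      (∀ j, ((f j : O) : FΩ) = algebraMap F FΩ (FrameBC.mono M ψ j)) ∧
      (∀ j, red (f j) = algebraMap Ft Ft2 (FrameBC.mono M ψ₂ j)) ∧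
      ∀ j, f j ∈ finS M ((algebraMap F FΩ).comp ψ) O := by
    have huj : ∀ j : ℕ × Fin n, M.x ^ j.1 * (M.b j.2 : U) ∈ M.B := fun j =>
      M.B.mul_mem (M.B.pow_mem M.hx _) (M.b j.2).2
    refine ⟨fun j => ⟨(algebraMap F FΩ).comp ψ (M.x ^ j.1 * (M.b j.2 : U)),
      (hΩ.compat (M.x ^ j.1 * (M.b j.2 : U))).1⟩, fun j => ?_, fun j => ?_, fun j => ?_⟩
    · show (algebraMap F FΩ) (ψ (M.x ^ j.1 * (M.b j.2 : U))) = _
      rw [map_mul, map_pow]
      rfl
    · rw [(hΩ.compat (M.x ^ j.1 * (M.b j.2 : U))).2]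
      show (algebraMap Ft Ft2) (ψ₂ (M.x ^ j.1 * (M.b j.2 : U))) = _
      rw [map_mul, map_pow]
      rfl
    · exact ⟨⟨_, huj j⟩, rfl⟩
  have hc' : ∀ i j, Gen.Val (P i) (algebraMap F FΩ (FrameBC.mono M ψ j))
      (ι i (FrameBC.mono M ψ j)) := fun i j => hPval i _
  have hc : ∀ i j, Gen.Val (P i) ((f j : O) : FΩ) (ι i (FrameBC.mono M ψ j)) := fun i j => by
    rw [hfj]
    exact hc' i j
  have hbrat : ∀ j, Gen.IsRat hce.semilinearAut ⊥ ((f j : O) : FΩ) := fun j => by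
    rw [hfj]
    exact FrameBC.hbrat hce M ψ j
  have hbfrac : ∀ z : FΩ, Gen.IsRat hce.semilinearAut ⊥ z → ∃ lam mu : ℕ × Fin n →₀ K,
      (mu.sum fun j a => algebraMap Ω FΩ (algebraMap K Ω a) * ((f j : O) : FΩ)) ≠ 0 ∧
      z * (mu.sum fun j a => algebraMap Ω FΩ (algebraMap K Ω a) * ((f j : O) : FΩ)) =
        lam.sum fun j a => algebraMap Ω FΩ (algebraMap K Ω a) * ((f j : O) : FΩ) := by
    simp only [hfj]
    exact FrameBC.hbfrac hce hR
  have hbrat2 : ∀ j, Gen.IsRat hce2.semilinearAut ⊥ (red (f j)) := fun j => by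
    rw [hredj]
    exact FrameBC.hbrat hce2 M ψ₂ j
  have hbind2 : ∀ lam : ℕ × Fin n →₀ k,
      (lam.sum fun j a => algebraMap k2 Ft2 (algebraMap k k2 a) * red (f j)) = 0 → lam = 0 := by
    simp only [hredj]
    exact FrameBC.hbind hce2 hR₂
  exact LiftAsm.hlift hF hG h₁ h₂ hcov hmem hπV hker hS hS'
    (fun σ => hce.semilinearAut_smul_algebraMap σ (ψ M.x))
    (fun σ => hce.semilinearAut_smul_algebraMap σ (ψ M.x')) hT hT' (π.comp j₀) hπ₀ hcomp hF2
    hP halg hPT hPb f hf hbrat hbfrac (fun i j => ι i (FrameBC.mono M ψ j)) hc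
    (fun i => FrameBC.hc1 hce hR (hc' i)) (fun i => FrameBC.hcmul hce hR (hc' i))
    (fun i => FrameBC.hct hce hR (hc' i) (hP.2 i)) hbrat2 hbind2 hℓ htor
    (BcGauss.isBcPlace hce hres) (BcGauss.semilinearAut_smul_bcPlace hce hres) ρK βk hsq

end Lift

/-! ### The count -/

universe u v

/-- **S27 for `IsFF1 K F x₀`**: the `ℓ^m`-torsion of `Pic0 K F` has `ℓ ^ (2 g m)` elements. -/
theorem card_torsion {K : Type u} {F : Type v} [Field K] [Field F] [Algebra K F]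
    [IsAlgClosed K] [CharZero K] {x₀ : F} (h₀ : IsFF1 K F x₀) (ℓ : ℕ) [Fact ℓ.Prime] (m : ℕ) :
    Nat.card (Pic0.torsion K F (ℓ ^ m)) = ℓ ^ (2 * genusFF K F * m) := by
  have hℓ : ℓ.Prime := Fact.out
  -- Stage 1: the model
  obtain ⟨n, Λ, _, U, _, _, M, φ, ψ, hR, hφinj, -, ⟨s, hs⟩, hFx, -⟩ :=
    SpreadBTop.exists_model h₀ ∅
  have := hFx.finiteDimensional
  have hres : ∀ v : Place K F, RR.ResK v := hFx.resK
  -- Stage 2: the mixed place of `K`
  obtain ⟨p, A, φ₂, hp, hpℓ, hchar, hclosed, halgk, hπ, hπ0, hφ⟩ :=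
    Places.exists_place_mixed φ s hs ℓ hℓ.ne_zero
  have := hclosed
  have := hchar
  have hne : ℓ ≠ p := by
    rintro rfl
    exact hpℓ dvd_rfl
  -- Stage 3: the special fibre
  obtain ⟨Ft, _, _, ψ₂, hR₂, -, -⟩ := Model.exists_real M φ₂
  have hℓFt : (ℓ : Ft) ≠ 0 := natCast_ne_zero_of_charP (k := IsLocalRing.ResidueField A) p hpℓ
  have hℓF : (ℓ : F) ≠ 0 := by
    have : CharZero F := charZero_of_injective_algebraMap (algebraMap K F).injective
    exact Nat.cast_ne_zero.2 hℓ.ne_zero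
  -- Stage 4: the reduction `(K, F) → (k, Ft)`
  obtain ⟨O, red, r, xO, hK⟩ :=
    exists_redOut M hR hR₂ hφinj A (IsLocalRing.residue A) hπ hπ0 hφ
  have hGK : GoodRed O red r xO := hK.goodRed (Real.exists_bad_set hR₂)
  have hresk : ∀ v : Place (IsLocalRing.ResidueField A) Ft, RR.ResK v := hK.ff₂.resK
  have hanchor := (Zeta.AnchorAt.anchorProp_iff _ _ _).1
    (Zeta.AnchorAt.anchor_residueField A hp hchar hclosed halgk ℓ hne Ft hK.ff₂)
  -- Stage 5: the universal domain and the constant field extension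
  have hce : IsConstExt K F (Omega K (genusFF K F))
      (ConstExt.Model K F (Omega K (genusFF K F))) := ConstExt.isConstExt K F _
  have hRΩ := RealBC.real_baseChange M hce hR
  have hgΩ : genusFF (Omega K (genusFF K F)) (ConstExt.Model K F (Omega K (genusFF K F))) =
      genusFF K F := BC.Main.genusFF_eq hce hFx
  -- Stage 6: the constant instance `(Ω, FΩ) → (K, F)`
  obtain ⟨A0, π0, hπ0surj, hπ00, -, h0⟩ :=
    Places.exists_place_const (K := K) (Ω := Omega K (genusFF K F))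
  obtain ⟨O0, red0, r0, xO0, h0R⟩ := exists_redOut M hRΩ hR
    ((algebraMap K (Omega K (genusFF K F))).injective.comp hφinj) A0 π0 hπ0surj hπ00
    (Places.hφ_const A0 π0 h0 φ)
  have hG0 : GoodRed O0 red0 r0 xO0 := h0R.goodRed (Real.exists_bad_set hR)
  -- Stage 7: the mixed instance `(Ω, FΩ) → (k2, Ft2)`
  obtain ⟨V, πV, hπVsurj, hkerV, hVA, hπVA, htV⟩ := exists_valuation_omega A
    (IsLocalRing.residue A) hπ (fun a => IsLocalRing.residue_eq_zero_iff a) (genusFF K F)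
  have hce2 : IsConstExt (IsLocalRing.ResidueField A) Ft
      (Omega (IsLocalRing.ResidueField A) (genusFF K F))
      (ConstExt.Model (IsLocalRing.ResidueField A) Ft
        (Omega (IsLocalRing.ResidueField A) (genusFF K F))) := ConstExt.isConstExt _ _ _
  have hR₂' := RealBC.real_baseChange M hce2 hR₂
  have hφΩ : ∀ a : Λ, ∃ h : ((algebraMap K (Omega K (genusFF K F))).comp φ) a ∈ V,
      πV ⟨_, h⟩ = ((algebraMap (IsLocalRing.ResidueField A)
        (Omega (IsLocalRing.ResidueField A) (genusFF K F))).comp φ₂) a := by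
    intro a
    obtain ⟨ha, hpa⟩ := hφ a
    have hmem : algebraMap K (Omega K (genusFF K F)) (φ a) ∈ V := (hVA _).2 ha
    refine ⟨hmem, ?_⟩
    have := hπVA ⟨φ a, ha⟩ hmem
    rw [hpa] at this
    exact this
  obtain ⟨OΩ, redΩ, rΩ, xOΩ, hΩ⟩ := exists_redOut M hRΩ hR₂'
    ((algebraMap K (Omega K (genusFF K F))).injective.comp hφinj) V πV hπVsurj
    (fun a ha => (hkerV a).2 ((IsLocalRing.mem_maximalIdeal a).2 ha)) hφΩ
  have hGΩ : GoodRed OΩ redΩ rΩ xOΩ := hΩ.goodRed (Real.exists_bad_set hR₂')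
  -- the seam hypotheses
  have hρK_inj : ∀ c : Pic0 K F, (∃ n : ℕ, ℓ ^ n • c = 0) → hGK.rho c = 0 → c = 0 :=
    fun c hc h0 => LiftHyp.rho_inj_pow hGK hℓFt c hc h0
  have hρ0_inj : ∀ a : Pic0 (Omega K (genusFF K F)) (ConstExt.Model K F (Omega K (genusFF K F))),
      ℓ • a = 0 → hG0.rho a = 0 → a = 0 :=
    fun a ha h0 => LiftHyp.rho_inj_nsmul hG0 hℓF a ha h0
  have hρ0β : ∀ c : Pic0 K F, hG0.rho (BcGauss.bcPic hce hres c) = c :=
    SquaresOut90.rho_retract_bcPic hce hres hG0 h0R (Real.chart hR) (Real.chart' hR)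
      (fun _ => rfl) φ hR.compat h0
  have hsq : ∀ c : Pic0 K F,
      hGΩ.rho (BcGauss.bcPic hce hres c) = BcGauss.bcPic hce2 hresk (hGK.rho c) :=
    SquaresOut90.rho_comm_bcPic hce hce2 hres hresk hGK hGΩ hK hΩ (Real.chart hR₂)
      (Real.chart' hR₂) (Real.chart hR₂') (Real.chart' hR₂') (fun _ => rfl) (fun _ => rfl)
      (fun a => (hVA _).2 a.2) hπVA
  have htor : {y : Pic0 (Omega K (genusFF K F)) (ConstExt.Model K F (Omega K (genusFF K F))) |
      ℓ • y = 0}.Finite :=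
    LiftHyp.htor hG0.rho hGK.rho ℓ hρ0_inj hρK_inj hanchor.1
  -- the generic tuple
  have hcast : Function.Bijective (Fin.cast hgΩ) :=
    ⟨Fin.cast_injective hgΩ, fun i => ⟨Fin.cast hgΩ.symm i, by simp⟩⟩
  have ht : AlgebraicIndependent K (tcoord K (genusFF K F) ∘ Fin.cast hgΩ) :=
    (algebraicIndependent_tcoord K (genusFF K F)).comp _ hcast.1
  have hind : AlgebraicIndependent (IsLocalRing.ResidueField A)
      (tcoord (IsLocalRing.ResidueField A) (genusFF K F) ∘ Fin.cast hgΩ) :=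
    (algebraicIndependent_tcoord _ (genusFF K F)).comp _ hcast.1
  have halg : ∀ y : Omega K (genusFF K F), IsAlgebraic
      (IntermediateField.adjoin K (Set.range (tcoord K (genusFF K F) ∘ Fin.cast hgΩ))) y := by
    rw [hcast.2.range_comp]
    exact isAlgebraic_adjoin_tcoord K (genusFF K F)
  choose ι hι using fun i : Fin (genusFF (Omega K (genusFF K F))
      (ConstExt.Model K F (Omega K (genusFF K F)))) =>
    exists_embedding K (genusFF K F) (ψ M.x) hFx.transcendental (Fin.cast hgΩ i)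
  -- the frame (for `hdiv`)
  have hF : Gen.Frame (K := K) (algebraMap F (ConstExt.Model K F (Omega K (genusFF K F))) (ψ M.x))
      hce.semilinearAut := by
    obtain ⟨v, -⟩ := hFx.exists_pole
    exact FrameOf.frame_of_isConstExt hce hFx (trdeg_lt K (genusFF K F))
      ⟨v, BcGauss.bcPlace hce hres v, BcGauss.ord_bcPlace hce hres v⟩
  have hdiv : ∀ c : Pic0 K F, ∃ a : Pic0 (Omega K (genusFF K F))
      (ConstExt.Model K F (Omega K (genusFF K F))), ℓ • a = BcGauss.bcPic hce hres c :=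
    fun c => Lift.hdiv hF ⟨_, ht⟩ hℓ.pos htor (BcGauss.isBcPlace hce hres)
      (BcGauss.semilinearAut_smul_bcPlace hce hres) c
  have hlift := hlift_of_redOut hR hR₂ hce hce2 (trdeg_lt K (genusFF K F))
    (trdeg_lt (IsLocalRing.ResidueField A) (genusFF K F))
    (fun a ha => (IsLocalRing.residue_eq_zero_iff a).1 ha) hkerV hVA hπVA hΩ hGΩ
    (tcoord K (genusFF K F) ∘ Fin.cast hgΩ) ht halg (fun i => (htV (Fin.cast hgΩ i)).1)
    (tcoord (IsLocalRing.ResidueField A) (genusFF K F) ∘ Fin.cast hgΩ)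
    (fun i => (htV (Fin.cast hgΩ i)).2) hind ι hι hℓ.pos htor hres hGK.rho
    (BcGauss.bcPic hce2 hresk) hsq
  exact Seam.card_torsion_of_seam ℓ hanchor hK.genus.symm hGK.rho (BcGauss.bcPic hce hres)
    hG0.rho hGΩ.rho (BcGauss.bcPic hce2 hresk) hρK_inj hGK.rho_surjective hρ0β hρ0_inj
    (BC.Main.bcPic_injective hce2 hK.ff₂ hresk) hsq hdiv hlift m

/-- **The frozen statement of S27.** -/
theorem card_torsion_pow (K F : Type*) [Field K] [Field F] [Algebra K F] [IsAlgClosed K]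
    [CharZero K] [IsCurveOver K F] [Algebra.EssFiniteType K F] (ℓ : ℕ) [Fact ℓ.Prime] (k : ℕ) :
    Nat.card (Pic0.torsion K F (ℓ ^ k)) = ℓ ^ (2 * genusFF K F * k) := by
  obtain ⟨x, hx⟩ := Adapter.exists_isFF1 K F
  exact card_torsion hx ℓ k

end Fermat.Agent.S27P.Inst.Main64
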