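/-
S27 / (INST-F), independent assembly (helper90): the count of the `ℓ^m`-torsion of `Pic0 K F`
for a function field of one variable over an algebraically closed field of characteristic zero.

* `card_torsion_of_data` : the top seam `Seam.card_torsion_of_seam` with every hypothesis
  discharged from: a model `M` with realisations over `(K, F)` and `(k, Ft)`, a valuation ring
  `A ⊂ K` with residue map onto `k` (`k` algebraic over a prime field of characteristic `p ≠ ℓ`),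
  two constant field extensions `(Ω, FΩ)`, `(k2, Ft2)` and a valuation ring `V ⊂ Ω` above `A`
  with residue map onto `k2` and a generic tuple of coordinates;
* `card_torsion` : the statement for `IsFF1 K F x₀`, at the universal domains `Inst.Omega`.
-/
import Mathlib
import Fermat.Agent.S27P.Top
import Fermat.Agent.S27P.Zeta.Anchor
import Fermat.Agent.S27P.GR.SpreadBTop
import Fermat.Agent.S27P.GR.Fibre
import Fermat.Agent.S27P.GR.MainClosed56
import Fermat.Agent.S27P.GR.Real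
import Fermat.Agent.S27P.BC.ConstExt
import Fermat.Agent.S27P.BC.RealBC
import Fermat.Agent.S27P.BC.BcGauss
import Fermat.Agent.S27P.BC.BcMain
import Fermat.Agent.S27P.BC.FrameOf
import Fermat.Agent.S27P.Inst.Omega
import Fermat.Agent.S27P.Inst.Places
import Fermat.Agent.S27P.Inst.ValOmega
import Fermat.Agent.S27P.Inst.OfIsRed
import Fermat.Agent.S27P.Inst.SquaresOut90
import Fermat.Agent.S27P.Inst.Const90
import Fermat.Agent.S27P.Inst.LiftHyp
import Fermat.Agent.S27P.Inst.Lift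
import Fermat.Agent.S27P.Inst.LiftOfRedOut

set_option autoImplicit false
set_option linter.unusedSectionVars false
set_option linter.unusedVariables false

noncomputable section

namespace Fermat.Agent.S27P.Inst.Main90

open Polynomial AlgebraicCurve
open Fermat.Agent.Lib.FF Fermat.Agent.Lib.Red.OneStep Fermat.Agent.Lib.Red.PlaceRed
open Fermat.Agent.S27P Fermat.Agent.S27P.GR Fermat.Agent.S27P.Inj.RedPic
  Fermat.Agent.S27P.Inj.Centre Fermat.Agent.S27P.BC Fermat.Agent.S27P.BC.BcDiv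
  Fermat.Agent.S27P.Inst.OfIsRed Fermat.Agent.S27P.Gen

/-- **The top seam with every hypothesis discharged**, for abstract universal domains. -/
theorem card_torsion_of_data
    {Λ : Type*} {U : Type*} [CommRing Λ] [CommRing U] [Algebra Λ U] {n : ℕ} (M : Model Λ U n)
    {K F k Ft Ω FΩ k2 Ft2 : Type*}
    [Field K] [Field F] [Algebra K F] [Field k] [Field Ft] [Algebra k Ft]
    [Field Ω] [Field FΩ] [Algebra Ω FΩ] [Field k2] [Field Ft2] [Algebra k2 Ft2]
    [Algebra K Ω] [Algebra F FΩ] [Algebra k k2] [Algebra Ft Ft2]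
    [IsAlgClosed K] [CharZero K] [IsAlgClosed k] [IsAlgClosed Ω] [IsAlgClosed k2]
    {φ : Λ →+* K} {ψ : U →+* F} (hR : Real M K F φ ψ) (hφinj : Function.Injective φ)
    {φ₂ : Λ →+* k} {ψ₂ : U →+* Ft} (hR₂ : Real M k Ft φ₂ ψ₂)
    (A : ValuationSubring K) (π : A →+* k) (hπ : Function.Surjective π)
    (hπ0 : ∀ a : A, ¬ IsUnit a → π a = 0)
    (hφA : ∀ a : Λ, ∃ h : φ a ∈ A, π ⟨φ a, h⟩ = φ₂ a)
    (p : ℕ) [Fact p.Prime] [CharP k p] (halgp : ∀ a : k, ∃ m : ℕ, 0 < m ∧ a ^ p ^ m = a)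
    (ℓ : ℕ) [Fact ℓ.Prime] (hℓp : ℓ ≠ p)
    (hc : IsConstExt K F Ω FΩ) (hc2 : IsConstExt k Ft k2 Ft2)
    (htr : Algebra.trdeg K Ω < Cardinal.aleph0) (htr2 : Algebra.trdeg k k2 < Cardinal.aleph0)
    (V : ValuationSubring Ω) (πV : V →+* k2) (hπV : Function.Surjective πV)
    (hkerV : ∀ v : V, πV v = 0 ↔ v ∈ IsLocalRing.maximalIdeal V)
    (hVA : ∀ a : K, algebraMap K Ω a ∈ V ↔ a ∈ A)
    (hπA : ∀ (a : A) (ha : algebraMap K Ω (a : K) ∈ V), πV ⟨_, ha⟩ = algebraMap k k2 (π a))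
    (g : ℕ) (hg : g = genusFF Ω FΩ) (t : Fin g → Ω) (ht : AlgebraicIndependent K t)
    (halg : ∀ y : Ω, IsAlgebraic (IntermediateField.adjoin K (Set.range t)) y)
    (htV : ∀ i, t i ∈ V) (hind : AlgebraicIndependent k (fun i => πV ⟨t i, htV i⟩))
    (m : ℕ) :
    Nat.card (Pic0.torsion K F (ℓ ^ m)) = ℓ ^ (2 * genusFF K F * m) := by
  classical
  subst hg
  haveI : Infinite k := IsAlgClosed.instInfinite
  haveI : Infinite K := IsAlgClosed.instInfinite
  have hℓ : ℓ.Prime := Fact.out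
  -- the instance `(K, F; A → k, Ft)`
  obtain ⟨O, red, r, xO, a1, a2, a3, a4, a5, a6, a7, a8, a9, a10, a11, a12⟩ :=
    MainClosed56.exists_isRed M hR hR₂ hφinj A π hπ hπ0 hφA
  have hOut : RedOut M ψ ψ₂ A π O red r xO := ⟨a1, a2, a3, a4, a5, a6, a7, a8, a9, a10, a11, a12⟩
  have hG : GoodRed O red r xO := hOut.goodRed hR₂.exists_bad_set
  have hFF : IsFF1 K F (ψ M.x) := hR.isFF1
  have hFFk : IsFF1 k Ft (ψ₂ M.x) := hR₂.isFF1
  have hres : ∀ v : Place K F, RR.ResK v := hFF.resK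
  have hresk : ∀ v : Place k Ft, RR.ResK v := hFFk.resK
  -- (ANCHOR) on the special fibre
  have hanchor := Zeta.Anchor.anchor halgp hFFk ℓ hℓp
  have hℓk : (ℓ : k) ≠ 0 := by
    intro h0
    have h1 : p ∣ ℓ := (CharP.cast_eq_zero_iff k p ℓ).1 h0
    exact hℓp ((Nat.prime_dvd_prime_iff_eq (Fact.out : p.Prime) hℓ).1 h1).symm
  have hℓFt : (ℓ : Ft) ≠ 0 := by
    have h1 : (ℓ : Ft) = algebraMap k Ft (ℓ : k) := (map_natCast _ _).symm
    rw [h1]
    exact (_root_.map_ne_zero _).2 hℓk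
  have hℓF : (ℓ : F) ≠ 0 := by
    have h1 : (ℓ : F) = algebraMap K F (ℓ : K) := (map_natCast _ _).symm
    rw [h1]
    exact (_root_.map_ne_zero _).2 (Nat.cast_ne_zero.2 hℓ.ne_zero)
  -- the instance `(Ω, FΩ; V → k2, Ft2)`
  have hRΩ : Real M Ω FΩ ((algebraMap K Ω).comp φ) ((algebraMap F FΩ).comp ψ) :=
    RealBC.real_baseChange M hc hR
  have hR₂Ω : Real M k2 Ft2 ((algebraMap k k2).comp φ₂) ((algebraMap Ft Ft2).comp ψ₂) :=
    RealBC.real_baseChange M hc2 hR₂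
  have hφΩ : Function.Injective ((algebraMap K Ω).comp φ) :=
    (algebraMap K Ω).injective.comp hφinj
  have hπV0 : ∀ a : V, ¬ IsUnit a → πV a = 0 := fun a ha =>
    (hkerV a).2 ((IsLocalRing.mem_maximalIdeal a).2 ha)
  have hφV : ∀ a : Λ, ∃ h : ((algebraMap K Ω).comp φ) a ∈ V,
      πV ⟨((algebraMap K Ω).comp φ) a, h⟩ = ((algebraMap k k2).comp φ₂) a := by
    intro a
    obtain ⟨hmem, hval⟩ := hφA a
    have hmemV : algebraMap K Ω (φ a) ∈ V := (hVA (φ a)).2 hmem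
    refine ⟨hmemV, ?_⟩
    have h1 := hπA ⟨φ a, hmem⟩ hmemV
    rw [hval] at h1
    exact h1
  obtain ⟨O', red', r', xO', b1, b2, b3, b4, b5, b6, b7, b8, b9, b10, b11, b12⟩ :=
    MainClosed56.exists_isRed M hRΩ hR₂Ω hφΩ V πV hπV hπV0 hφV
  have hOut' : RedOut M ((algebraMap F FΩ).comp ψ) ((algebraMap Ft Ft2).comp ψ₂) V πV O' red' r'
      xO' := ⟨b1, b2, b3, b4, b5, b6, b7, b8, b9, b10, b11, b12⟩
  have hG' : GoodRed O' red' r' xO' := hOut'.goodRed hR₂Ω.exists_bad_set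
  -- the base-change maps
  have hb : IsBcPlace (BcGauss.bcPlace hc hres) := BcGauss.isBcPlace hc hres
  have hbk : IsBcPlace (BcGauss.bcPlace hc2 hresk) := BcGauss.isBcPlace hc2 hresk
  -- the base-change square
  have hsq : ∀ c : Pic0 K F, hG'.rho (bcPic0 hb c) = bcPic0 hbk (hG.rho c) := fun c =>
    SquaresOut90.rho_comm_bcPic hc hc2 hres hresk hG hG' hOut hOut' hR₂.chart hR₂.chart'
      hR₂Ω.chart hR₂Ω.chart' (fun u => rfl) (fun u => rfl) (fun a => (hVA a).2 a.2) hπA c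
  -- the constant instance
  obtain ⟨ρ0, hρ0β, hρ0inj⟩ := Const90.exists_rho0 M hc hR hφinj hres
  have hρ0β' : ∀ c : Pic0 K F, ρ0 (bcPic0 hb c) = c := hρ0β
  have hρK_inj : ∀ c : Pic0 K F, (∃ n : ℕ, ℓ ^ n • c = 0) → hG.rho c = 0 → c = 0 :=
    fun c hc h0 => LiftHyp.rho_inj_pow hG hℓFt c hc h0
  have hρ0_inj : ∀ a : Pic0 Ω FΩ, ℓ • a = 0 → ρ0 a = 0 → a = 0 := hρ0inj ℓ hℓF
  have htor : {y : Pic0 Ω FΩ | ℓ • y = 0}.Finite :=
    LiftHyp.htor ρ0 hG.rho ℓ hρ0_inj hρK_inj hanchor.1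
  -- the two frames
  have hF : Frame (K := K) (algebraMap F FΩ (ψ M.x)) hc.semilinearAut :=
    FrameOf.frame_of_isBcPlace hc hFF htr hb
  have hF2 : Frame (K := k) (algebraMap Ft Ft2 (ψ₂ M.x)) hc2.semilinearAut :=
    FrameOf.frame_of_isBcPlace hc2 hFFk htr2 hbk
  have hbc : ∀ (σ : Ω ≃ₐ[K] Ω) (v : Place K F),
      hc.semilinearAut σ • BcGauss.bcPlace hc hres v = BcGauss.bcPlace hc hres v :=
    BcGauss.semilinearAut_smul_bcPlace hc hres
  -- (DIV_Ω) and (LIFT_Ω)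
  have hdiv : ∀ c : Pic0 K F, ∃ a : Pic0 Ω FΩ, ℓ • a = bcPic0 hb c := fun c =>
    Lift.hdiv hF ⟨t, ht⟩ hℓ.pos htor hb hbc c
  have hlift : ∀ c : Pic0 K F, hG.rho c = 0 →
      ∃ a : Pic0 Ω FΩ, ℓ • a = bcPic0 hb c ∧ hG'.rho a = 0 :=
    LiftOfRedOut.hlift hc hc2 hR hR₂ hOut' hG' (hOut'.isChart_fin hR₂Ω.chart)
      (hOut'.isChart_inf hR₂Ω.chart') hF hF2 A π hkerV hVA hπA ht halg htV hind hℓ.pos htor hb
      hbc hG.rho (bcPic0 hbk) hsq
  -- the top seam
  exact Seam.card_torsion_of_seam ℓ hanchor hOut.genus.symm hG.rho (bcPic0 hb) ρ0 hG'.rho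
    (bcPic0 hbk) hρK_inj hG.rho_surjective hρ0β' hρ0_inj (BcMain.bcPic_injective hc2 hFFk) hsq
    hdiv hlift m

universe u v

/-- **S27 for `IsFF1`**: the `ℓ^m`-torsion of `Pic0 K F` has `ℓ^(2 g m)` elements. -/
theorem card_torsion {K : Type u} {F : Type v} [Field K] [Field F] [Algebra K F] [IsAlgClosed K]
    [CharZero K] {x₀ : F} (h₀ : IsFF1 K F x₀) (ℓ : ℕ) [Fact ℓ.Prime] (m : ℕ) :
    Nat.card (Pic0.torsion K F (ℓ ^ m)) = ℓ ^ (2 * genusFF K F * m) := by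
  classical
  have hℓ : ℓ.Prime := Fact.out
  obtain ⟨n, Λ, _, U, _, _, M, φ, ψ, hR, hφinj, -, ⟨s, hs⟩, hFF, -⟩ :=
    SpreadBTop.exists_model h₀ ∅
  obtain ⟨p, A, φ₂, hp, hpℓ, hchar, hac, halgp, hsurj, hnu, hφA⟩ :=
    Places.exists_place_mixed φ s hs ℓ hℓ.ne_zero
  haveI : Fact p.Prime := ⟨hp⟩
  haveI := hchar
  haveI := hac
  obtain ⟨Ft, _, _, ψ₂, hR₂, -, -⟩ := Model.exists_real M φ₂
  have hℓp : ℓ ≠ p := by
    rintro rfl
    exact hpℓ dvd_rfl
  have hker : ∀ a : A, IsLocalRing.residue A a = 0 ↔ a ∈ IsLocalRing.maximalIdeal A :=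
    fun a => IsLocalRing.residue_eq_zero_iff a
  obtain ⟨V, πΩ, hsurjV, hkerV, hVA, hπA, htc⟩ :=
    exists_valuation_omega A (IsLocalRing.residue A) hsurj hker (genusFF K F)
  have hc := ConstExt.isConstExt K F (Omega K (genusFF K F))
  have hc2 := ConstExt.isConstExt (IsLocalRing.ResidueField A) Ft
    (Omega (IsLocalRing.ResidueField A) (genusFF K F))
  have hg : genusFF K F = genusFF (Omega K (genusFF K F))
      (ConstExt.Model K F (Omega K (genusFF K F))) := (BcMain.genusFF_eq hc hFF).symm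
  have hind : AlgebraicIndependent (IsLocalRing.ResidueField A)
      (fun i => πΩ ⟨tcoord K (genusFF K F) i, (htc i).1⟩) := by
    have h1 : (fun i => πΩ ⟨tcoord K (genusFF K F) i, (htc i).1⟩)
        = tcoord (IsLocalRing.ResidueField A) (genusFF K F) := funext fun i => (htc i).2
    rw [h1]
    exact algebraicIndependent_tcoord _ _
  exact card_torsion_of_data M hR hφinj hR₂ A (IsLocalRing.residue A) hsurj hnu hφA p halgp ℓ hℓp
    hc hc2 (trdeg_lt K _) (trdeg_lt _ _) V πΩ hsurjV hkerV hVA hπA (genusFF K F) hg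
    (tcoord K (genusFF K F)) (algebraicIndependent_tcoord K _) (isAlgebraic_adjoin_tcoord K _)
    (fun i => (htc i).1) hind m

end Fermat.Agent.S27P.Inst.Main90
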