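/-
helper84 — S27 / (INST): the residue map `π₀` of the trace of `V` on `K`, in the binder shape of
`Inst.LiftAsm.hlift` / `Inst.LiftHyp.hJI` / `Val.GaussFam.resIndepFam_of_linearIndependent`, from
the clauses of `Inst.ValOmega.exists_valuation_omega` (row 526).

`A` a valuation ring of `K` with residue map `π : A →+* k`; `V` a valuation ring of `Ω ⊇ K` with
residue map `πΩ : V →+* k2`; `V ∩ K = A` (`hVA`) and `πΩ` restricts to `π` (`hcompat`).

* `pi0`        : `π₀ : V.comap (algebraMap K Ω) →+* k`;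
* `pi0_ker`    : `π₀ a = 0 → algebraMap K Ω a ∈ V.nonunits`            (= `hπ₀`);
* `pi0_comp`   : `πΩ ⟨algebraMap K Ω a, _⟩ = algebraMap k k2 (π₀ a)`    (= `hcomp`);
* `exists_pi0` : the three in one existential;
* `map_eq_zero_of_mem_nonunits`, `mem_maximalIdeal_of_map_eq_zero`, `map_eq_zero_of_not_isUnit` :
  the three forms of "`ker πΩ` is the maximal ideal of `V`" used by the (INST) consumers
  (`hπV`, `hker`, `hπ0`).

Mathlib only; every type in its own universe.
-/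
import Mathlib

set_option autoImplicit false

noncomputable section

namespace Fermat.Agent.S27P.Inst.Pi0

variable {K : Type*} {Ω : Type*} {k : Type*} {k2 : Type*} [Field K] [Field Ω] [Algebra K Ω]
  [Field k] [Field k2] [Algebra k k2]

/-- The residue map of the trace of `V` on `K`, when `V ∩ K = A`. -/
def pi0 (A : ValuationSubring K) (π : A →+* k) (V : ValuationSubring Ω)
    (hVA : ∀ a : K, algebraMap K Ω a ∈ V ↔ a ∈ A) : V.comap (algebraMap K Ω) →+* k :=
  π.comp (ValuationSubring.inclusion (V.comap (algebraMap K Ω)) A fun a ha => (hVA a).1 ha)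

theorem pi0_apply (A : ValuationSubring K) (π : A →+* k) (V : ValuationSubring Ω)
    (hVA : ∀ a : K, algebraMap K Ω a ∈ V ↔ a ∈ A) (a : V.comap (algebraMap K Ω)) :
    pi0 A π V hVA a = π ⟨(a : K), (hVA a).1 a.2⟩ := rfl

/-- `hcomp`: `πΩ` restricted to `K` is `π₀`. -/
theorem pi0_comp (A : ValuationSubring K) (π : A →+* k) (V : ValuationSubring Ω)
    (hVA : ∀ a : K, algebraMap K Ω a ∈ V ↔ a ∈ A) (πΩ : V →+* k2)
    (hcompat : ∀ (a : A) (ha : algebraMap K Ω (a : K) ∈ V),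
      πΩ ⟨algebraMap K Ω (a : K), ha⟩ = algebraMap k k2 (π a))
    (a : V.comap (algebraMap K Ω)) :
    πΩ ⟨algebraMap K Ω (a : K), a.2⟩ = algebraMap k k2 (pi0 A π V hVA a) :=
  hcompat ⟨(a : K), (hVA a).1 a.2⟩ a.2

/-- `hπ₀`: the kernel of `π₀` lies in the maximal ideal of `V`. -/
theorem pi0_ker (A : ValuationSubring K) (π : A →+* k) (V : ValuationSubring Ω)
    (hVA : ∀ a : K, algebraMap K Ω a ∈ V ↔ a ∈ A) (πΩ : V →+* k2)
    (hπΩ : ∀ v : V, πΩ v = 0 → v ∈ IsLocalRing.maximalIdeal V)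
    (hcompat : ∀ (a : A) (ha : algebraMap K Ω (a : K) ∈ V),
      πΩ ⟨algebraMap K Ω (a : K), ha⟩ = algebraMap k k2 (π a))
    (a : V.comap (algebraMap K Ω)) (ha : pi0 A π V hVA a = 0) :
    algebraMap K Ω (a : K) ∈ V.nonunits := by
  have h1 : πΩ ⟨algebraMap K Ω (a : K), a.2⟩ = 0 := by
    rw [pi0_comp A π V hVA πΩ hcompat a, ha, map_zero]
  exact ValuationSubring.coe_mem_nonunits_iff.2 (hπΩ _ h1)

/-- **`π₀`, `hπ₀`, `hcomp`** of `LiftAsm.hlift` / `LiftHyp.hJI` from the clauses of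
`ValOmega.exists_valuation_omega`. -/
theorem exists_pi0 (A : ValuationSubring K) (π : A →+* k) (V : ValuationSubring Ω)
    (πΩ : V →+* k2) (hπΩ : ∀ v : V, πΩ v = 0 ↔ v ∈ IsLocalRing.maximalIdeal V)
    (hVA : ∀ a : K, algebraMap K Ω a ∈ V ↔ a ∈ A)
    (hcompat : ∀ (a : A) (ha : algebraMap K Ω (a : K) ∈ V),
      πΩ ⟨algebraMap K Ω (a : K), ha⟩ = algebraMap k k2 (π a)) :
    ∃ π₀ : V.comap (algebraMap K Ω) →+* k,
      (∀ a : V.comap (algebraMap K Ω), π₀ a = 0 → algebraMap K Ω (a : K) ∈ V.nonunits) ∧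
      (∀ a : V.comap (algebraMap K Ω),
        πΩ ⟨algebraMap K Ω (a : K), a.2⟩ = algebraMap k k2 (π₀ a)) ∧
      ∀ a : V.comap (algebraMap K Ω), π₀ a = π ⟨(a : K), (hVA a).1 a.2⟩ :=
  ⟨pi0 A π V hVA, pi0_ker A π V hVA πΩ (fun v => (hπΩ v).1) hcompat,
    pi0_comp A π V hVA πΩ hcompat, pi0_apply A π V hVA⟩

/-! ### The kernel of the residue map, three forms -/

section Ker

variable {L : Type*} {κ : Type*} [Field L] [Field κ]

/-- `hπV`: nonunits of `V` are killed by the residue map. -/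
theorem map_eq_zero_of_mem_nonunits (V : ValuationSubring L) (πV : V →+* κ)
    (hπV : ∀ v : V, πV v = 0 ↔ v ∈ IsLocalRing.maximalIdeal V) (w : V)
    (hw : (w : L) ∈ V.nonunits) : πV w = 0 :=
  (hπV w).2 (ValuationSubring.coe_mem_nonunits_iff.1 hw)

/-- `hker`: the kernel of the residue map lies in the maximal ideal. -/
theorem mem_maximalIdeal_of_map_eq_zero (V : ValuationSubring L) (πV : V →+* κ)
    (hπV : ∀ v : V, πV v = 0 ↔ v ∈ IsLocalRing.maximalIdeal V) (a : V) (ha : πV a = 0) :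
    a ∈ IsLocalRing.maximalIdeal V :=
  (hπV a).1 ha

/-- `hπ0`: non-units of `V` are killed by the residue map. -/
theorem map_eq_zero_of_not_isUnit (V : ValuationSubring L) (πV : V →+* κ)
    (hπV : ∀ v : V, πV v = 0 ↔ v ∈ IsLocalRing.maximalIdeal V) (a : V) (ha : ¬ IsUnit a) :
    πV a = 0 :=
  (hπV a).2 ((IsLocalRing.mem_maximalIdeal a).2 ha)

/-- The residue map kills exactly the elements of valuation `< 1`: the converse direction in
`nonunits` form. -/
theorem mem_nonunits_of_map_eq_zero (V : ValuationSubring L) (πV : V →+* κ)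
    (hπV : ∀ v : V, πV v = 0 ↔ v ∈ IsLocalRing.maximalIdeal V) (a : V) (ha : πV a = 0) :
    (a : L) ∈ V.nonunits :=
  ValuationSubring.coe_mem_nonunits_iff.2 ((hπV a).1 ha)

end Ker

end Fermat.Agent.S27P.Inst.Pi0

end
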