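/-
S27 / (INST), row INST-B (twin seat, helper90): the two Pic0-level squares of the top seam, in
HYPOTHESIS FORM over helper13's `Inj.Centre.IsChart` and `Inj.RedPic`, and helper15's
`BC.BcDiv.IsBcPlace` / `bcPic0`.

* `valAt_of_ord_eq`   : a map of places with `(e v).ord (ι f) = v.ord f` preserves values;
* `r_comm`            : **(B2), places** — two reductions `r`, `r'` (each with two charts covering
                        the generic fibre) commute with base-change maps of places `e`, `et`: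
                        `r' (e P) = et (r P)`;
* `rho_comm`          : **(B2), classes** — `ρ' (bcPic0 c) = bcPic0 (ρ c)` (`hsq` of the top seam);
* `r_retract`         : **(B1), places** — the constant instance (special fibre `= (K, F)` itself,
                        `π ∘ j = id`): `r (bc Q) = Q`;
* `rho_retract`       : **(B1), classes** — `ρ0 (bcPic0 c) = c` (`hρ0β` of the top seam);
* `r_comm_model`, `r_retract_model` : the same at the chart sets of a `GR.Model`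
  (`S = {f | ∃ u : M.B, f = ψ₁ u}`, `T = {P | ∃ γ₀, EvK A π P (ψ₁ M.x) γ₀}`,
  `Tt = {Q | 0 ≤ Q.ord (ψ₂ M.x)}`, and the twins at infinity), from the clauses of the output of
  `GR.exists_isRed` as named hypotheses.

Every type in its own universe; characteristic-free.
-/
import Mathlib
import Fermat.Agent.S27P.Inj.RedPic
import Fermat.Agent.S27P.Inj.Centre
import Fermat.Agent.S27P.BC.BcDiv
import Fermat.Agent.S27P.GR.Defs

set_option autoImplicit false
set_option linter.unusedSectionVars false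
set_option linter.unusedVariables false

noncomputable section

namespace Fermat.Agent.S27P.Inst.Squares90

open AlgebraicCurve Fermat.Agent.Lib.Red.OneStep Fermat.Agent.Lib.Red.PlaceRed
  Fermat.Agent.S27P.Inj.Centre Fermat.Agent.S27P.Inj.RedPic Fermat.Agent.S27P.BC.BcDiv

/-! ### Values under a map of places -/

section Val

variable {K F Ω FΩ : Type*} [Field K] [Field F] [Field Ω] [Field FΩ] [Algebra K F]
  [Algebra Ω FΩ] [Algebra F FΩ]

/-- A map of places `e` with `(e v).ord (ι f) = v.ord f` preserves the values of functions. -/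
theorem valAt_of_ord_eq {e : Place K F → Place Ω FΩ}
    (he : ∀ (v : Place K F) (f : F), (e v).ord (algebraMap F FΩ f) = v.ord f)
    (j : K →+* Ω)
    (hj : ∀ c : K, algebraMap F FΩ (algebraMap K F c) = algebraMap Ω FΩ (j c))
    {P : Place K F} {f : F} {c : K} (h : ValAt P f c) :
    ValAt (e P) (algebraMap F FΩ f) (j c) := by
  by_cases hne : f = algebraMap K F c
  · rw [hne, hj]
    exact valAt_algebraMap _ _
  · have h1 : 0 < P.ord (f - algebraMap K F c) := (valAt_iff_ord P hne).1 h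
    apply valAt_of_ord_pos
    rw [← hj, ← map_sub, he]
    exact h1

end Val

/-! ### (B2): the base-change square -/

section Square

variable {L F k Ft : Type*} [Field L] [Field F] [Algebra L F] [Field k] [Field Ft] [Algebra k Ft]
variable {L' F' k' Ft' : Type*} [Field L'] [Field F'] [Algebra L' F'] [Field k'] [Field Ft']
  [Algebra k' Ft'] [Algebra F F'] [Algebra Ft Ft']
variable {A : ValuationSubring L} {π : A →+* k} {O : ValuationSubring F} {red : O →+* Ft}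
  {r : Place L F → Place k Ft}
variable {A' : ValuationSubring L'} {π' : A' →+* k'} {O' : ValuationSubring F'}
  {red' : O' →+* Ft'} {r' : Place L' F' → Place k' Ft'}

/-- **(B2), places, abstract form.**  Two charts on each side, covering the generic fibre of the
small side; the maps of places `e`, `et` preserve orders of functions; the functions of the charts
of the big side come from those of the small side.  Then `r' (e P) = et (r P)` for every `P`. -/
theorem r_comm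
    {S₁ S₂ : Set O} {T₁ T₂ : Set (Place L F)} {Tt₁ Tt₂ : Set (Place k Ft)}
    {S₁' S₂' : Set O'} {T₁' T₂' : Set (Place L' F')} {Tt₁' Tt₂' : Set (Place k' Ft')}
    (h₁ : IsChart A π O red r S₁ T₁ Tt₁) (h₂ : IsChart A π O red r S₂ T₂ Tt₂)
    (h₁' : IsChart A' π' O' red' r' S₁' T₁' Tt₁') (h₂' : IsChart A' π' O' red' r' S₂' T₂' Tt₂')
    (hcov : ∀ P : Place L F, P ∈ T₁ ∨ P ∈ T₂)
    (j : L →+* L') (jt : k →+* k')
    (hj : ∀ c : L, algebraMap F F' (algebraMap L F c) = algebraMap L' F' (j c))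
    (hjt : ∀ c : k, algebraMap Ft Ft' (algebraMap k Ft c) = algebraMap k' Ft' (jt c))
    (hjA : ∀ a : A, j (a : L) ∈ A')
    (hjπ : ∀ a : A, π' ⟨j (a : L), hjA a⟩ = jt (π a))
    {e : Place L F → Place L' F'} {et : Place k Ft → Place k' Ft'}
    (he : ∀ (v : Place L F) (f : F), (e v).ord (algebraMap F F' f) = v.ord f)
    (het : ∀ (v : Place k Ft) (f : Ft), (et v).ord (algebraMap Ft Ft' f) = v.ord f)
    (hS₁ : ∀ f' ∈ S₁', ∃ f ∈ S₁, ((f' : O') : F') = algebraMap F F' ((f : O) : F) ∧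
      red' f' = algebraMap Ft Ft' (red f))
    (hS₂ : ∀ f' ∈ S₂', ∃ f ∈ S₂, ((f' : O') : F') = algebraMap F F' ((f : O) : F) ∧
      red' f' = algebraMap Ft Ft' (red f))
    (heT₁ : ∀ P ∈ T₁, e P ∈ T₁') (heT₂ : ∀ P ∈ T₂, e P ∈ T₂')
    (hetT₁ : ∀ Q ∈ Tt₁, et Q ∈ Tt₁') (hetT₂ : ∀ Q ∈ Tt₂, et Q ∈ Tt₂') :
    ∀ P : Place L F, r' (e P) = et (r P) := by
  intro P
  rcases hcov P with hP | hP
  · exact IsChart.comm h₁ h₁' j jt (algebraMap F F') (algebraMap Ft Ft') e et hjA hjπ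
      (fun P f c h => valAt_of_ord_eq he j hj h) (fun Q f γ h => valAt_of_ord_eq het jt hjt h)
      hS₁ heT₁ hetT₁ P hP
  · exact IsChart.comm h₂ h₂' j jt (algebraMap F F') (algebraMap Ft Ft') e et hjA hjπ
      (fun P f c h => valAt_of_ord_eq he j hj h) (fun Q f γ h => valAt_of_ord_eq het jt hjt h)
      hS₂ heT₂ hetT₂ P hP

/-- **(B2), classes** (`hsq` of the top seam): if the reductions of places commute with the
base-change maps of places, the reductions on `Pic0` commute with `bcPic0`. -/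
theorem redPic0_bcPic0 (h : IsRed O red r) (hL : ∀ P : Place L F, P.deg = 1)
    (hk : ∀ Q : Place k Ft, Q.deg = 1) (h' : IsRed O' red' r')
    (hL' : ∀ P : Place L' F', P.deg = 1) (hk' : ∀ Q : Place k' Ft', Q.deg = 1)
    {e : Place L F → Place L' F'} {et : Place k Ft → Place k' Ft'}
    (hb : IsBcPlace e) (hbt : IsBcPlace et)
    (hsq : ∀ P : Place L F, r' (e P) = et (r P)) (c : Pic0 L F) :
    redPic0 h' hL' hk' (bcPic0 hb c) = bcPic0 hbt (redPic0 h hL hk c) :=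
  redPic0_comm h hL hk h' hL' hk' e et hsq (bcPic0 hb) (bcPic0 hbt)
    (fun D => by rw [bcPic0_mk]; exact congrArg Pic0.mk (Subtype.ext rfl))
    (fun D => by rw [bcPic0_mk]; exact congrArg Pic0.mk (Subtype.ext rfl)) c

/-- **(B2), classes, `GoodRed` form.** -/
theorem rho_comm {x : Oˣ} {x' : O'ˣ} (h : GoodRed O red r x) (h' : GoodRed O' red' r' x')
    {e : Place L F → Place L' F'} {et : Place k Ft → Place k' Ft'}
    (hb : IsBcPlace e) (hbt : IsBcPlace et)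
    (hsq : ∀ P : Place L F, r' (e P) = et (r P)) (c : Pic0 L F) :
    h'.rho (bcPic0 hb c) = bcPic0 hbt (h.rho c) :=
  redPic0_bcPic0 h.isRed h.degL h.degk h'.isRed h'.degL h'.degk hb hbt hsq c

end Square

/-! ### (B1): the constant instance -/

section Retract

variable {Ω FΩ K F : Type*} [Field Ω] [Field FΩ] [Algebra Ω FΩ] [Field K] [Field F] [Algebra K F]
  [Algebra F FΩ]
variable {A : ValuationSubring Ω} {π : A →+* K} {O : ValuationSubring FΩ} {red : O →+* F}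
  {r : Place Ω FΩ → Place K F}

/-- **(B1), places, abstract form.**  The special fibre is `(K, F)` itself, the residue map is a
retraction of `j : K → Ω`, every chart function is the image of its own reduction, and `bc` is a
map of places preserving orders.  Then `r (bc Q) = Q`. -/
theorem r_retract
    {S₁ S₂ : Set O} {T₁ T₂ : Set (Place Ω FΩ)} {Tt₁ Tt₂ : Set (Place K F)}
    (h₁ : IsChart A π O red r S₁ T₁ Tt₁) (h₂ : IsChart A π O red r S₂ T₂ Tt₂)
    (j : K →+* Ω)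
    (hj : ∀ c : K, algebraMap F FΩ (algebraMap K F c) = algebraMap Ω FΩ (j c))
    (hjA : ∀ c : K, j c ∈ A) (hjπ : ∀ c : K, π ⟨j c, hjA c⟩ = c)
    {bc : Place K F → Place Ω FΩ}
    (hbc : ∀ (v : Place K F) (f : F), (bc v).ord (algebraMap F FΩ f) = v.ord f)
    (hcov : ∀ Q : Place K F, (Q ∈ Tt₁ ∧ bc Q ∈ T₁) ∨ (Q ∈ Tt₂ ∧ bc Q ∈ T₂))
    (hS₁ : ∀ f ∈ S₁, ((f : O) : FΩ) = algebraMap F FΩ (red f))
    (hS₂ : ∀ f ∈ S₂, ((f : O) : FΩ) = algebraMap F FΩ (red f))
    (hval₁ : ∀ Q ∈ Tt₁, ∀ f ∈ S₁, ∃ γ : K, ValAt Q (red f) γ)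
    (hval₂ : ∀ Q ∈ Tt₂, ∀ f ∈ S₂, ∃ γ : K, ValAt Q (red f) γ) :
    ∀ Q : Place K F, r (bc Q) = Q := by
  have key : ∀ {S : Set O} {T : Set (Place Ω FΩ)} {Tt : Set (Place K F)},
      IsChart A π O red r S T Tt → (∀ f ∈ S, ((f : O) : FΩ) = algebraMap F FΩ (red f)) →
      (∀ Q ∈ Tt, ∀ f ∈ S, ∃ γ : K, ValAt Q (red f) γ) →
      ∀ Q : Place K F, Q ∈ Tt → bc Q ∈ T → r (bc Q) = Q := by
    intro S T Tt h hS hval Q hQ hT
    refine h.eq_of_vals hT hQ fun f hf c hc => ?_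
    obtain ⟨γ, hγ⟩ := hval Q hQ f hf
    have h1 : ValAt (bc Q) ((f : O) : FΩ) (j γ) := by
      rw [hS f hf]
      exact valAt_of_ord_eq hbc j hj hγ
    have hcc : (c : Ω) = j γ := hc.unique h1
    have hc' : c = ⟨j γ, hjA γ⟩ := Subtype.ext hcc
    rw [hc', hjπ]
    exact hγ
  intro Q
  rcases hcov Q with ⟨hQ, hT⟩ | ⟨hQ, hT⟩
  · exact key h₁ hS₁ hval₁ Q hQ hT
  · exact key h₂ hS₂ hval₂ Q hQ hT

/-- **(B1), classes** (`hρ0β` of the top seam): if `r ∘ bc = id` on places, the reduction on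
`Pic0` is a retraction of `bcPic0`. -/
theorem redPic0_bcPic0_retract (h : IsRed O red r) (hL : ∀ P : Place Ω FΩ, P.deg = 1)
    (hk : ∀ Q : Place K F, Q.deg = 1) {bc : Place K F → Place Ω FΩ} (hb : IsBcPlace bc)
    (hr : ∀ Q : Place K F, r (bc Q) = Q) (c : Pic0 K F) :
    redPic0 h hL hk (bcPic0 hb c) = c := by
  obtain ⟨D, rfl⟩ := Pic0.mk_surjective c
  rw [bcPic0_mk, redPic0_mk]
  refine congrArg Pic0.mk (Subtype.ext ?_)
  rw [coe_redDegZero, coe_bcDegZero, bcDiv_eq_mapDomain, ← Finsupp.mapDomain_comp]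
  have hid : r ∘ bc = id := funext hr
  rw [hid, Finsupp.mapDomain_id]

/-- **(B1), classes, `GoodRed` form.** -/
theorem rho_retract {x : Oˣ} (h : GoodRed O red r x) {bc : Place K F → Place Ω FΩ}
    (hb : IsBcPlace bc) (hr : ∀ Q : Place K F, r (bc Q) = Q) (c : Pic0 K F) :
    h.rho (bcPic0 hb c) = c :=
  redPic0_bcPic0_retract h.isRed h.degL h.degk hb hr c

end Retract

/-! ### The two squares at the chart sets of a `GR.Model` -/

section Model

variable {Λ U : Type*} [CommRing Λ] [CommRing U] [Algebra Λ U] {n : ℕ}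

section SquareModel

variable {L F k Ft : Type*} [Field L] [Field F] [Algebra L F] [Field k] [Field Ft] [Algebra k Ft]
variable {L' F' k' Ft' : Type*} [Field L'] [Field F'] [Algebra L' F'] [Field k'] [Field Ft']
  [Algebra k' Ft'] [Algebra F F'] [Algebra Ft Ft']
variable {A : ValuationSubring L} {π : A →+* k} {O : ValuationSubring F} {red : O →+* Ft}
  {r : Place L F → Place k Ft}
variable {A' : ValuationSubring L'} {π' : A' →+* k'} {O' : ValuationSubring F'}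
  {red' : O' →+* Ft'} {r' : Place L' F' → Place k' Ft'}

/-- **(B2), places, at a model.**  Two reductions of realisations `(ψ₁, ψ₂)`, `(ψ₁', ψ₂')` of the
same model `M`, the second obtained from the first by the field maps `F → F'`, `Ft → Ft'`; the two
charts of each in the chart sets of record; `e`, `et` maps of places preserving the orders of
functions.  Then `r' (e P) = et (r P)`. -/
theorem r_comm_model (M : Fermat.Agent.S27P.GR.Model Λ U n)
    {ψ₁ : U →+* F} {ψ₂ : U →+* Ft} {ψ₁' : U →+* F'} {ψ₂' : U →+* Ft'}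
    (hψ₁ : ∀ u : U, ψ₁' u = algebraMap F F' (ψ₁ u))
    (hψ₂ : ∀ u : U, ψ₂' u = algebraMap Ft Ft' (ψ₂ u))
    (hcompat : ∀ u : U, ∃ h : ψ₁ u ∈ O, red ⟨ψ₁ u, h⟩ = ψ₂ u)
    (hcompat' : ∀ u : U, ∃ h : ψ₁' u ∈ O', red' ⟨ψ₁' u, h⟩ = ψ₂' u)
    (hfin : IsChart A π O red r {f : O | ∃ u : M.B, ((f : O) : F) = ψ₁ (u : U)}
      {P | ∃ γ₀ : k, EvK A π P (ψ₁ M.x) γ₀} {Q | 0 ≤ Q.ord (ψ₂ M.x)})
    (hinf : IsChart A π O red r {f : O | ∃ u : M.B', ((f : O) : F) = ψ₁ (u : U)}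
      {P | ∃ γ₀ : k, EvK A π P (ψ₁ M.x') γ₀} {Q | Q.ord (ψ₂ M.x) ≤ 0})
    (hfin' : IsChart A' π' O' red' r' {f : O' | ∃ u : M.B, ((f : O') : F') = ψ₁' (u : U)}
      {P | ∃ γ₀ : k', EvK A' π' P (ψ₁' M.x) γ₀} {Q | 0 ≤ Q.ord (ψ₂' M.x)})
    (hinf' : IsChart A' π' O' red' r' {f : O' | ∃ u : M.B', ((f : O') : F') = ψ₁' (u : U)}
      {P | ∃ γ₀ : k', EvK A' π' P (ψ₁' M.x') γ₀} {Q | Q.ord (ψ₂' M.x) ≤ 0})
    (hcov : ∀ P : Place L F,
      (∃ γ₀ : k, EvK A π P (ψ₁ M.x) γ₀) ∨ (∃ γ₀ : k, EvK A π P (ψ₁ M.x') γ₀))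
    (j : L →+* L') (jt : k →+* k')
    (hj : ∀ c : L, algebraMap F F' (algebraMap L F c) = algebraMap L' F' (j c))
    (hjt : ∀ c : k, algebraMap Ft Ft' (algebraMap k Ft c) = algebraMap k' Ft' (jt c))
    (hjA : ∀ a : A, j (a : L) ∈ A')
    (hjπ : ∀ a : A, π' ⟨j (a : L), hjA a⟩ = jt (π a))
    {e : Place L F → Place L' F'} {et : Place k Ft → Place k' Ft'}
    (he : ∀ (v : Place L F) (f : F), (e v).ord (algebraMap F F' f) = v.ord f)
    (het : ∀ (v : Place k Ft) (f : Ft), (et v).ord (algebraMap Ft Ft' f) = v.ord f) :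
    ∀ P : Place L F, r' (e P) = et (r P) := by
  have hS : ∀ (f' : O') (u : U), ((f' : O') : F') = ψ₁' u →
      ∃ f : O, ((f : O) : F) = ψ₁ u ∧ ((f' : O') : F') = algebraMap F F' ((f : O) : F) ∧
        red' f' = algebraMap Ft Ft' (red f) := by
    intro f' u hu
    obtain ⟨hmem, hred⟩ := hcompat u
    obtain ⟨hmem', hred'⟩ := hcompat' u
    have hf' : f' = ⟨ψ₁' u, hmem'⟩ := Subtype.ext hu
    refine ⟨⟨ψ₁ u, hmem⟩, rfl, ?_, ?_⟩
    · rw [hu, hψ₁]
    · rw [hf', hred', hred, hψ₂]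
  have hT : ∀ (z : U) (P : Place L F), (∃ γ₀ : k, EvK A π P (ψ₁ z) γ₀) →
      ∃ γ₀ : k', EvK A' π' (e P) (ψ₁' z) γ₀ := by
    rintro z P ⟨γ₀, a, -, hlt⟩
    refine ⟨π' ⟨j (a : L), hjA a⟩, ⟨j (a : L), hjA a⟩, rfl, ?_⟩
    have h1 : ValAt (e P) (algebraMap F F' (ψ₁ z)) (j (a : L)) :=
      valAt_of_ord_eq he j hj (show ValAt P (ψ₁ z) (a : L) from hlt)
    rw [hψ₁]
    exact h1
  refine r_comm hfin hinf hfin' hinf' hcov j jt hj hjt hjA hjπ he het ?_ ?_ ?_ ?_ ?_ ?_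
  · rintro f' ⟨u, hu⟩
    obtain ⟨f, hf, h1, h2⟩ := hS f' u hu
    exact ⟨f, ⟨u, hf⟩, h1, h2⟩
  · rintro f' ⟨u, hu⟩
    obtain ⟨f, hf, h1, h2⟩ := hS f' u hu
    exact ⟨f, ⟨u, hf⟩, h1, h2⟩
  · exact fun P hP => hT M.x P hP
  · exact fun P hP => hT M.x' P hP
  · intro Q hQ
    show 0 ≤ (et Q).ord (ψ₂' M.x)
    rw [hψ₂, het]
    exact hQ
  · intro Q hQ
    show (et Q).ord (ψ₂' M.x) ≤ 0
    rw [hψ₂, het]
    exact hQ

end SquareModel

section RetractModel

variable {Ω FΩ K F : Type*} [Field Ω] [Field FΩ] [Algebra Ω FΩ] [Field K] [Field F] [Algebra K F]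
  [Algebra F FΩ]
variable {A : ValuationSubring Ω} {π : A →+* K} {O : ValuationSubring FΩ} {red : O →+* F}
  {r : Place Ω FΩ → Place K F}

/-- **(B1), places, at a model.**  The constant instance: the reduction of the realisation
`(ψ₁, ψ₂)` with `ψ₁ = (F → FΩ) ∘ ψ₂`, the residue map `π` a retraction of `j : K → Ω`.  Then
`r (bc Q) = Q` for every map of places `bc` preserving the orders of functions. -/
theorem r_retract_model (M : Fermat.Agent.S27P.GR.Model Λ U n)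
    {ψ₁ : U →+* FΩ} {ψ₂ : U →+* F}
    (hψ : ∀ u : U, ψ₁ u = algebraMap F FΩ (ψ₂ u))
    (hcompat : ∀ u : U, ∃ h : ψ₁ u ∈ O, red ⟨ψ₁ u, h⟩ = ψ₂ u)
    (hfin : IsChart A π O red r {f : O | ∃ u : M.B, ((f : O) : FΩ) = ψ₁ (u : U)}
      {P | ∃ γ₀ : K, EvK A π P (ψ₁ M.x) γ₀} {Q | 0 ≤ Q.ord (ψ₂ M.x)})
    (hinf : IsChart A π O red r {f : O | ∃ u : M.B', ((f : O) : FΩ) = ψ₁ (u : U)}
      {P | ∃ γ₀ : K, EvK A π P (ψ₁ M.x') γ₀} {Q | Q.ord (ψ₂ M.x) ≤ 0})
    (j : K →+* Ω)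
    (hj : ∀ c : K, algebraMap F FΩ (algebraMap K F c) = algebraMap Ω FΩ (j c))
    (hjA : ∀ c : K, j c ∈ A) (hjπ : ∀ c : K, π ⟨j c, hjA c⟩ = c)
    {bc : Place K F → Place Ω FΩ}
    (hbc : ∀ (v : Place K F) (f : F), (bc v).ord (algebraMap F FΩ f) = v.ord f)
    (hres : ∀ (Q : Place K F) (f : F), 0 ≤ Q.ord f → ∃ γ : K, ValAt Q f γ)
    (hreg : ∀ (u : M.B) (Q : Place K F), 0 ≤ Q.ord (ψ₂ M.x) → 0 ≤ Q.ord (ψ₂ (u : U)))
    (hreg' : ∀ (u : M.B') (Q : Place K F), Q.ord (ψ₂ M.x) ≤ 0 → 0 ≤ Q.ord (ψ₂ (u : U))) :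
    ∀ Q : Place K F, r (bc Q) = Q := by
  have hx' : ψ₂ M.x' = (ψ₂ M.x)⁻¹ :=
    eq_inv_of_mul_eq_one_right (by rw [← map_mul, M.hxx', map_one])
  have hT : ∀ (z : U) (Q : Place K F), 0 ≤ Q.ord (ψ₂ z) → ∃ γ₀ : K, EvK A π (bc Q) (ψ₁ z) γ₀ := by
    intro z Q hz
    obtain ⟨γ, hγ⟩ := hres Q (ψ₂ z) hz
    refine ⟨π ⟨j γ, hjA γ⟩, ⟨j γ, hjA γ⟩, rfl, ?_⟩
    have h1 : ValAt (bc Q) (algebraMap F FΩ (ψ₂ z)) (j γ) := valAt_of_ord_eq hbc j hj hγ
    rw [hψ]
    exact h1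
  have hS : ∀ (f : O) (u : U), ((f : O) : FΩ) = ψ₁ u →
      red f = ψ₂ u ∧ ((f : O) : FΩ) = algebraMap F FΩ (red f) := by
    intro f u hu
    obtain ⟨hmem, hred⟩ := hcompat u
    have hf : f = ⟨ψ₁ u, hmem⟩ := Subtype.ext hu
    have h1 : red f = ψ₂ u := by rw [hf, hred]
    exact ⟨h1, by rw [hu, h1, hψ]⟩
  refine r_retract hfin hinf j hj hjA hjπ hbc ?_ ?_ ?_ ?_ ?_
  · intro Q
    by_cases h0 : 0 ≤ Q.ord (ψ₂ M.x)
    · exact Or.inl ⟨h0, hT M.x Q h0⟩
    · have h1 : Q.ord (ψ₂ M.x) ≤ 0 := by omega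
      refine Or.inr ⟨h1, hT M.x' Q ?_⟩
      rw [hx', Place.ord_inv]
      omega
  · rintro f ⟨u, hu⟩
    exact (hS f u hu).2
  · rintro f ⟨u, hu⟩
    exact (hS f u hu).2
  · rintro Q hQ f ⟨u, hu⟩
    rw [(hS f u hu).1]
    exact hres Q _ (hreg u Q hQ)
  · rintro Q hQ f ⟨u, hu⟩
    rw [(hS f u hu).1]
    exact hres Q _ (hreg' u Q hQ)

end RetractModel

end Model

end Fermat.Agent.S27P.Inst.Squares90
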